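import Mathlib.GroupTheory.Transfer
import Fermat.Agent.Grp.HomCl

/-!
# The interface of the Poincaré pairing

Restriction and corestriction of characters of finite index subgroups of `SL(2, ℤ)` and the
properties (`IsPoincarePairing`) of Poincaré duality on cuspidal characters that level raising uses.
-/

noncomputable section

namespace Fermat.Agent.Ihara

open scoped MatrixGroups
open Fermat.Agent.Grp

variable {G : Subgroup SL(2, ℤ)} {A : Type*} [AddCommGroup A]

/-- Restriction of a character to a smaller subgroup. -/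
def resHom {H : Subgroup SL(2, ℤ)} (h : H ≤ G) (φ : Additive G →+ A) : Additive H →+ A :=
  φ.comp (MonoidHom.toAdditive (Subgroup.inclusion h))

/-- Corestriction (transfer) of a character to a larger subgroup. -/
def coresHom {H : Subgroup SL(2, ℤ)} (h : H ≤ G) [H.FiniteIndex] (χ : Additive H →+ A) :
    Additive G →+ A :=
  MonoidHom.toAdditiveLeft (MonoidHom.transfer
    ((AddMonoidHom.toMultiplicativeRight χ).comp (Subgroup.subgroupOfEquivOfLe h).toMonoidHom))

/-- Finite index subgroups containing `-1`. -/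
structure Lev where
  /-- The subgroup. -/
  grp : Subgroup SL(2, ℤ)
  neg_mem : (-1 : SL(2, ℤ)) ∈ grp
  finiteIndex : grp.FiniteIndex

instance (X : Lev) : X.grp.FiniteIndex := X.finiteIndex

/-- A family of perfect pairings on `Hom_cl` with adjointness and invariance under positive
rational conjugations. -/
structure IsPoincarePairing (k : Type) [CommRing k]
    (P : ∀ X : Lev, clHoms k X.grp k →ₗ[k] clHoms k X.grp k →ₗ[k] k) : Prop where
  skew : ∀ (X : Lev) (φ ψ : clHoms k X.grp k), P X φ ψ = -P X ψ φ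
  left_nondeg : ∀ (X : Lev) (φ : clHoms k X.grp k), (∀ ψ, P X φ ψ = 0) → φ = 0
  adjoint : ∀ (X Y : Lev) (h : Y.grp ≤ X.grp) (φ : clHoms k X.grp k) (χ : clHoms k Y.grp k)
      (hr : resHom h (φ : Additive X.grp →+ k) ∈ clHoms k Y.grp k)
      (hc : coresHom h (χ : Additive Y.grp →+ k) ∈ clHoms k X.grp k),
      P Y ⟨_, hr⟩ χ = P X φ ⟨_, hc⟩
  invariant : ∀ (X Y : Lev) (e : Y.grp ≃* X.grp) (η : Matrix (Fin 2) (Fin 2) ℤ), 0 < η.det →
      (∀ γ : Y.grp, η * ((γ : SL(2, ℤ)) : Matrix (Fin 2) (Fin 2) ℤ)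
        = ((e γ : SL(2, ℤ)) : Matrix (Fin 2) (Fin 2) ℤ) * η) →
      ∀ (φ ψ : clHoms k X.grp k)
        (hφ : (φ : Additive X.grp →+ k).comp (MonoidHom.toAdditive e.toMonoidHom)
          ∈ clHoms k Y.grp k)
        (hψ : (ψ : Additive X.grp →+ k).comp (MonoidHom.toAdditive e.toMonoidHom)
          ∈ clHoms k Y.grp k),
      P Y ⟨_, hφ⟩ ⟨_, hψ⟩ = P X φ ψ

end Fermat.Agent.Ihara
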