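import Fermat.Agent.Grp.Elements
import Fermat.Agent.Hecke.ClHoms
import Fermat.Agent.Ihara.PairingSpec

/-!
# Restriction and corestriction of characters

For subgroups `H ≤ G` of finite index in `SL(2, ℤ)` this file proves the basic properties of the
transfer `coresHom` from characters of `H` to characters of `G`: a formula in terms of any system of
coset representatives, additivity, functoriality in the values, `cores ∘ res = [G : H]`, and
preservation of the cuspidal classes `IsClHom`. These are used for the degeneracy maps in the proof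
of level raising.
-/

noncomputable section

namespace Fermat.Agent.Ihara

open scoped MatrixGroups
open Fermat.Agent.Grp Fermat.Agent.Hecke

/-- The transfer computed with an arbitrary complete system of representatives. -/
theorem transfer_apply_reps {G B : Type*} [Group G] [CommGroup B] {H : Subgroup G} [H.FiniteIndex]
    (f : H →* B) {ι : Type*} [Fintype ι] (r : ι → G)
    (hr : Function.Bijective fun i => ((r i : G) : G ⧸ H)) (g : G) (σ : ι → ι)
    (hσ : ∀ i, (r (σ i))⁻¹ * (g * r i) ∈ H) :
    MonoidHom.transfer f g = ∏ i, f ⟨(r (σ i))⁻¹ * (g * r i), hσ i⟩ := by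
  let e := Equiv.ofBijective _ hr
  let t : G ⧸ H → G := fun x => r (e.symm x)
  have ht : ∀ x, ((t x : G) : G ⧸ H) = x := fun x => e.apply_symm_apply x
  let T : H.LeftTransversal := ⟨Set.range t, Subgroup.isComplement_range_left ht⟩
  have hT : ∀ x, ((T.2.leftQuotientEquiv x : G)) = t x :=
    fun x => Subgroup.IsComplement.leftQuotientEquiv_apply ht x
  rw [MonoidHom.transfer_def _ T g, Subgroup.leftTransversals.diff]
  refine (@Equiv.prod_comp _ _ _ _ H.fintypeQuotientOfFiniteIndex _
    (e.trans (MulAction.toPerm g)) _).symm.trans ?_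
  refine Finset.prod_congr rfl fun i _ => congrArg f (Subtype.ext ?_)
  have e1 : (((g • T).2.leftQuotientEquiv (g • e i) : G)) = g * t (e i) := by
    rw [Subgroup.smul_apply_eq_smul_apply_inv_smul, inv_smul_smul, smul_eq_mul, hT]
  have e2 : e.symm (g • e i) = σ i := by
    rw [Equiv.symm_apply_eq]
    show g • ((r i : G) : G ⧸ H) = ((r (σ i) : G) : G ⧸ H)
    exact (QuotientGroup.eq.mpr (hσ i)).symm
  show ((T.2.leftQuotientEquiv (g • e i) : G))⁻¹ *
    ((g • T).2.leftQuotientEquiv (g • e i) : G) = _
  rw [hT, e1]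
  simp only [t, e.symm_apply_apply, e2]

/-- A transfer vanishes at `g` if `f` kills all conjugates of powers of `g`. -/
theorem transfer_eq_one_of_forall {G B : Type*} [Group G] [CommGroup B] {H : Subgroup G}
    [H.FiniteIndex] (f : H →* B) (g : G)
    (hf : ∀ (t : G) (n : ℕ) (h : t⁻¹ * g ^ n * t ∈ H), f ⟨t⁻¹ * g ^ n * t, h⟩ = 1) :
    MonoidHom.transfer f g = 1 := by
  have := H.fintypeQuotientOfFiniteIndex
  have : Fintype (Quotient (MulAction.orbitRel (Subgroup.zpowers g) (G ⧸ H))) := Fintype.ofFinite _
  rw [MonoidHom.transfer_eq_prod_quotient_orbitRel_zpowers_quot]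
  exact Finset.prod_eq_one fun x _ => hf _ _ _

variable {G H : Subgroup SL(2, ℤ)} (h : H ≤ G) [H.FiniteIndex]
variable {A B : Type*} [AddCommGroup A] [AddCommGroup B]

/-- Corestriction computed with any system of coset representatives. -/
theorem coresHom_apply_reps (χ : Additive H →+ A) {ι : Type*} [Fintype ι] (r : ι → G)
    (hr : Function.Bijective fun i => ((r i : G) : G ⧸ H.subgroupOf G)) (g : G) (σ : ι → ι)
    (hσ : ∀ i, ((r (σ i))⁻¹ * (g * r i) : G).1 ∈ H) :
    coresHom h χ (Additive.ofMul g) =
      ∑ i, χ (Additive.ofMul ⟨((r (σ i))⁻¹ * (g * r i) : G).1, hσ i⟩) := by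
  show Multiplicative.toAdd (MonoidHom.transfer _ g) = _
  rw [transfer_apply_reps _ r hr g σ fun i => Subgroup.mem_subgroupOf.mpr (hσ i), toAdd_prod]
  rfl

/-- Corestriction written with the cosets themselves. -/
theorem coresHom_apply (χ : Additive H →+ A) [Fintype (G ⧸ H.subgroupOf G)] (g : G) :
    coresHom h χ (Additive.ofMul g) = ∑ i : G ⧸ H.subgroupOf G,
      χ (Additive.ofMul ⟨((g • i).out⁻¹ * (g * i.out) : G).1,
        Subgroup.mem_subgroupOf.mp (cocycle_mem Quotient.out QuotientGroup.out_eq' g i)⟩) :=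
  coresHom_apply_reps h χ (fun i : G ⧸ H.subgroupOf G => i.out)
    (by simp only [QuotientGroup.out_eq']; exact Function.bijective_id) g (fun i => g • i)
    fun i => Subgroup.mem_subgroupOf.mp (cocycle_mem Quotient.out QuotientGroup.out_eq' g i)

theorem coresHom_add (χ χ' : Additive H →+ A) :
    coresHom h (χ + χ') = coresHom h χ + coresHom h χ' := by
  have := (H.subgroupOf G).fintypeQuotientOfFiniteIndex
  refine addChar_ext fun g => ?_
  simp only [AddMonoidHom.add_apply, coresHom_apply, Finset.sum_add_distrib]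

theorem coresHom_comp (f : A →+ B) (χ : Additive H →+ A) :
    coresHom h (f.comp χ) = f.comp (coresHom h χ) := by
  have := (H.subgroupOf G).fintypeQuotientOfFiniteIndex
  refine addChar_ext fun g => ?_
  rw [AddMonoidHom.comp_apply, coresHom_apply, coresHom_apply, map_sum]
  rfl

theorem coresHom_smul {R : Type*} [Semiring R] [Module R A] (c : R) (χ : Additive H →+ A) :
    coresHom h (c • χ) = c • coresHom h χ :=
  coresHom_comp h (DistribSMul.toAddMonoidHom A c) χ

/-- Restriction followed by corestriction is multiplication by the index. -/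
theorem coresHom_res (φ : Additive G →+ A) :
    coresHom h (resHom h φ) = (H.subgroupOf G).index • φ := by
  have := (H.subgroupOf G).fintypeQuotientOfFiniteIndex
  refine addChar_ext fun g => ?_
  rw [coresHom_apply]
  have hperm : ∑ x : G ⧸ H.subgroupOf G, φ (Additive.ofMul (Quotient.out (g • x))) =
      ∑ x : G ⧸ H.subgroupOf G, φ (Additive.ofMul (Quotient.out x)) :=
    Fintype.sum_bijective (fun x => g • x) (MulAction.bijective g) _ _ fun _ => rfl
  have hterm : ∀ i : G ⧸ H.subgroupOf G,
      resHom h φ (Additive.ofMul ⟨((g • i).out⁻¹ * (g * i.out) : G).1,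
        Subgroup.mem_subgroupOf.mp (cocycle_mem Quotient.out QuotientGroup.out_eq' g i)⟩) =
      -φ (Additive.ofMul (g • i).out) + (φ (Additive.ofMul g) + φ (Additive.ofMul i.out)) := by
    intro i
    show φ (Additive.ofMul ((g • i).out⁻¹ * (g * i.out))) = _
    simp [ofMul_mul]
  rw [Finset.sum_congr rfl fun i _ => hterm i, Finset.sum_add_distrib, Finset.sum_add_distrib,
    Finset.sum_neg_distrib, hperm, Finset.sum_const, Finset.card_univ, AddMonoidHom.nsmul_apply,
    Subgroup.index, Nat.card_eq_fintype_card]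
  abel

/-- Corestriction keeps the cuspidal classes. -/
theorem isClHom_coresHom {χ : Additive H →+ A} (hχ : IsClHom H χ) : IsClHom G (coresHom h χ) := by
  intro g hg
  show Multiplicative.toAdd (MonoidHom.transfer _ g) = 0
  rw [transfer_eq_one_of_forall _ g fun t n ht => ?_, toAdd_one]
  have h2 : |tr ((t⁻¹ * g ^ n * t : G) : SL(2, ℤ))| ≤ 2 := by
    rw [Subgroup.coe_mul, Subgroup.coe_mul, Subgroup.coe_inv, Subgroup.coe_pow]
    have := tr_conj (t : SL(2, ℤ))⁻¹ ((g : SL(2, ℤ)) ^ n)
    rw [inv_inv] at this
    rw [this]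
    exact abs_tr_pow_le_two hg _
  exact Multiplicative.ext (hχ ⟨((t⁻¹ * g ^ n * t : G) : SL(2, ℤ)),
      Subgroup.mem_subgroupOf.mp ht⟩ h2)

omit [H.FiniteIndex] in
theorem isClHom_resHom {φ : Additive G →+ A} (hφ : IsClHom G φ) : IsClHom H (resHom h φ) :=
  fun γ hγ => hφ (Subgroup.inclusion h γ) hγ

end Fermat.Agent.Ihara
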