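import Mathlib.Data.ZMod.Units
import Mathlib.NumberTheory.LSeries.PrimesInAP
import Mathlib.RingTheory.Coprime.Lemmas
import Mathlib.Tactic.Linarith
import Mathlib.Tactic.LinearCombination

/-!
# Primes in progressions with controlled `gcd(r - 1, e)`

By Dirichlet's theorem a residue class `a mod K` prime to `K` contains arbitrarily large primes `r`
with `gcd(r - 1, e)` dividing `2 gcd(K, e)`. These primes serve as auxiliary moduli in the
elementary proof of Ihara's lemma.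
-/

namespace Fermat.Agent.Ihara

/-- A residue coprime to `K` has a representative coprime to any given nonzero `m`. -/
theorem exists_isCoprime_add_mul {a K : ℤ} (hK : K ≠ 0) (h : IsCoprime a K) {m : ℤ} (hm : m ≠ 0) :
    ∃ y : ℤ, IsCoprime (a + K * y) m := by
  have : NeZero K.natAbs := ⟨Int.natAbs_ne_zero.mpr hK⟩
  have : NeZero (K.natAbs * m.natAbs) :=
    ⟨Nat.mul_ne_zero (Int.natAbs_ne_zero.mpr hK) (Int.natAbs_ne_zero.mpr hm)⟩
  have hu : IsUnit ((a : ℤ) : ZMod K.natAbs) := (ZMod.coe_int_isUnit_iff_isCoprime _ _).mpr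
    (by rw [Int.natCast_natAbs]; exact h.symm.abs_left)
  obtain ⟨u, hu'⟩ := ZMod.unitsMap_surjective (dvd_mul_right K.natAbs m.natAbs) hu.unit
  have hval := congrArg Units.val hu'
  rw [ZMod.unitsMap_val, IsUnit.unit_spec] at hval
  set r : ℤ := ((u : ZMod (K.natAbs * m.natAbs)).val : ℤ) with hr
  have hr1 : ((r : ℤ) : ZMod K.natAbs) = (a : ZMod K.natAbs) := by
    rw [hr, Int.cast_natCast, ← hval]
    simp
  obtain ⟨y, hy⟩ : (K : ℤ) ∣ r - a := by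
    rw [← sub_eq_zero, ← Int.cast_sub, ZMod.intCast_zmod_eq_zero_iff_dvd, Int.natCast_natAbs,
      abs_dvd] at hr1
    exact hr1
  refine ⟨y, ?_⟩
  rw [show a + K * y = r by linarith, Int.isCoprime_iff_gcd_eq_one, Int.gcd, hr, Int.natAbs_natCast]
  exact Nat.Coprime.coprime_mul_left_right (ZMod.val_coe_unit_coprime u)

/-- Split off from `e` the part coprime to `K`. -/
theorem exists_coprime_split (K e : ℕ) (he : 0 < e) :
    ∃ e₁ e₂ k : ℕ, e = e₁ * e₂ ∧ Nat.Coprime e₁ K ∧ Nat.Coprime e₁ e₂ ∧ e₂ ∣ K ^ k := by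
  induction e using Nat.strong_induction_on with
  | _ e ih =>
  by_cases h : Nat.Coprime e K
  · exact ⟨e, 1, 0, by simp, h, Nat.coprime_one_right _, by simp⟩
  obtain ⟨s, hs, hse, hsK⟩ := Nat.Prime.not_coprime_iff_dvd.mp h
  obtain ⟨e', rfl⟩ := hse
  have he' : 0 < e' := Nat.pos_of_mul_pos_left he
  obtain ⟨e₁, e₂, k, h0, h1, h2, h3⟩ := ih e' (by nlinarith [hs.two_le]) he'
  refine ⟨e₁, s * e₂, k + 1, by rw [h0]; ring, h1,
    Nat.Coprime.mul_right (Nat.Coprime.of_dvd_right hsK h1) h2, ?_⟩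
  rw [pow_succ']
  exact Nat.mul_dvd_mul hsK h3

/-- A prime `r ≡ a (mod K)` with `gcd(r-1, e) ∣ 2 gcd(K, e)`, avoiding any finite set. -/
theorem exists_prime_modEq_gcd {a K : ℤ} (hK : K ≠ 0) (h : IsCoprime a K) {e : ℕ} (he : 0 < e)
    (B : ℕ) :
    ∃ r : ℕ, r.Prime ∧ B < r ∧ K ∣ (r : ℤ) - a ∧ Nat.gcd (r - 1) e ∣ 2 * Nat.gcd K.natAbs e := by
  obtain ⟨e₁, e₂, k, rfl, h1, h12, h2⟩ := exists_coprime_split K.natAbs e he
  have he1 : 0 < e₁ := Nat.pos_of_mul_pos_right he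
  have he2 : 0 < e₂ := Nat.pos_of_mul_pos_left he
  set G : ℕ := Int.gcd (a - 1) K with hG
  have hG0 : 0 < G := Int.gcd_pos_of_ne_zero_right _ hK
  obtain ⟨α, β, hαβ, hα, hβ⟩ := Int.exists_gcd_one hG0
  rw [← hG] at hα hβ
  have hβ0 : β ≠ 0 := fun h0 => hK (by rw [hβ, h0, zero_mul])
  obtain ⟨y₀, hy₀⟩ := exists_isCoprime_add_mul hβ0 (Int.isCoprime_iff_gcd_eq_one.mpr hαβ)
    (m := (e₂ : ℤ)) (by exact_mod_cast he2.ne')
  set a₀ := a + K * y₀ with ha₀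
  have ha₀K : IsCoprime a₀ K := h.add_mul_left_left y₀
  have he2K : (e₂ : ℤ) ∣ K ^ k := by
    rw [← Int.natCast_dvd_natCast, Nat.cast_pow, Int.natCast_natAbs] at h2
    rcases abs_choice K with hc | hc <;> rw [hc] at h2
    · exact h2
    · rw [neg_pow] at h2
      exact (IsUnit.dvd_mul_left ((isUnit_one.neg).pow k)).mp h2
  have ha₀e : IsCoprime a₀ (e₂ : ℤ) := (ha₀K.pow_right (n := k)).of_isCoprime_of_dvd_right he2K
  have hcop : IsCoprime (K * e₂) (e₁ : ℤ) := by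
    refine IsCoprime.mul_left ?_ (Nat.isCoprime_iff_coprime.mpr h12.symm)
    rw [Int.isCoprime_iff_gcd_eq_one, Int.gcd, Int.natAbs_natCast]
    exact h1.symm
  obtain ⟨u, v, huv⟩ := hcop
  set a₁ := a₀ * (v * e₁) + (-1) * (u * (K * e₂)) with ha₁
  have e1a : (K * e₂) ∣ a₁ - a₀ := ⟨(-1 - a₀) * u, by rw [ha₁]; linear_combination a₀ * huv⟩
  have e1b : (e₁ : ℤ) ∣ a₁ - (-1) := ⟨(a₀ + 1) * v, by rw [ha₁]; linear_combination (-1 : ℤ) * huv⟩
  have hunit : IsCoprime a₁ (K * e₂ * e₁) := by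
    refine IsCoprime.mul_right ?_ ?_
    · obtain ⟨z, hz⟩ := e1a
      rw [show a₁ = a₀ + (K * e₂) * z by linarith]
      exact (IsCoprime.mul_right ha₀K ha₀e).add_mul_left_left z
    · obtain ⟨z, hz⟩ := e1b
      rw [show a₁ = -1 + (e₁ : ℤ) * z by linarith]
      exact (isCoprime_one_left.neg_left).add_mul_left_left z
  set n := (K * e₂ * e₁).natAbs with hn
  have : NeZero n := ⟨Int.natAbs_ne_zero.mpr (mul_ne_zero (mul_ne_zero hK
    (by exact_mod_cast he2.ne')) (by exact_mod_cast he1.ne'))⟩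
  have hu1 : IsUnit ((a₁ : ℤ) : ZMod n) := (ZMod.coe_int_isUnit_iff_isCoprime _ _).mpr
    (by rw [hn, Int.natCast_natAbs]; exact hunit.symm.abs_left)
  obtain ⟨r, hrB, hr, hrn⟩ := Nat.forall_exists_prime_gt_and_eq_mod hu1 (B + 2)
  have hdiff : (K * e₂ * e₁) ∣ (r : ℤ) - a₁ := by
    have := (ZMod.intCast_zmod_eq_zero_iff_dvd ((r : ℤ) - a₁) n).mp
        (by push_cast; rw [hrn, sub_self])
    rwa [hn, Int.natCast_natAbs, abs_dvd] at this
  have hr1 : ((r - 1 : ℕ) : ℤ) = (r : ℤ) - 1 := by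
    have := hr.one_lt; omega
  refine ⟨r, hr, by omega, ?_, ?_⟩
  · have := dvd_add (dvd_add ((dvd_mul_right K (e₂ : ℤ)).trans
      ((dvd_mul_right _ (e₁ : ℤ)).trans hdiff)) ((dvd_mul_right K (e₂ : ℤ)).trans e1a))
      (dvd_mul_right K y₀)
    rwa [show (r : ℤ) - a₁ + (a₁ - a₀) + K * y₀ = (r : ℤ) - a by rw [ha₀]; ring] at this
  rw [Nat.Coprime.gcd_mul _ h12]
  refine Nat.mul_dvd_mul ?_ ?_
  · -- the part coprime to `K`: `r ≡ -1`
    rw [← Int.natCast_dvd_natCast]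
    have g1 : (Nat.gcd (r - 1) e₁ : ℤ) ∣ (r : ℤ) - 1 := hr1 ▸ Int.natCast_dvd_natCast.mpr
      (Nat.gcd_dvd_left _ _)
    have g2 : (Nat.gcd (r - 1) e₁ : ℤ) ∣ (r : ℤ) + 1 := by
      have h3 : (e₁ : ℤ) ∣ (r : ℤ) - a₁ := (dvd_mul_left _ _).trans hdiff
      have h4 := (Int.natCast_dvd_natCast.mpr (Nat.gcd_dvd_right (r - 1) e₁)).trans (dvd_add h3 e1b)
      rwa [show (r : ℤ) - a₁ + (a₁ - -1) = r + 1 by ring] at h4
    have := dvd_sub g2 g1
    rwa [show (r : ℤ) + 1 - (r - 1) = ((2 : ℕ) : ℤ) by push_cast; ring] at this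
  · -- the part made of primes of `K`: `r - 1 ≡ G t`, `t` a unit
    refine (Dvd.dvd.trans ?_ (Nat.gcd_dvd_gcd_of_dvd_left e₂ (Int.natCast_dvd_natCast.mp
      (show (G : ℤ) ∣ (K.natAbs : ℤ) by
          rw [Int.natCast_natAbs, dvd_abs]; exact Int.gcd_dvd_right _ _)))).trans
      (Nat.gcd_dvd_gcd_mul_left_right _ _ _)
    refine Nat.dvd_gcd ?_ (Nat.gcd_dvd_right _ _)
    rw [← Int.natCast_dvd_natCast]
    set g : ℤ := ((Nat.gcd (r - 1) e₂ : ℕ) : ℤ) with hg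
    have hg2 : g ∣ (e₂ : ℤ) := Int.natCast_dvd_natCast.mpr (Nat.gcd_dvd_right _ _)
    have g1 : g ∣ (r : ℤ) - 1 := hr1 ▸ Int.natCast_dvd_natCast.mpr (Nat.gcd_dvd_left _ _)
    have g3 : g ∣ (G : ℤ) * (α + β * y₀) := by
      have h3 : (e₂ : ℤ) ∣ (r : ℤ) - a₀ := by
        have := dvd_add (((dvd_mul_left (e₂ : ℤ) K).trans (dvd_mul_right _ (e₁ : ℤ))).trans hdiff)
          ((dvd_mul_left (e₂ : ℤ) K).trans e1a)
        rwa [show (r : ℤ) - a₁ + (a₁ - a₀) = r - a₀ by ring] at this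
      have := dvd_sub g1 (hg2.trans h3)
      rwa [show (r : ℤ) - 1 - (r - a₀) = (G : ℤ) * (α + β * y₀) by
        rw [ha₀]; linear_combination hα + y₀ * hβ] at this
    exact (hy₀.symm.of_isCoprime_of_dvd_left hg2).dvd_of_dvd_mul_right g3

end Fermat.Agent.Ihara
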