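import Mathlib.NumberTheory.ModularForms.CongruenceSubgroups
import Fermat.Agent.Grp.Elements

/-!
# Characters of `Γ(M)` and top rows

A character of `Γ(M)` killing all elements of trace two depends only on the top row `(a, b)`, and is
invariant under `(a, b) ↦ (a + b M y, b)` and `(a, b) ↦ (a, b + a M z)`. These are the elementary
moves in the proof of Ihara's lemma.
-/

namespace Fermat.Agent.Ihara

open scoped MatrixGroups
open Fermat.Agent.Grp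

/-- `φ` kills every element of trace `2`. -/
def KillsTrTwo (Γ : Subgroup SL(2, ℤ)) {A : Type*} [AddCommGroup A] (φ : Additive Γ →+ A) : Prop :=
  ∀ γ : Γ, tr (γ : SL(2, ℤ)) = 2 → φ (Additive.ofMul γ) = 0

theorem killsTrTwo_of_isClHom {Γ : Subgroup SL(2, ℤ)} {A : Type*} [AddCommGroup A]
    {φ : Additive Γ →+ A} (h : IsClHom Γ φ) : KillsTrTwo Γ φ := fun γ hγ =>
  h γ (by rw [hγ]; norm_num)

/-- Membership in `Γ(M)` in terms of divisibility of the entries. -/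
theorem Gamma_mem_iff_dvd {M : ℕ} {γ : SL(2, ℤ)} : γ ∈ CongruenceSubgroup.Gamma M ↔
    (M : ℤ) ∣ γ 0 0 - 1 ∧ (M : ℤ) ∣ γ 0 1 ∧ (M : ℤ) ∣ γ 1 0 ∧ (M : ℤ) ∣ γ 1 1 - 1 := by
  simp only [CongruenceSubgroup.Gamma_mem, ← ZMod.intCast_zmod_eq_zero_iff_dvd, Int.cast_sub,
    Int.cast_one, sub_eq_zero]

/-- `!![1, 0; x, 1]`. -/
def lowerE (x : ℤ) : SL(2, ℤ) := ⟨!![1, 0; x, 1], by simp⟩

/-- `!![1, x; 0, 1]`. -/
def upperE (x : ℤ) : SL(2, ℤ) := ⟨!![1, x; 0, 1], by simp⟩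

theorem lowerE_entries (x : ℤ) :
    lowerE x 0 0 = 1 ∧ lowerE x 0 1 = 0 ∧ lowerE x 1 0 = x ∧ lowerE x 1 1 = 1 := by simp [lowerE]

theorem upperE_entries (x : ℤ) :
    upperE x 0 0 = 1 ∧ upperE x 0 1 = x ∧ upperE x 1 0 = 0 ∧ upperE x 1 1 = 1 := by simp [upperE]

theorem tr_lowerE (x : ℤ) : tr (lowerE x) = 2 := by
  rw [tr_eq, (lowerE_entries x).1, (lowerE_entries x).2.2.2]; norm_num

theorem tr_upperE (x : ℤ) : tr (upperE x) = 2 := by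
  rw [tr_eq, (upperE_entries x).1, (upperE_entries x).2.2.2]; norm_num

theorem lowerE_mem_Gamma {M : ℕ} {x : ℤ} (h : (M : ℤ) ∣ x) :
    lowerE x ∈ CongruenceSubgroup.Gamma M := by
  rw [Gamma_mem_iff_dvd]; simp [lowerE, h]

theorem upperE_mem_Gamma {M : ℕ} {x : ℤ} (h : (M : ℤ) ∣ x) :
    upperE x ∈ CongruenceSubgroup.Gamma M := by
  rw [Gamma_mem_iff_dvd]; simp [upperE, h]

theorem entries_mul (g h : SL(2, ℤ)) :
    (g * h) 0 0 = g 0 0 * h 0 0 + g 0 1 * h 1 0 ∧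
    (g * h) 0 1 = g 0 0 * h 0 1 + g 0 1 * h 1 1 ∧
    (g * h) 1 0 = g 1 0 * h 0 0 + g 1 1 * h 1 0 ∧
    (g * h) 1 1 = g 1 0 * h 0 1 + g 1 1 * h 1 1 := by
  refine ⟨?_, ?_, ?_, ?_⟩ <;>
    simp [Matrix.SpecialLinearGroup.coe_mul, Matrix.mul_apply, Fin.sum_univ_two]

theorem entries_inv (g : SL(2, ℤ)) :
    g⁻¹ 0 0 = g 1 1 ∧ g⁻¹ 0 1 = -g 0 1 ∧ g⁻¹ 1 0 = -g 1 0 ∧ g⁻¹ 1 1 = g 0 0 := by
  refine ⟨?_, ?_, ?_, ?_⟩ <;>
    simp [Matrix.SpecialLinearGroup.coe_inv, Matrix.adjugate_fin_two]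

theorem lowerE_conj_row (x : ℤ) (γ : SL(2, ℤ)) :
    (lowerE x * γ * (lowerE x)⁻¹) 0 0 = γ 0 0 - γ 0 1 * x ∧
    (lowerE x * γ * (lowerE x)⁻¹) 0 1 = γ 0 1 := by
  obtain ⟨e1, e2, e3, e4⟩ := lowerE_entries x
  obtain ⟨i1, i2, i3, i4⟩ := entries_inv (lowerE x)
  obtain ⟨m1, m2, m3, m4⟩ := entries_mul (lowerE x) γ
  obtain ⟨n1, n2, -, -⟩ := entries_mul (lowerE x * γ) (lowerE x)⁻¹
  rw [n1, n2, i1, i2, i3, i4, m1, m2, e1, e2, e3, e4]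
  constructor <;> ring

variable {M : ℕ} {A : Type*} [AddCommGroup A]

local notation "ΓM" => CongruenceSubgroup.Gamma M

/-- Conjugation of a character of the normal subgroup `Γ(M)`. -/
def conjChar (g : SL(2, ℤ)) (ξ : Additive ΓM →+ A) : Additive ΓM →+ A :=
  ξ.comp (MonoidHom.toAdditive (MonoidHom.mk'
    (fun γ => (⟨g * γ * g⁻¹, (CongruenceSubgroup.Gamma_normal M).conj_mem _ γ.2 g⟩ : ΓM))
    (fun γ δ => by apply Subtype.ext; simp [mul_assoc])))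

theorem conjChar_apply (g : SL(2, ℤ)) (ξ : Additive ΓM →+ A) (γ : ΓM) :
    conjChar g ξ (Additive.ofMul γ) =
      ξ (Additive.ofMul ⟨g * γ * g⁻¹, (CongruenceSubgroup.Gamma_normal M).conj_mem _ γ.2 g⟩) :=
  rfl

theorem killsTrTwo_conjChar (g : SL(2, ℤ)) {ξ : Additive ΓM →+ A} (hξ : KillsTrTwo ΓM ξ) :
    KillsTrTwo ΓM (conjChar g ξ) := by
  intro γ hγ
  rw [conjChar_apply]
  exact hξ _ (by rw [← hγ]; exact tr_conj g γ)

/-- Conjugating twice is conjugating by the product. -/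
theorem conjChar_conjChar (g g' : SL(2, ℤ)) (ξ : Additive ΓM →+ A) :
    conjChar g' (conjChar g ξ) = conjChar (g * g') ξ := by
  refine AddMonoidHom.ext fun γ₀ => congrArg ξ (congrArg Additive.ofMul (Subtype.ext ?_))
  show g * (g' * _ * g'⁻¹) * g⁻¹ = g * g' * _ * (g * g')⁻¹
  group

/-- A character killing trace two depends only on the top row. -/
theorem eq_of_row {ξ : Additive ΓM →+ A} (hξ : KillsTrTwo ΓM ξ) (γ δ : ΓM)
    (h00 : (γ : SL(2, ℤ)) 0 0 = (δ : SL(2, ℤ)) 0 0)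
    (h01 : (γ : SL(2, ℤ)) 0 1 = (δ : SL(2, ℤ)) 0 1) :
    ξ (Additive.ofMul γ) = ξ (Additive.ofMul δ) := by
  have h := hξ (δ * γ⁻¹) (by
    rw [Subgroup.coe_mul, Subgroup.coe_inv, tr_eq]
    obtain ⟨m1, -, -, m4⟩ := entries_mul (δ : SL(2, ℤ)) (γ : SL(2, ℤ))⁻¹
    obtain ⟨i1, i2, i3, i4⟩ := entries_inv (γ : SL(2, ℤ))
    rw [m1, m4, i1, i2, i3, i4]
    linear_combination det_eq (δ : SL(2, ℤ)) + det_eq (γ : SL(2, ℤ))
      + ((δ : SL(2, ℤ)) 1 1 - (γ : SL(2, ℤ)) 1 1) * h00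
      + ((γ : SL(2, ℤ)) 1 0 - (δ : SL(2, ℤ)) 1 0) * h01)
  rw [ofMul_mul, ofMul_inv, map_add, map_neg, ← sub_eq_add_neg, sub_eq_zero] at h
  exact h.symm

/-- A matrix of `Γ(M)` with prescribed top row and lower left entry divisible by `Q`. -/
theorem exists_of_row {a b : ℤ} (hab : IsCoprime a b) (ha : (M : ℤ) ∣ a - 1) (hb : (M : ℤ) ∣ b)
    {Q : ℤ} (hQ : IsCoprime a Q) :
    ∃ γ : ΓM, (γ : SL(2, ℤ)) 0 0 = a ∧ (γ : SL(2, ℤ)) 0 1 = b ∧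
      ((M : ℤ) * Q) ∣ (γ : SL(2, ℤ)) 1 0 := by
  obtain ⟨x, y, hxy⟩ := hab
  have haM : IsCoprime a (M : ℤ) := by
    obtain ⟨z, hz⟩ := ha
    exact ⟨1, -z, by linear_combination hz⟩
  obtain ⟨u, v, huv⟩ := haM.mul_right hQ
  set c : ℤ := -y * v * ((M : ℤ) * Q) with hc
  set d : ℤ := x + b * (y * u) with hd
  have hdet : a * d - b * c = 1 := by
    rw [hc, hd]; linear_combination hxy + b * y * huv
  have hd1 : (M : ℤ) ∣ d - 1 := by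
    obtain ⟨z, hz⟩ := ha
    obtain ⟨w, hw⟩ := hb
    refine ⟨-(z * d) + w * c, ?_⟩
    linear_combination hdet + c * hw - d * hz
  refine ⟨⟨⟨!![a, b; c, d], by rw [Matrix.det_fin_two_of]; exact hdet⟩, ?_⟩, rfl, rfl,
    ⟨-y * v, by show c = _; rw [hc]; ring⟩⟩
  exact Gamma_mem_iff_dvd.mpr ⟨ha, hb, ⟨-y * v * Q, by show c = _; rw [hc]; ring⟩, hd1⟩

open Classical in
/-- The value on any matrix with top row `(a, b)`. -/
noncomputable def rowVal (ξ : Additive ΓM →+ A) (a b : ℤ) : A :=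
  if h : ∃ γ : ΓM, (γ : SL(2, ℤ)) 0 0 = a ∧ (γ : SL(2, ℤ)) 0 1 = b then
    ξ (Additive.ofMul h.choose) else 0

theorem rowVal_eq {ξ : Additive ΓM →+ A} (hξ : KillsTrTwo ΓM ξ) (γ : ΓM) {a b : ℤ}
    (ha : (γ : SL(2, ℤ)) 0 0 = a) (hb : (γ : SL(2, ℤ)) 0 1 = b) :
    rowVal ξ a b = ξ (Additive.ofMul γ) := by
  classical
  have h : ∃ γ : ΓM, (γ : SL(2, ℤ)) 0 0 = a ∧ (γ : SL(2, ℤ)) 0 1 = b := ⟨γ, ha, hb⟩
  rw [rowVal, dif_pos h]
  exact eq_of_row hξ _ _ (h.choose_spec.1.trans ha.symm) (h.choose_spec.2.trans hb.symm)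

/-- A row of an element of `Γ(M)`. -/
structure IsRow (M : ℕ) (a b : ℤ) : Prop where
  coprime : IsCoprime a b
  left : (M : ℤ) ∣ a - 1
  right : (M : ℤ) ∣ b

theorem isRow_of_mem (γ : ΓM) : IsRow M ((γ : SL(2, ℤ)) 0 0) ((γ : SL(2, ℤ)) 0 1) := by
  have h := Gamma_mem_iff_dvd.mp γ.2
  exact ⟨⟨(γ : SL(2, ℤ)) 1 1, -(γ : SL(2, ℤ)) 1 0,
    by linear_combination det_eq (γ : SL(2, ℤ))⟩, h.1, h.2.1⟩

theorem IsRow.shift_left {a b : ℤ} (h : IsRow M a b) (y : ℤ) : IsRow M (a + b * y) b :=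
  ⟨h.coprime.add_mul_left_left y, by
    rw [show a + b * y - 1 = a - 1 + b * y by ring]; exact dvd_add h.left (h.right.mul_right y),
    h.right⟩

theorem IsRow.shift_right {a b : ℤ} (h : IsRow M a b) (y : ℤ) :
    IsRow M a (b + a * ((M : ℤ) * y)) :=
  ⟨h.coprime.add_mul_left_right _, h.left,
    dvd_add h.right ((dvd_mul_right _ _).mul_left a)⟩

theorem IsRow.exists_elt {a b : ℤ} (h : IsRow M a b) :
    ∃ γ : ΓM, (γ : SL(2, ℤ)) 0 0 = a ∧ (γ : SL(2, ℤ)) 0 1 = b := by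
  obtain ⟨γ, h1, h2, -⟩ := exists_of_row (M := M) h.coprime h.left h.right
    (Q := 1) isCoprime_one_right
  exact ⟨γ, h1, h2⟩

/-- `(a, b) ↦ (a + b (M y), b)` does not change the value. -/
theorem rowVal_shift_left {ξ : Additive ΓM →+ A} (hξ : KillsTrTwo ΓM ξ) {a b : ℤ}
    (h : IsRow M a b) (y : ℤ) : rowVal ξ (a + b * ((M : ℤ) * y)) b = rowVal ξ a b := by
  obtain ⟨γ, h1, h2⟩ := h.exists_elt
  let e : ΓM := ⟨lowerE ((M : ℤ) * y), lowerE_mem_Gamma (dvd_mul_right _ _)⟩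
  obtain ⟨m1, m2, -, -⟩ := entries_mul (γ : SL(2, ℤ)) (e : SL(2, ℤ))
  obtain ⟨e1, e2, e3, e4⟩ := lowerE_entries ((M : ℤ) * y)
  rw [rowVal_eq hξ γ h1 h2, rowVal_eq hξ (γ * e) (by
      rw [Subgroup.coe_mul, m1, h1, h2, e1, e3]; ring) (by
      rw [Subgroup.coe_mul, m2, h1, h2, e2, e4]; ring),
    ofMul_mul, map_add, hξ e (tr_lowerE _), add_zero]

/-- `(a, b) ↦ (a, b + a (M y))` does not change the value. -/
theorem rowVal_shift_right {ξ : Additive ΓM →+ A} (hξ : KillsTrTwo ΓM ξ) {a b : ℤ}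
    (h : IsRow M a b) (y : ℤ) : rowVal ξ a (b + a * ((M : ℤ) * y)) = rowVal ξ a b := by
  obtain ⟨γ, h1, h2⟩ := h.exists_elt
  let e : ΓM := ⟨upperE ((M : ℤ) * y), upperE_mem_Gamma (dvd_mul_right _ _)⟩
  obtain ⟨m1, m2, -, -⟩ := entries_mul (γ : SL(2, ℤ)) (e : SL(2, ℤ))
  obtain ⟨e1, e2, e3, e4⟩ := upperE_entries ((M : ℤ) * y)
  rw [rowVal_eq hξ γ h1 h2, rowVal_eq hξ (γ * e) (by
      rw [Subgroup.coe_mul, m1, h1, h2, e1, e3]; ring) (by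
      rw [Subgroup.coe_mul, m2, h1, h2, e2, e4]; ring),
    ofMul_mul, map_add, hξ e (tr_upperE _), add_zero]

theorem rowVal_conjChar_lowerE {ξ : Additive ΓM →+ A} (hξ : KillsTrTwo ΓM ξ) (x : ℤ) {a b : ℤ}
    (h : IsRow M a b) : rowVal (conjChar (lowerE x) ξ) a b = rowVal ξ (a - b * x) b := by
  obtain ⟨γ, h1, h2⟩ := h.exists_elt
  obtain ⟨r1, r2⟩ := lowerE_conj_row x (γ : SL(2, ℤ))
  rw [rowVal_eq (killsTrTwo_conjChar _ hξ) γ h1 h2, conjChar_apply]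
  exact (rowVal_eq hξ _ (r1.trans (by rw [h1, h2])) (r2.trans h2)).symm

end Fermat.Agent.Ihara
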