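import Mathlib.FieldTheory.Finite.Basic
import Fermat.Agent.Ihara.NumberTheory
import Fermat.Agent.Ihara.Rows

/-!
# Row scaling

If a character of `Γ(M)` killing trace two is invariant under `b ↦ q²b` on top rows, it is invariant
under suitable translations of the upper left entry. This is the core of the elementary proof of
Ihara's lemma.
-/

namespace Fermat.Agent.Ihara

open scoped MatrixGroups
open Fermat.Agent.Grp

variable {M : ℕ} {A : Type*} [AddCommGroup A]

local notation "ΓM" => CongruenceSubgroup.Gamma M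

/-- Invariance under `(a, b; c, d) ↦ (a, q² b; c/q², d)`. -/
def RowScalable (q : ℕ) (ξ : Additive (CongruenceSubgroup.Gamma M) →+ A) : Prop :=
  ∀ γ γ' : CongruenceSubgroup.Gamma M,
    (γ' : SL(2, ℤ)) 0 0 = (γ : SL(2, ℤ)) 0 0 →
    (γ' : SL(2, ℤ)) 0 1 = (q : ℤ) ^ 2 * (γ : SL(2, ℤ)) 0 1 →
    (q : ℤ) ^ 2 * (γ' : SL(2, ℤ)) 1 0 = (γ : SL(2, ℤ)) 1 0 →
    (γ' : SL(2, ℤ)) 1 1 = (γ : SL(2, ℤ)) 1 1 →
    ξ (Additive.ofMul γ') = ξ (Additive.ofMul γ)

variable {q : ℕ} {ξ : Additive (CongruenceSubgroup.Gamma M) →+ A}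

/-- Scaling the upper right entry by `q²` does not change the value. -/
theorem rowVal_scale (hξ : KillsTrTwo ΓM ξ) (hs : RowScalable q ξ)
    {a b : ℤ} (h : IsRow M a b) (haq : IsCoprime a (q : ℤ)) :
    rowVal ξ a ((q : ℤ) ^ 2 * b) = rowVal ξ a b := by
  obtain ⟨γ, h1, h2, z, hz⟩ :=
    exists_of_row (M := M) h.coprime h.left h.right (Q := (q : ℤ) ^ 2) haq.pow_right
  have hdet := det_eq (γ : SL(2, ℤ))
  rw [h1, h2, hz] at hdet
  have hγ := Gamma_mem_iff_dvd.mp γ.2
  let γ' : ΓM := ⟨⟨!![a, (q : ℤ) ^ 2 * b; (M : ℤ) * z, (γ : SL(2, ℤ)) 1 1], by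
    rw [Matrix.det_fin_two_of]; linear_combination hdet⟩, by
    exact Gamma_mem_iff_dvd.mpr ⟨h.left, h.right.mul_left _, dvd_mul_right _ _, hγ.2.2.2⟩⟩
  rw [rowVal_eq hξ γ h1 h2, rowVal_eq hξ γ' (a := a) (b := (q : ℤ) ^ 2 * b) rfl rfl]
  refine hs γ γ' h1.symm ?_ ?_ rfl
  · show (q : ℤ) ^ 2 * b = _; rw [h2]
  · show (q : ℤ) ^ 2 * ((M : ℤ) * z) = _; rw [hz]; ring

theorem rowVal_scale_pow (hξ : KillsTrTwo ΓM ξ) (hs : RowScalable q ξ)
    {a b : ℤ} (h : IsRow M a b) (haq : IsCoprime a (q : ℤ)) (k : ℕ) :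
    rowVal ξ a ((q : ℤ) ^ (2 * k) * b) = rowVal ξ a b := by
  induction k with
  | zero => simp
  | succ k ih =>
    have h' : IsRow M a ((q : ℤ) ^ (2 * k) * b) :=
      ⟨(haq.pow_right).mul_right h.coprime, h.left, h.right.mul_left _⟩
    rw [show (q : ℤ) ^ (2 * (k + 1)) * b = (q : ℤ) ^ 2 * ((q : ℤ) ^ (2 * k) * b) by ring,
      rowVal_scale hξ hs h' haq, ih]

/-- If `v = q^(2L)` is `1` modulo a representative of `a + b x`, then the shift by
`(v - 1) x` does not change the value. -/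
theorem rowVal_translate (hξ : KillsTrTwo ΓM ξ) (hs : RowScalable q ξ)
    {a b x : ℤ} (h : IsRow M a b) (L : ℕ) {r : ℤ} (hr : (M : ℤ) * b ∣ r - (a + b * x))
    (hrq : IsCoprime r (q : ℤ)) (hrv : r ∣ (q : ℤ) ^ (2 * L) - 1) :
    rowVal ξ (a - b * (x * ((q : ℤ) ^ (2 * L) - 1))) b = rowVal ξ a b := by
  rcases Nat.eq_zero_or_pos L with hL | hL
  · subst hL; simp
  set v : ℤ := (q : ℤ) ^ (2 * L) with hv
  obtain ⟨y, hy⟩ := hr
  have hbase : IsRow M (a + b * x) b := h.shift_left x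
  have hrow : IsRow M r b := by
    have := hbase.shift_left ((M : ℤ) * y)
    rwa [show a + b * x + b * ((M : ℤ) * y) = r by linear_combination -hy] at this
  obtain ⟨z, hz⟩ := hrv
  obtain ⟨w, hw⟩ := hrow.right
  have hvb : v * b = b + r * ((M : ℤ) * (z * w)) := by
    linear_combination b * hz + r * z * hw
  have hrowv : IsRow M r (v * b) := by rw [hvb]; exact hrow.shift_right _
  have hχ := killsTrTwo_conjChar (lowerE x) hξ
  calc rowVal ξ (a - b * (x * (v - 1))) b
      = rowVal ξ (r - v * b * x) b := by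
        have h0 : IsRow M (a - b * (x * (v - 1))) b := by
          simpa [sub_eq_add_neg] using h.shift_left (-(x * (v - 1)))
        rw [← rowVal_shift_left hξ h0 y]
        congr 1; linear_combination -hy
    _ = rowVal ξ (r - v * b * x) (v * b) := by
        have h0 : IsRow M (r - v * b * x) b := by
          simpa [sub_eq_add_neg, mul_comm, mul_left_comm] using hrow.shift_left (-(v * x))
        refine (rowVal_scale_pow hξ hs h0 ?_ L).symm
        obtain ⟨t, ht⟩ : (q : ℤ) ∣ v := by rw [hv]; exact dvd_pow_self _ (by omega)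
        rw [show r - v * b * x = r + (q : ℤ) * (-(t * b * x)) by rw [ht]; ring]
        exact hrq.add_mul_left_left _
    _ = rowVal (conjChar (lowerE x) ξ) r (v * b) := (rowVal_conjChar_lowerE hξ x hrowv).symm
    _ = rowVal (conjChar (lowerE x) ξ) r b := by rw [hvb, rowVal_shift_right hχ hrow]
    _ = rowVal (conjChar (lowerE x) ξ) (a + b * x) b := by
        rw [← rowVal_shift_left hχ hbase y]; congr 1; linear_combination hy
    _ = rowVal ξ a b := by rw [rowVal_conjChar_lowerE hξ x hbase]; congr 1; ring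

end Fermat.Agent.Ihara
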