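import Mathlib.Data.Nat.Factorization.Basic
import Fermat.Agent.Ihara.Scaling

/-!
# Invariance under lower translations

A character of `Γ(N ℓ²)` that kills trace two and is invariant under scaling by `q²` is invariant
under conjugation by lower unipotent matrices with entry divisible by `N`. The auxiliary primes come
from `Fermat.Agent.Ihara.NumberTheory`.
-/

namespace Fermat.Agent.Ihara

open scoped MatrixGroups
open Fermat.Agent.Grp

theorem gcd_lcm_dvd {a b e T : ℕ} (ha : a ≠ 0) (hb : b ≠ 0) (h1 : Nat.gcd a e ∣ T)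
    (h2 : Nat.gcd b e ∣ T) : Nat.gcd (Nat.lcm a b) e ∣ T := by
  refine (Nat.dvd_iff_prime_pow_dvd_dvd _ _).mpr fun p k hp hpk => ?_
  have hl := Nat.dvd_gcd_iff.mp hpk
  have hfac := (hp.pow_dvd_iff_le_factorization (Nat.lcm_ne_zero ha hb)).mp hl.1
  rw [Nat.factorization_lcm ha hb, Finsupp.sup_apply, le_sup_iff] at hfac
  rcases hfac with h | h
  · exact (Nat.dvd_gcd ((hp.pow_dvd_iff_le_factorization ha).mpr h) hl.2).trans h1
  · exact (Nat.dvd_gcd ((hp.pow_dvd_iff_le_factorization hb).mpr h) hl.2).trans h2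

/-- `gcd(lcm f, e)` divides any common multiple of the `gcd(f i, e)`. -/
theorem finset_lcm_gcd_dvd {ι : Type*} (s : Finset ι) (f : ι → ℕ) (hf : ∀ i ∈ s, f i ≠ 0)
    {e T : ℕ} (h : ∀ i ∈ s, Nat.gcd (f i) e ∣ T) : Nat.gcd (s.lcm f) e ∣ T := by
  classical
  induction s using Finset.induction_on with
  | empty => simp
  | insert i s hi ih =>
    rw [Finset.lcm_insert]
    refine gcd_lcm_dvd (hf i (Finset.mem_insert_self _ _)) ?_ (h i (Finset.mem_insert_self _ _))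
      (ih (fun j hj => hf j (Finset.mem_insert_of_mem hj)) fun j hj =>
          h j (Finset.mem_insert_of_mem hj))
    rw [ne_eq, Finset.lcm_eq_zero_iff]
    rintro ⟨j, hj, hj0⟩
    exact hf j (Finset.mem_insert_of_mem hj) hj0

/-- Fermat's little theorem: `r ∣ q ^ n - 1` if `r - 1 ∣ n`, for a prime `r ∤ q`. -/
theorem dvd_pow_sub_one {r q n : ℕ} (hr : r.Prime) (hrq : ¬ r ∣ q) (hn : r - 1 ∣ n) :
    (r : ℤ) ∣ (q : ℤ) ^ n - 1 := by
  have : Fact r.Prime := ⟨hr⟩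
  obtain ⟨c, rfl⟩ := hn
  rw [← ZMod.intCast_zmod_eq_zero_iff_dvd]
  push_cast
  rw [pow_mul, ZMod.pow_card_sub_one_eq_one (mt (ZMod.natCast_eq_zero_iff q r).mp hrq),
    one_pow, sub_self]

/-- If `gcd(L, ℓ - 1) ∣ 2 N ^ 2` then `q ^ (2 L)` is `1` mod `ℓ` only if `q ^ (4 N ^ 2)` is. -/
theorem not_dvd_pow_sub_one {ℓ q N L : ℕ} (hℓ : ℓ.Prime) (hℓq : ¬ ℓ ∣ q)
    (hexp : ¬ (ℓ : ℤ) ∣ (q : ℤ) ^ (4 * N ^ 2) - 1) (hL : Nat.gcd L (ℓ - 1) ∣ 2 * N ^ 2) :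
    ¬ (ℓ : ℤ) ∣ (q : ℤ) ^ (2 * L) - 1 := by
  have : Fact ℓ.Prime := ⟨hℓ⟩
  intro hdvd
  apply hexp
  rw [← ZMod.intCast_zmod_eq_zero_iff_dvd] at hdvd ⊢
  push_cast at hdvd ⊢
  rw [sub_eq_zero] at hdvd ⊢
  have h1 : (q : ZMod ℓ) ^ Nat.gcd (2 * L) (ℓ - 1) = 1 := pow_gcd_eq_one.mpr
    ⟨hdvd, ZMod.pow_card_sub_one_eq_one (mt (ZMod.natCast_eq_zero_iff q ℓ).mp hℓq)⟩
  obtain ⟨c, hc⟩ : Nat.gcd (2 * L) (ℓ - 1) ∣ 2 * (2 * N ^ 2) := by
    refine (Nat.dvd_gcd (Nat.gcd_dvd_left _ _) ((Nat.gcd_dvd_right _ _).mul_left 2)).trans ?_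
    rw [Nat.gcd_mul_left]
    exact Nat.mul_dvd_mul_left 2 hL
  rw [show 4 * N ^ 2 = 2 * (2 * N ^ 2) by ring, hc, pow_mul, h1, one_pow]

/-- `gcd((N ℓ²)² x, ℓ - 1) ∣ N²` if `x` is prime to `ℓ - 1`. -/
theorem gcd_natAbs_dvd_sq {N ℓ : ℕ} (hℓ : ℓ.Prime) {x : ℤ}
    (hx : IsCoprime x ((ℓ - 1 : ℕ) : ℤ)) :
    Nat.gcd (((N * ℓ ^ 2 : ℕ) : ℤ) * ((N * ℓ ^ 2 : ℕ) : ℤ) * x).natAbs (ℓ - 1) ∣ N ^ 2 := by
  have e1 : (((N * ℓ ^ 2 : ℕ) : ℤ) * ((N * ℓ ^ 2 : ℕ) : ℤ) * x).natAbs =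
      N ^ 2 * ℓ ^ 4 * x.natAbs := by
    rw [Int.natAbs_mul, Int.natAbs_mul, Int.natAbs_natCast]; ring
  have c1 : Nat.Coprime (ℓ - 1) x.natAbs := by
    rw [Int.isCoprime_iff_gcd_eq_one, Int.gcd, Int.natAbs_natCast] at hx
    exact Nat.Coprime.symm hx
  have c2 : Nat.Coprime (ℓ - 1) (ℓ ^ 4) := Nat.Coprime.pow_right 4
    ((hℓ.coprime_iff_not_dvd.mpr fun h => by
      have := hℓ.two_le; have := Nat.le_of_dvd (by omega) h; omega).symm)
  rw [e1, Nat.gcd_comm, Nat.Coprime.gcd_mul_right_cancel_right _ c1.symm,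
    Nat.Coprime.gcd_mul_right_cancel_right _ c2.symm]
  exact Nat.gcd_dvd_right _ _

variable {A : Type*} [AddCommGroup A]

/-- For a prime `ℓ` with `q ^ (4 N ^ 2) ≢ 1 (mod ℓ)`, a character of `Γ(N ℓ²)` that kills trace
two and is invariant under scaling by `q²` is invariant under conjugation by `(1, 0; y, 1)` for
every multiple `y` of `N`. -/
theorem conjChar_lowerE_eq (N ℓ q : ℕ) (hN : 0 < N) (hℓ : ℓ.Prime)
    (hq : q.Prime) (hqℓ : q ≠ ℓ) (hexp : ¬ (ℓ : ℤ) ∣ (q : ℤ) ^ (4 * N ^ 2) - 1)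
    {M : ℕ} (hMdef : M = N * ℓ ^ 2)
    {ξ : Additive (CongruenceSubgroup.Gamma M) →+ A} (hξ : KillsTrTwo _ ξ)
    (hs : RowScalable q ξ) {y : ℤ} (hy : (N : ℤ) ∣ y) :
    conjChar (lowerE y) ξ = ξ := by
  have hl1 := hℓ.two_le
  have hM1 : 1 < M := by
    rw [hMdef]; exact lt_of_lt_of_le (one_lt_pow₀ hℓ.one_lt two_ne_zero)
        (Nat.le_mul_of_pos_left _ hN)
  refine AddMonoidHom.ext fun γ₀ => ?_
  obtain ⟨γ, rfl⟩ := Additive.ofMul.surjective γ₀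
  have hrow0 := isRow_of_mem γ
  set a := (γ : SL(2, ℤ)) 0 0
  set b := (γ : SL(2, ℤ)) 0 1
  obtain ⟨b0, hb0⟩ := hrow0.right
  have ha0 : a ≠ 0 := by
    intro h0
    have h := hrow0.left
    rw [h0, zero_sub, dvd_neg] at h
    have := Int.le_of_dvd one_pos h
    omega
  have he : 0 < ℓ - 1 := by omega
  have hcop : IsCoprime b0 a := (hrow0.coprime.symm).of_isCoprime_of_dvd_left
      (hb0 ▸ dvd_mul_left _ _)
  obtain ⟨z, hz⟩ := exists_isCoprime_add_mul ha0 hcop (m := ((ℓ - 1 : ℕ) : ℤ) * q)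
    (mul_ne_zero (by exact_mod_cast he.ne') (by exact_mod_cast hq.ne_zero))
  -- the adjusted row
  set b' : ℤ := b + a * ((M : ℤ) * z) with hb'
  have hrow : IsRow M a b' := hrow0.shift_right z
  have hb'eq : b' = M * (b0 + a * z) := by rw [hb', hb0]; ring
  have hrowy : IsRow M (a - b' * y) b' := by
    simpa [sub_eq_add_neg] using hrow.shift_left (-y)
  suffices hgoal : rowVal ξ (a - b' * y) b' = rowVal ξ a b' by
    rw [← rowVal_eq (killsTrTwo_conjChar (lowerE y) hξ) γ rfl rfl,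
      ← rowVal_shift_right (killsTrTwo_conjChar (lowerE y) hξ) hrow0 z,
      rowVal_conjChar_lowerE hξ y hrow, hgoal, rowVal_shift_right hξ hrow0 z,
          rowVal_eq hξ γ rfl rfl]
  -- the primes
  have hb'0 : b' ≠ 0 := by
    intro h0
    have hq1 : IsUnit (((ℓ - 1 : ℕ) : ℤ) * q) := by
      have : b0 + a * z = 0 := by
        rw [hb'eq] at h0
        exact (mul_eq_zero.mp h0).resolve_left (by exact_mod_cast (by omega : M ≠ 0))
      rwa [this, isCoprime_zero_left] at hz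
    have := isUnit_of_mul_isUnit_right hq1
    rw [Int.ofNat_isUnit, Nat.isUnit_iff] at this
    exact hq.one_lt.ne' this
  have hK : (M : ℤ) * b' ≠ 0 := mul_ne_zero (by exact_mod_cast (by omega : M ≠ 0)) hb'0
  have hbase : ∀ i : ℕ, IsCoprime (a + b' * ((N : ℤ) * i)) ((M : ℤ) * b') := fun i => by
    have h := hrow.shift_left ((N : ℤ) * i)
    refine IsCoprime.mul_right ?_ h.coprime
    obtain ⟨w, hw⟩ := h.left
    exact ⟨1, -w, by linear_combination hw⟩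
  choose r hr hrB hrK hrg using fun i : ℕ => exists_prime_modEq_gcd hK (hbase i) he q
  set L : ℕ := (Finset.range (ℓ ^ 2)).lcm fun i => r i - 1 with hL
  have hgK : Nat.gcd ((M : ℤ) * b').natAbs (ℓ - 1) ∣ N ^ 2 := by
    rw [hb'eq, ← mul_assoc, hMdef]
    exact gcd_natAbs_dvd_sq hℓ hz.of_mul_right_left
  have hLg : Nat.gcd L (ℓ - 1) ∣ 2 * N ^ 2 := by
    refine finset_lcm_gcd_dvd _ _ (fun i _ => by have := (hr i).two_le; omega) fun i _ => ?_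
    exact (hrg i).trans (Nat.mul_dvd_mul_left 2 hgK)
  set v : ℤ := (q : ℤ) ^ (2 * L) with hv
  have hvℓ : ¬ (ℓ : ℤ) ∣ v - 1 :=
    not_dvd_pow_sub_one hℓ (fun h => hqℓ ((Nat.prime_dvd_prime_iff_eq hℓ hq).mp h).symm) hexp hLg
  -- solve for the translation
  obtain ⟨N', rfl⟩ := hy
  have hvunit : IsUnit ((v - 1 : ℤ) : ZMod (ℓ ^ 2)) := by
    rw [ZMod.coe_int_isUnit_iff_isCoprime, Nat.cast_pow]
    exact ((Nat.prime_iff_prime_int.mp hℓ).coprime_iff_not_dvd.mpr hvℓ).pow_left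
  have : NeZero (ℓ ^ 2) := ⟨pow_ne_zero _ hℓ.ne_zero⟩
  obtain ⟨u, hu⟩ := hvunit
  set i := ((N' : ZMod (ℓ ^ 2)) * (↑u⁻¹ : ZMod (ℓ ^ 2))).val with hi
  obtain ⟨w, hw⟩ : (ℓ : ℤ) ^ 2 ∣ N' - (v - 1) * (i : ℤ) := by
    rw [← Nat.cast_pow, ← ZMod.intCast_zmod_eq_zero_iff_dvd]
    rw [Int.cast_sub, Int.cast_mul, ← hu, Int.cast_natCast, hi, ZMod.natCast_zmod_val,
      mul_comm (N' : ZMod (ℓ ^ 2)), Units.mul_inv_cancel_left, sub_self]
  have hiL : r i - 1 ∣ L := Finset.dvd_lcm (Finset.mem_range.mpr (ZMod.val_lt _))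
  have hri : IsCoprime (r i : ℤ) (q : ℤ) :=
    Nat.isCoprime_iff_coprime.mpr ((Nat.coprime_primes (hr i) hq).mpr (hrB i).ne')
  have hrv : (r i : ℤ) ∣ v - 1 := dvd_pow_sub_one (hr i)
    (fun h => (hrB i).ne' ((Nat.prime_dvd_prime_iff_eq (hr i) hq).mp h)) (hiL.mul_left 2)
  have key := rowVal_translate hξ hs hrow L (r := (r i : ℤ)) (x := (N : ℤ) * i)
    (hrK i) hri (by rw [← hv]; exact hrv)
  rw [← hv] at key
  rw [← key, ← rowVal_shift_left hξ hrowy w]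
  congr 1
  rw [hMdef]; push_cast
  linear_combination (-b' * (N : ℤ)) * hw

end Fermat.Agent.Ihara
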