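import Fermat.Agent.Grp.HomCl
import Fermat.Agent.Hecke.Gamma0Transfer
import Fermat.Agent.Ihara.Translate

/-!
# Ihara's lemma: invariance on principal congruence subgroups

Elementary proof of Ihara's lemma for `Γ₀(N q) ⊂ Γ₀(N)`. The first member `φ` of a kernel pair is
invariant under the substitution `b ↦ q²b, c ↦ c/q²`; hence its conjugate `thetaChar φ` on `Γ(N ℓ²)`
is invariant under all of `Γ₀(N)`, and `T_ℓ φ = (ℓ + 1) θ` there.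
-/

namespace Fermat.Agent.Ihara

open scoped MatrixGroups
open CongruenceSubgroup Fermat.Agent.Grp Fermat.Agent.Hecke

variable {A : Type*} [AddCommGroup A]

/-- `φ` takes equal values on `(a, b; c, d)` and `(a, q²b; c/q², d)`. -/
def DInvariant (N q : ℕ) (φ : Additive (Gamma0 N) →+ A) : Prop :=
  ∀ γ γ' : Gamma0 N, γ'.1 0 0 = γ.1 0 0 → γ'.1 0 1 = (q : ℤ) ^ 2 * γ.1 0 1 →
    (q : ℤ) ^ 2 * γ'.1 1 0 = γ.1 1 0 → γ'.1 1 1 = γ.1 1 1 →
    φ (Additive.ofMul γ') = φ (Additive.ofMul γ)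

theorem apply_conj {G : Type*} [Group G] (φ : Additive G →+ A) (g h : G) :
    φ (Additive.ofMul (g * h * g⁻¹)) = φ (Additive.ofMul h) := by
  simp [ofMul_mul]

/-- Members of the kernel of the degeneracy maps are `D`-invariant. -/
theorem dInvariant_of_kernel {N q : ℕ} [NeZero q] (hq : q.Prime) (hqN : ¬ q ∣ N)
    {φ ψ : Additive (Gamma0 N) →+ A}
    (h : ∀ γ : lowerSub N q, φ (Additive.ofMul γ.1) + ψ (Additive.ofMul (lowerConj N q γ)) = 0) :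
    DInvariant N q φ := by
  intro γ γ' h00 h01 h10 h11
  obtain ⟨u, v, huv⟩ : IsCoprime (q : ℤ) (N : ℤ) :=
    Nat.isCoprime_iff_coprime.mpr (hq.coprime_iff_not_dvd.mpr hqN)
  have hq0 : (q : ℤ) ≠ 0 := by exact_mod_cast hq.ne_zero
  obtain ⟨c0, hc0⟩ := Gamma0_dvd γ'
  have hγ : γ ∈ lowerSub N q := mem_lowerSub.mpr ⟨q * c0, by
    show γ.1 1 0 = _; rw [← h10]; push_cast; rw [show γ'.1 1 0 = _ from hc0]; ring⟩
  let w : Gamma0 N := mkGamma0 N q (-v) N u (by linear_combination huv) dvd_rfl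
  let s : Gamma0 N := mkGamma0 N 1 (-v) N (q * u) (by linear_combination huv) dvd_rfl
  set X : Gamma0 N := lowerConj N q ⟨γ, hγ⟩ with hX
  have hX' : X.1.1 = !![γ'.1 0 0, (q : ℤ) * γ.1 0 1; (q : ℤ) * γ'.1 1 0, γ'.1 1 1] := by
    rw [hX, lowerConj_val]
    show !![γ.1 0 0, (q : ℤ) * γ.1 0 1; γ.1 1 0 / q, γ.1 1 1] = _
    rw [← h10, pow_two, mul_assoc, Int.mul_ediv_cancel_left _ hq0, h00, h11]
  obtain ⟨z, hz⟩ : (q : ℤ) ∣ γ'.1 0 1 := ⟨q * γ.1 0 1, by rw [h01]; ring⟩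
  have e10 : (s * γ' * s⁻¹).1 1 0 = (q : ℤ) *
      (((N : ℤ) * γ'.1 0 0 + q * u * γ'.1 1 0) * u
        - (N : ℤ) * ((N : ℤ) * z + u * γ'.1 1 1)) := by
    simp only [Subgroup.coe_mul, Subgroup.coe_inv, (entries_mul _ _).2.2.1,
      (entries_mul _ _).2.2.2, (entries_inv _).1, (entries_inv _).2.2.1, s, mkGamma0_val]
    simp
    linear_combination (-(N : ℤ) * N) * hz
  have hδ : s * γ' * s⁻¹ ∈ lowerSub N q := by
    refine mem_lowerSub.mpr ?_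
    rw [show (s * γ' * s⁻¹).1.1 1 0 = _ from e10, Nat.cast_mul, mul_comm (N : ℤ)]
    refine mul_dvd_mul_left _ (dvd_sub (Dvd.dvd.mul_right (dvd_add (dvd_mul_right _ _) ?_) _)
      (dvd_mul_right _ _))
    exact Dvd.dvd.mul_left ⟨c0, hc0⟩ _
  have key : lowerConj N q ⟨s * γ' * s⁻¹, hδ⟩ = w * X * w⁻¹ := by
    apply Gamma0_ext <;> rw [lowerConj_val] <;>
      simp only [Subgroup.coe_mul, Subgroup.coe_inv, (entries_mul _ _).1, (entries_mul _ _).2.1,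
        (entries_mul _ _).2.2.1, (entries_mul _ _).2.2.2, (entries_inv _).1, (entries_inv _).2.1,
        (entries_inv _).2.2.1, (entries_inv _).2.2.2, hX', s, w, mkGamma0_val] <;>
      simp
    · linear_combination (-(N : ℤ)) * h01
    · linear_combination (q : ℤ) * h01
    · rw [show (↑N * γ'.1 0 0 + ↑q * u * γ'.1 1 0) * (↑q * u)
          + -((↑N * γ'.1 0 1 + ↑q * u * γ'.1 1 1) * ↑N)
          = (q : ℤ) * (((N : ℤ) * γ'.1 0 0 + q * u * γ'.1 1 0) * u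
            - (N : ℤ) * ((N : ℤ) * z + u * γ'.1 1 1)) by linear_combination (-(N : ℤ) * N) * hz,
        Int.mul_ediv_cancel_left _ hq0]
      have hb : z = (q : ℤ) * γ.1 0 1 := mul_left_cancel₀ hq0 (by rw [← hz, h01]; ring)
      rw [hb]; ring
    · linear_combination (N : ℤ) * h01
  have e1 := h ⟨γ, hγ⟩
  have e2 := h ⟨s * γ' * s⁻¹, hδ⟩
  rw [key] at e2
  rw [apply_conj φ s γ', apply_conj ψ w X] at e2
  exact add_right_cancel (e2.trans e1.symm)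

variable {N ℓ : ℕ}

theorem mem_lowerSub_of_mem_Gamma {γ : SL(2, ℤ)} (hγ : γ ∈ CongruenceSubgroup.Gamma (N * ℓ ^ 2)) :
    ∃ h : γ ∈ Gamma0 N, (⟨γ, h⟩ : Gamma0 N) ∈ lowerSub N ℓ := by
  obtain ⟨-, -, hc, -⟩ := Gamma_mem_iff_dvd.mp hγ
  refine ⟨Gamma0_mem_iff_dvd.mpr ((Int.natCast_dvd_natCast.mpr (dvd_mul_right _ _)).trans hc),
    mem_lowerSub.mpr ((Int.natCast_dvd_natCast.mpr ⟨ℓ, by ring⟩).trans hc)⟩

/-- `Γ(Nℓ²) → lowerSub`. -/
def toLower (N ℓ : ℕ) : CongruenceSubgroup.Gamma (N * ℓ ^ 2) →* lowerSub N ℓ where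
  toFun γ := ⟨⟨γ.1, (mem_lowerSub_of_mem_Gamma γ.2).1⟩, (mem_lowerSub_of_mem_Gamma γ.2).2⟩
  map_one' := rfl
  map_mul' _ _ := rfl

/-- `θ(γ) = φ(η γ η⁻¹)` on `Γ(Nℓ²)`. -/
noncomputable def thetaChar [NeZero ℓ] (φ : Additive (Gamma0 N) →+ A) :
    Additive (CongruenceSubgroup.Gamma (N * ℓ ^ 2)) →+ A :=
  φ.comp (MonoidHom.toAdditive ((lowerConj N ℓ).comp (toLower N ℓ)))

theorem thetaChar_apply [NeZero ℓ] (φ : Additive (Gamma0 N) →+ A)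
    (γ : CongruenceSubgroup.Gamma (N * ℓ ^ 2)) :
    thetaChar φ (Additive.ofMul γ) = φ (Additive.ofMul (lowerConj N ℓ (toLower N ℓ γ))) := rfl

theorem killsTrTwo_thetaChar [NeZero ℓ] {φ : Additive (Gamma0 N) →+ A}
    (hφ : KillsTrTwo (Gamma0 N) φ) : KillsTrTwo _ (thetaChar (ℓ := ℓ) φ) := by
  intro γ hγ
  rw [thetaChar_apply]
  refine hφ _ ?_
  rw [tr_eq, lowerConj_val]
  rw [tr_eq] at hγ
  simpa [toLower] using hγ

theorem rowScalable_thetaChar [NeZero ℓ] {q : ℕ} {φ : Additive (Gamma0 N) →+ A}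
    (hφ : DInvariant N q φ) : RowScalable q (thetaChar (ℓ := ℓ) φ) := by
  intro γ γ' h00 h01 h10 h11
  rw [thetaChar_apply, thetaChar_apply]
  obtain ⟨-, -, hc', -⟩ := Gamma_mem_iff_dvd.mp γ'.2
  have hℓ : (ℓ : ℤ) ≠ 0 := by exact_mod_cast NeZero.ne ℓ
  have hd : (ℓ : ℤ) ∣ (γ' : SL(2, ℤ)) 1 0 :=
    (Int.natCast_dvd_natCast.mpr (Dvd.dvd.mul_left (dvd_pow_self ℓ two_ne_zero) N)).trans hc'
  obtain ⟨c, hc⟩ := hd
  apply hφ <;> simp only [lowerConj_val] <;> simp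
  · exact h00
  · show (ℓ : ℤ) * (γ' : SL(2, ℤ)) 0 1 = _
    rw [h01]; show _ = (q : ℤ) ^ 2 * ((ℓ : ℤ) * (γ : SL(2, ℤ)) 0 1); ring
  · show (q : ℤ) ^ 2 * ((γ' : SL(2, ℤ)) 1 0 / ℓ) = (γ : SL(2, ℤ)) 1 0 / ℓ
    rw [← h10, hc, show (q : ℤ) ^ 2 * ((ℓ : ℤ) * c) = (ℓ : ℤ) * ((q : ℤ) ^ 2 * c) by ring,
      Int.mul_ediv_cancel_left _ hℓ, Int.mul_ediv_cancel_left _ hℓ]
  · exact h11

/-- Every element of `Γ₀(N)` is the product of an upper unipotent, a lower unipotent with entry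
divisible by `N`, and an element of `lowerSub N ℓ`. -/
theorem exists_eq_upperE_mul_lowerE_mul (hℓ : ℓ.Prime) (w : Gamma0 N) :
    ∃ (x y : ℤ) (h : lowerSub N ℓ),
      (w : SL(2, ℤ)) = upperE x * (lowerE ((N : ℤ) * y) * (h.1.1 : SL(2, ℤ))) := by
  have hℓp : Prime (ℓ : ℤ) := Nat.prime_iff_prime_int.mp hℓ
  -- choose `x` making the corner a unit mod `ℓ`
  obtain ⟨x, hx⟩ : ∃ x : ℤ, ¬ (ℓ : ℤ) ∣ w.1 0 0 + x * w.1 1 0 := by
    by_cases ha : (ℓ : ℤ) ∣ w.1 0 0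
    · refine ⟨1, fun h => ?_⟩
      rw [one_mul, dvd_add_right ha] at h
      exact hℓp.not_dvd_one (det_eq w.1 ▸ dvd_sub (ha.mul_right _) (h.mul_left _))
    · exact ⟨0, by simpa using ha⟩
  obtain ⟨u, v, huv⟩ := (hℓp.coprime_iff_not_dvd.mpr hx).symm
  obtain ⟨c0, hc0⟩ := Gamma0_dvd w
  set y : ℤ := u * c0 with hy
  set h : SL(2, ℤ) := lowerE (-((N : ℤ) * y)) * (upperE x * w.1) with hh
  have h10 : h 1 0 = ((N * ℓ : ℕ) : ℤ) * (c0 * v) := by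
    rw [hh, (entries_mul _ _).2.2.1, (lowerE_entries _).2.2.1, (lowerE_entries _).2.2.2,
      (entries_mul _ _).1, (entries_mul _ _).2.2.1, (upperE_entries _).1, (upperE_entries _).2.1,
      (upperE_entries _).2.2.1, (upperE_entries _).2.2.2, show w.1 1 0 = _ from hc0, hy]
    rw [show w.1 1 0 = _ from hc0] at huv
    push_cast
    linear_combination (-(N : ℤ) * c0) * huv
  have hmem : h ∈ Gamma0 N := Gamma0_mem_iff_dvd.mpr (by
    show (N : ℤ) ∣ h 1 0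
    rw [h10]; push_cast; exact Dvd.dvd.mul_right (dvd_mul_right _ _) _)
  refine ⟨-x, y, ⟨⟨h, hmem⟩, mem_lowerSub.mpr ⟨_, h10⟩⟩, ?_⟩
  have e1 : lowerE ((N : ℤ) * y) * lowerE (-((N : ℤ) * y)) = 1 := by
    apply Subtype.ext
    show (lowerE _).1 * (lowerE _).1 = (1 : Matrix (Fin 2) (Fin 2) ℤ)
    simp [lowerE, Matrix.one_fin_two]
  have e2 : upperE (-x) * upperE x = 1 := by
    apply Subtype.ext
    show (upperE _).1 * (upperE _).1 = (1 : Matrix (Fin 2) (Fin 2) ℤ)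
    simp [upperE, Matrix.one_fin_two]
  show (w : SL(2, ℤ)) = upperE (-x) * (lowerE ((N : ℤ) * y) * h)
  rw [hh, ← mul_assoc (lowerE ((N : ℤ) * y)), e1, one_mul, ← mul_assoc, e2, one_mul]

/-- `θ` is invariant under conjugation by all of `Γ₀(N)`. -/
theorem thetaChar_conj [NeZero ℓ] {q : ℕ} (hN : 0 < N) (hℓ : ℓ.Prime)
    (hq : q.Prime) (hqℓ : q ≠ ℓ) (hexp : ¬ (ℓ : ℤ) ∣ (q : ℤ) ^ (4 * N ^ 2) - 1)
    {φ : Additive (Gamma0 N) →+ A} (hφ : KillsTrTwo (Gamma0 N) φ) (hD : DInvariant N q φ)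
    (w : Gamma0 N) : conjChar (w : SL(2, ℤ)) (thetaChar (ℓ := ℓ) φ) = thetaChar φ := by
  have hlow : ∀ h : lowerSub N ℓ,
      conjChar (h.1.1 : SL(2, ℤ)) (thetaChar (ℓ := ℓ) φ) = thetaChar φ := by
    intro h
    refine addChar_ext fun γ => ?_
    rw [conjChar_apply, thetaChar_apply, thetaChar_apply]
    have : toLower N ℓ ⟨h.1.1 * γ * (h.1.1)⁻¹, (Gamma_normal _).conj_mem _ γ.2 _⟩
        = h * toLower N ℓ γ * h⁻¹ := rfl
    rw [this, (lowerConj N ℓ).map_mul, (lowerConj N ℓ).map_mul, (lowerConj N ℓ).map_inv, apply_conj]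
  have hup : ∀ x : ℤ, conjChar (upperE x) (thetaChar (ℓ := ℓ) φ) = thetaChar φ := fun x => by
    have h1 : upperE x ∈ Gamma0 N := Gamma0_mem_iff_dvd.mpr (by simp [upperE])
    exact hlow ⟨⟨upperE x, h1⟩, mem_lowerSub.mpr (by simp [upperE])⟩
  obtain ⟨x, y, h, hw⟩ := exists_eq_upperE_mul_lowerE_mul (ℓ := ℓ) hℓ w
  rw [hw, ← conjChar_conjChar, hup, ← conjChar_conjChar,
    conjChar_lowerE_eq N ℓ q hN hℓ hq hqℓ hexp rfl (killsTrTwo_thetaChar hφ)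
      (rowScalable_thetaChar hD) (dvd_mul_right _ _), hlow]

/-- `Γ₀(N ℓ)` has index `ℓ + 1` in `Γ₀(N)` for `ℓ ∤ N`. -/
theorem index_lowerSub [NeZero N] [NeZero ℓ] (hℓ : ℓ.Prime) (hℓN : ¬ ℓ ∣ N) :
    (lowerSub N ℓ).index = ℓ + 1 := by
  have : NeZero (N * ℓ) := ⟨Nat.mul_ne_zero (NeZero.ne N) (NeZero.ne ℓ)⟩
  have hle : Gamma0 (N * ℓ) ≤ Gamma0 N := fun x hx => Gamma0_mem_iff_dvd.mpr
    ((Int.natCast_dvd_natCast.mpr (dvd_mul_right N ℓ)).trans (Gamma0_mem_iff_dvd.mp hx))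
  have h1 : (lowerSub N ℓ).index * (Gamma0 N).index = (Gamma0 (N * ℓ)).index :=
    Subgroup.relIndex_mul_index hle
  rw [index_Gamma0_eq, index_Gamma0_eq, dedekindPsi_eq_conv (N * ℓ),
    (sqfIndicator_isMultiplicative.mul ArithmeticFunction.isMultiplicative_id).map_mul_of_coprime
      ((hℓ.coprime_iff_not_dvd.mpr hℓN).symm), ← dedekindPsi_eq_conv, ← dedekindPsi_eq_conv,
    mul_comm] at h1
  have hpos : 0 < ModularCurve.dedekindPsi N :=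
    index_Gamma0_eq N ▸ Nat.pos_of_ne_zero Subgroup.FiniteIndex.index_ne_zero
  have h2 := dedekindPsi_prime_pow hℓ one_pos
  simp only [pow_one, Nat.sub_self, pow_zero] at h2
  exact (Nat.eq_of_mul_eq_mul_left hpos h1).trans h2

/-- `T_ℓ φ = (ℓ + 1) θ` on `Γ(Nℓ²)`. -/
theorem monoTransfer_eq_thetaChar [NeZero N] [NeZero ℓ] {q : ℕ} (hℓ : ℓ.Prime) (hℓN : ¬ ℓ ∣ N)
    (hq : q.Prime) (hqℓ : q ≠ ℓ) (hexp : ¬ (ℓ : ℤ) ∣ (q : ℤ) ^ (4 * N ^ 2) - 1)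
    {φ : Additive (Gamma0 N) →+ A} (hφ : KillsTrTwo (Gamma0 N) φ) (hD : DInvariant N q φ)
    (γ : CongruenceSubgroup.Gamma (N * ℓ ^ 2)) :
    monoTransfer N ℓ A φ (Additive.ofMul (toLower N ℓ γ).1)
      = (ℓ + 1) • thetaChar φ (Additive.ofMul γ) := by
  have := (lowerSub N ℓ).fintypeQuotientOfFiniteIndex
  have hmem : ∀ (r : Gamma0 N),
      r⁻¹.1 * γ.1 * r.1 ∈ CongruenceSubgroup.Gamma (N * ℓ ^ 2) := fun r => by
    have h := (Gamma_normal (N * ℓ ^ 2)).conj_mem _ γ.2 r⁻¹.1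
    simpa using h
  have hσ : ∀ i : Gamma0 N ⧸ lowerSub N ℓ,
      i.out⁻¹ * ((toLower N ℓ γ).1 * i.out) ∈ lowerSub N ℓ := fun i => by
    obtain ⟨h1, h2⟩ := mem_lowerSub_of_mem_Gamma (hmem i.out)
    have : (⟨_, h1⟩ : Gamma0 N) = i.out⁻¹ * ((toLower N ℓ γ).1 * i.out) :=
      Subtype.ext (mul_assoc _ _ _)
    exact this ▸ h2
  rw [monoTransfer, transferHom_apply_reps (lowerConj N ℓ) φ
    (fun i : Gamma0 N ⧸ lowerSub N ℓ => i.out)
    (by simp) _ id hσ,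
    ← index_lowerSub (N := N) hℓ hℓN, Subgroup.index, Nat.card_eq_fintype_card, ← Finset.card_univ,
    ← Finset.sum_const]
  refine Finset.sum_congr rfl fun i _ => ?_
  rw [← DFunLike.congr_fun (thetaChar_conj (NeZero.pos N) hℓ hq hqℓ hexp hφ hD i.out⁻¹)
    (Additive.ofMul γ), conjChar_apply, thetaChar_apply]
  refine congrArg φ (congrArg Additive.ofMul (congrArg (lowerConj N ℓ) ?_))
  apply Subtype.ext
  apply Subtype.ext
  simp [toLower, mul_assoc]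

end Fermat.Agent.Ihara
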