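import Fermat.Agent.Hecke.UpperReps
import Fermat.Agent.Ihara.Cores
import Fermat.Agent.Ihara.IharaKernel

/-!
# Degeneracy maps and their transfers

The two degeneracy maps `degA`, `degB` from characters of `Γ₀(N)` to characters of `Γ₀(N q)`, the
two transfers `corA`, `corB` in the other direction, and their compositions (`q + 1` on the
diagonal, Hecke operators off the diagonal). The compositions give the congruence module of level
raising.
-/

noncomputable section

namespace Fermat.Agent.Ihara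

open scoped MatrixGroups
open CongruenceSubgroup Fermat.Agent.Grp Fermat.Agent.Hecke

variable {N q ℓ : ℕ} {A : Type*} [AddCommGroup A]

/-- The underlying integral matrix. -/
abbrev imat (γ : SL(2, ℤ)) : Matrix (Fin 2) (Fin 2) ℤ := γ.1

/-- Right multiplication by a nonsingular integral matrix is injective on `SL(2, ℤ)`. -/
theorem imat_inj {γ δ : SL(2, ℤ)} {X : Matrix (Fin 2) (Fin 2) ℤ} (hX : X.det ≠ 0)
    (h : imat γ * X = imat δ * X) : γ = δ := by
  refine Subtype.ext ?_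
  have h2 := congrArg (· * X.adjugate) h
  simp only [mul_assoc, Matrix.mul_adjugate, mul_smul_comm, mul_one] at h2
  exact smul_right_injective _ hX h2

theorem Gamma0_le_mul (N q : ℕ) : Gamma0 (N * q) ≤ Gamma0 N := fun _ hγ =>
  Hecke.Gamma0_mem_iff_dvd.mpr ((Int.natCast_dvd_natCast.mpr (dvd_mul_right N q)).trans
    (Hecke.Gamma0_mem_iff_dvd.mp hγ))

/-- `Γ₀(N) ∩ Γ⁰(q)` inside `SL(2,ℤ)`. -/
def upperGrp (N q : ℕ) : Subgroup SL(2, ℤ) := (upperSub N q).map (Gamma0 N).subtype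

theorem upperGrp_le (N q : ℕ) : upperGrp N q ≤ Gamma0 N := Subgroup.map_subtype_le _

theorem mem_upperGrp {γ : SL(2, ℤ)} :
    γ ∈ upperGrp N q ↔ ∃ _h : γ ∈ Gamma0 N, (q : ℤ) ∣ γ 0 1 := by
  constructor
  · rintro ⟨δ, hδ, rfl⟩
    exact ⟨δ.2, hδ⟩
  · rintro ⟨h, hq⟩
    exact ⟨⟨γ, h⟩, hq, rfl⟩

instance instFiniteIndex_upperGrp [NeZero N] [NeZero q] : (upperGrp N q).FiniteIndex := by
  constructor
  rw [upperGrp, Subgroup.index_map_subtype]
  exact Nat.mul_ne_zero Subgroup.FiniteIndex.index_ne_zero Subgroup.FiniteIndex.index_ne_zero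

instance instFiniteIndex_Gamma0_mul [NeZero N] [NeZero q] : (Gamma0 (N * q)).FiniteIndex :=
  inferInstance

/-- `upperGrp N q`, seen inside `Γ₀(N)`, is `upperSub N q`. -/
theorem upperGrp_subgroupOf (N q : ℕ) :
    (upperGrp N q).subgroupOf (Gamma0 N) = upperSub N q := by
  ext γ
  rw [Subgroup.mem_subgroupOf, mem_upperGrp, mem_upperSub]
  exact ⟨fun ⟨_, h⟩ => h, fun h => ⟨γ.2, h⟩⟩

theorem upperGrp_bijective {ι : Type*} (r : ι → Gamma0 N)
    (hr : Function.Bijective fun i => ((r i : Gamma0 N) : Gamma0 N ⧸ upperSub N q)) :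
    Function.Bijective fun i =>
      ((r i : Gamma0 N) : Gamma0 N ⧸ (upperGrp N q).subgroupOf (Gamma0 N)) := by
  rw [upperGrp_subgroupOf]; exact hr

/-- `γ ↦ diag(q,1) γ diag(q,1)⁻¹` from `Γ₀(Nq)` to `Γ₀(N)`. -/
def betaHom (N q : ℕ) [NeZero q] : Gamma0 (N * q) →* Gamma0 N :=
  (lowerConj N q).comp (Subgroup.subgroupOfEquivOfLe (Gamma0_le_mul N q)).symm.toMonoidHom

theorem betaHom_val [NeZero q] (γ : Gamma0 (N * q)) :
    (betaHom N q γ).1.1 = !![γ.1 0 0, (q : ℤ) * γ.1 0 1; γ.1 1 0 / q, γ.1 1 1] := rfl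

/-- `betaHom` is conjugation by `diag(q, 1)`. -/
theorem betaHom_spec [NeZero q] (γ : Gamma0 (N * q)) :
    !![(q : ℤ), 0; 0, 1] * imat γ.1 = imat (betaHom N q γ).1 * !![(q : ℤ), 0; 0, 1] := by
  obtain ⟨c, hc⟩ := Gamma0_dvd γ
  have hq : (q : ℤ) ≠ 0 := by exact_mod_cast NeZero.ne q
  have e : γ.1 1 0 = (q : ℤ) * ((N : ℤ) * c) := by
    rw [show γ.1 1 0 = _ from hc]; push_cast; ring
  show _ * γ.1.1 = (betaHom N q γ).1.1 * _
  rw [betaHom_val, e, Int.mul_ediv_cancel_left _ hq, Matrix.eta_fin_two γ.1.1, e]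
  simp [mul_comm]

theorem betaHom_mem_upperGrp [NeZero q] (γ : Gamma0 (N * q)) :
    (betaHom N q γ).1 ∈ upperGrp N q :=
  mem_upperGrp.mpr ⟨(betaHom N q γ).2, by
    show (q : ℤ) ∣ (betaHom N q γ).1.1 0 1
    rw [betaHom_val]; exact dvd_mul_right _ _⟩

/-- `Γ₀(N) ∩ Γ⁰(q)` seen in `Γ₀(N)`. -/
def upperIncl (N q : ℕ) : upperGrp N q →* upperSub N q where
  toFun u := ⟨⟨u.1, (mem_upperGrp.mp u.2).1⟩, (mem_upperGrp.mp u.2).2⟩
  map_one' := rfl
  map_mul' _ _ := rfl

theorem upperConj_mem_mul [NeZero q] (x : upperSub N q) :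
    (upperConj N q x).1 ∈ Gamma0 (N * q) := by
  obtain ⟨c, hc⟩ := Gamma0_dvd x.1
  rw [Hecke.Gamma0_mem_iff_dvd, upperConj_val]
  refine ⟨c, ?_⟩
  show (q : ℤ) * x.1.1.1 1 0 = _
  rw [hc]; push_cast; ring

/-- `γ ↦ diag(1,q) γ diag(1,q)⁻¹` from `Γ₀(N) ∩ Γ⁰(q)` to `Γ₀(Nq)`. -/
def alphaUp (N q : ℕ) [NeZero q] : upperGrp N q →* Gamma0 (N * q) :=
  MonoidHom.codRestrict ((Gamma0 N).subtype.comp ((upperConj N q).comp (upperIncl N q)))
    (Gamma0 (N * q)) fun u => upperConj_mem_mul (upperIncl N q u)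

theorem alphaUp_val [NeZero q] (u : upperGrp N q) :
    (alphaUp N q u).1.1 = !![u.1 0 0, u.1 0 1 / q; (q : ℤ) * u.1 1 0, u.1 1 1] := rfl

/-- `alphaUp` is conjugation by `diag(1, q)`. -/
theorem alphaUp_spec [NeZero q] (u : upperGrp N q) :
    imat (alphaUp N q u).1 * !![1, 0; 0, (q : ℤ)] = !![1, 0; 0, (q : ℤ)] * imat u.1 := by
  obtain ⟨-, c, hc⟩ := mem_upperGrp.mp u.2
  have hq : (q : ℤ) ≠ 0 := by exact_mod_cast NeZero.ne q
  show (alphaUp N q u).1.1 * _ = _ * u.1.1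
  rw [alphaUp_val, hc, Int.mul_ediv_cancel_left _ hq, Matrix.eta_fin_two u.1.1, hc]
  simp [mul_comm]

theorem tr_alphaUp [NeZero q] (u : upperGrp N q) : tr (alphaUp N q u).1 = tr u.1 := by
  rw [tr_eq, tr_eq]; rfl

theorem tr_betaHom [NeZero q] (γ : Gamma0 (N * q)) : tr (betaHom N q γ).1 = tr γ.1 := by
  rw [tr_eq, tr_eq]; rfl

/-! ### The four maps -/

/-- First degeneracy map. -/
def degA (N q : ℕ) (φ : Additive (Gamma0 N) →+ A) : Additive (Gamma0 (N * q)) →+ A :=
  resHom (Gamma0_le_mul N q) φ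

/-- Second degeneracy map. -/
def degB (N q : ℕ) [NeZero q] (φ : Additive (Gamma0 N) →+ A) :
    Additive (Gamma0 (N * q)) →+ A :=
  φ.comp (MonoidHom.toAdditive (betaHom N q))

/-- First transfer. -/
def corA (N q : ℕ) [NeZero N] [NeZero q] (χ : Additive (Gamma0 (N * q)) →+ A) :
    Additive (Gamma0 N) →+ A :=
  coresHom (Gamma0_le_mul N q) χ

/-- Second transfer. -/
def corB (N q : ℕ) [NeZero N] [NeZero q] (χ : Additive (Gamma0 (N * q)) →+ A) :
    Additive (Gamma0 N) →+ A :=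
  coresHom (upperGrp_le N q) (χ.comp (MonoidHom.toAdditive (alphaUp N q)))

theorem isClHom_degA {φ : Additive (Gamma0 N) →+ A} (h : IsClHom (Gamma0 N) φ) :
    IsClHom (Gamma0 (N * q)) (degA N q φ) :=
  isClHom_resHom _ h

theorem isClHom_degB [NeZero q] {φ : Additive (Gamma0 N) →+ A} (h : IsClHom (Gamma0 N) φ) :
    IsClHom (Gamma0 (N * q)) (degB N q φ) :=
  fun γ hγ => h (betaHom N q γ) (by rwa [tr_betaHom])

theorem isClHom_corA [NeZero N] [NeZero q] {χ : Additive (Gamma0 (N * q)) →+ A}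
    (h : IsClHom (Gamma0 (N * q)) χ) : IsClHom (Gamma0 N) (corA N q χ) :=
  isClHom_coresHom _ h

theorem isClHom_corB [NeZero N] [NeZero q] {χ : Additive (Gamma0 (N * q)) →+ A}
    (h : IsClHom (Gamma0 (N * q)) χ) : IsClHom (Gamma0 N) (corB N q χ) :=
  isClHom_coresHom _ fun u hu => h (alphaUp N q u) (by rwa [tr_alphaUp])

/-! ### Compositions -/

/-- `Γ₀(N) ∩ Γ⁰(ℓ)` has index `ℓ + 1` in `Γ₀(N)` for `ℓ ∤ N`. -/
theorem index_upperSub (hℓ : ℓ.Prime) (hℓN : ¬ ℓ ∣ N) :
    (upperSub N ℓ).index = ℓ + 1 := by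
  rw [Subgroup.index, ← Nat.card_congr (Equiv.ofBijective _ (upperRepOpt_bijective hℓ hℓN)),
    Nat.card_eq_fintype_card, Fintype.card_option, Fintype.card_fin]

/-- `betaHom` inverts `alphaUp`. -/
theorem betaHom_alphaUp [NeZero q] (u : upperGrp N q) : (betaHom N q (alphaUp N q u)).1 = u.1 := by
  have hq : (q : ℤ) ≠ 0 := by exact_mod_cast NeZero.ne q
  refine imat_inj (X := !![(q : ℤ), 0; 0, 1]) (by simpa using NeZero.ne q) ?_
  rw [← betaHom_spec]
  show _ * (alphaUp N q u).1.1 = u.1.1 * _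
  obtain ⟨-, c, hc⟩ := mem_upperGrp.mp u.2
  rw [alphaUp_val, hc, Int.mul_ediv_cancel_left _ hq, Matrix.eta_fin_two u.1.1, hc]
  simp [mul_comm]

/-- The first transfer after the first degeneracy map is `q + 1`. -/
theorem corA_degA [NeZero N] [NeZero q] (hq : q.Prime) (hqN : ¬ q ∣ N)
    (φ : Additive (Gamma0 N) →+ A) : corA N q (degA N q φ) = (q + 1) • φ := by
  rw [corA, degA, coresHom_res]
  congr 1
  have h1 := Subgroup.relIndex_mul_index (Gamma0_le_mul N q)
  exact index_lowerSub hq hqN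

/-- The second transfer after the second degeneracy map is `q + 1`. -/
theorem corB_degB [NeZero N] [NeZero q] (hq : q.Prime) (hqN : ¬ q ∣ N)
    (φ : Additive (Gamma0 N) →+ A) : corB N q (degB N q φ) = (q + 1) • φ := by
  have e : (degB N q φ).comp (MonoidHom.toAdditive (alphaUp N q)) =
      resHom (upperGrp_le N q) φ :=
    addChar_ext fun u => congrArg φ (congrArg Additive.ofMul (Subtype.ext (betaHom_alphaUp u)))
  rw [corB, e, coresHom_res, upperGrp_subgroupOf, index_upperSub hq hqN]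

/-- The first transfer after the second degeneracy map is a Hecke operator. -/
theorem corA_degB [NeZero N] [NeZero q] (φ : Additive (Gamma0 N) →+ A) :
    corA N q (degB N q φ) = monoTransfer N q A φ := by
  have e : (betaHom N q).comp (Subgroup.subgroupOfEquivOfLe (Gamma0_le_mul N q)).toMonoidHom =
      lowerConj N q := by
    ext x : 1
    simp [betaHom]
  rw [corA, degB, monoTransfer, ← e]
  rfl

/-- The second transfer after the first degeneracy map is a Hecke operator. -/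
theorem corB_degA [NeZero N] [NeZero q] (φ : Additive (Gamma0 N) →+ A) :
    corB N q (degA N q φ) = perTransfer N q A φ := by
  refine addChar_ext fun g => ?_
  have := (upperSub N q).fintypeQuotientOfFiniteIndex
  have hσ : ∀ i : Gamma0 N ⧸ upperSub N q,
      ((g • i).out⁻¹ * (g * i.out) : Gamma0 N).1 ∈ upperGrp N q :=
    fun i => ⟨_, cocycle_mem Quotient.out QuotientGroup.out_eq' g i, rfl⟩
  rw [perTransfer, transferHom_apply (upperConj N q) φ Quotient.out QuotientGroup.out_eq', corB,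
    coresHom_apply_reps (upperGrp_le N q) _ (fun i : Gamma0 N ⧸ upperSub N q => i.out)
      (upperGrp_bijective (fun i : Gamma0 N ⧸ upperSub N q => i.out)
        (by simp only [QuotientGroup.out_eq']; exact Function.bijective_id))
      g (fun i => g • i) hσ]
  rfl

end Fermat.Agent.Ihara
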