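import Mathlib.Algebra.BigOperators.Group.Finset.Sigma
import Mathlib.Algebra.Group.Subgroup.ZPowers.Basic
import Mathlib.Data.Fintype.Perm
import Mathlib.GroupTheory.GroupAction.Period
import Mathlib.GroupTheory.GroupAction.Quotient
import Mathlib.GroupTheory.OrderOfElement

/-!
# Sums over the orbits of one group element

For an element `g` acting on a finite set, a sum over the set equals the sum over the orbits of `g`
of the sums along each orbit. Used to sort cosets by cusps in the Poincaré pairing.
-/

namespace Fermat.Agent.Ihara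

open MulAction

variable {G X : Type*} [Group G] [MulAction G X]

/-- Two points are in the same orbit of `g` iff a power of `g` maps one to the other. -/
theorem orbit_mk_eq_iff (g : G) (x y : X) :
    (Quotient.mk'' y : orbitRel.Quotient (Subgroup.zpowers g) X) = Quotient.mk'' x ↔
      ∃ n : ℤ, g ^ n • x = y := by
  rw [Quotient.eq'', orbitRel_apply, mem_orbit_iff]
  exact ⟨fun ⟨⟨_, n, rfl⟩, h⟩ => ⟨n, h⟩, fun ⟨n, h⟩ => ⟨⟨g ^ n, n, rfl⟩, h⟩⟩

theorem mk_zpow_smul (g : G) (n : ℤ) (x : X) :
    (Quotient.mk'' (g ^ n • x) : orbitRel.Quotient (Subgroup.zpowers g) X) = Quotient.mk'' x :=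
  (orbit_mk_eq_iff g x _).mpr ⟨n, rfl⟩

theorem mk_pow_smul (g : G) (n : ℕ) (x : X) :
    (Quotient.mk'' (g ^ n • x) : orbitRel.Quotient (Subgroup.zpowers g) X) = Quotient.mk'' x :=
  (orbit_mk_eq_iff g x _).mpr ⟨n, by rw [zpow_natCast]⟩

theorem period_pos [Finite X] (g : G) (x : X) : 0 < period g x := by
  classical
  let := Fintype.ofFinite X
  have h : g ^ orderOf (MulAction.toPermHom G X g) • x = x := by
    have := pow_orderOf_eq_one (MulAction.toPermHom G X g)
    rw [← map_pow] at this
    exact congrArg (fun σ : Equiv.Perm X => σ x) this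
  exact Nat.pos_of_dvd_of_pos (pow_smul_eq_iff_period_dvd.mp h) (orderOf_pos _)

theorem period_zpow_smul (g : G) (n : ℤ) (x : X) : period g (g ^ n • x) = period g x := by
  refine Nat.dvd_antisymm ?_ ?_ <;> rw [← pow_smul_eq_iff_period_dvd]
  · rw [← mul_smul, ← zpow_natCast, ← zpow_add, add_comm, zpow_add, mul_smul, zpow_natCast,
      pow_period_smul]
  · refine MulAction.injective (g ^ n) ?_
    show g ^ n • g ^ _ • x = g ^ n • x
    rw [← mul_smul, ← zpow_natCast, ← zpow_add, add_comm, zpow_add, mul_smul, zpow_natCast,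
      pow_period_smul]

variable [Fintype X] {A : Type*} [AddCommMonoid A]

theorem sum_range_period (g : G) (F : X → A) (x : X)
    [DecidableEq (orbitRel.Quotient (Subgroup.zpowers g) X)] :
    ∑ i ∈ Finset.range (period g x), F (g ^ i • x) =
      ∑ y ∈ Finset.univ.filter
        (fun y : X =>
          (Quotient.mk'' y : orbitRel.Quotient (Subgroup.zpowers g) X) = Quotient.mk'' x),
        F y := by
  classical
  have hpos : (0 : ℤ) < period g x := by exact_mod_cast period_pos g x
  refine Finset.sum_bij (fun i _ => g ^ i • x) (fun i _ => ?_) ?_ ?_ fun _ _ => rfl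
  · simp only [Finset.mem_filter, Finset.mem_univ, true_and, mk_pow_smul]
  · intro i hi j hj hij
    simp only [Finset.mem_range] at hi hj
    by_contra hne
    wlog hlt : i < j generalizing i j with H
    · exact H j i hij.symm hj hi (Ne.symm hne) (by omega)
    have h : g ^ (j - i) • x = x := MulAction.injective (g ^ i) (by
      simp only
      rw [← mul_smul, ← pow_add, Nat.add_sub_cancel' hlt.le]; exact hij.symm)
    have := Nat.le_of_dvd (by omega) (pow_smul_eq_iff_period_dvd.mp h)
    omega
  · intro y hy
    simp only [Finset.mem_filter, Finset.mem_univ, true_and] at hy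
    obtain ⟨n, rfl⟩ := (orbit_mk_eq_iff g x y).mp hy
    refine ⟨(n % period g x).toNat, ?_, ?_⟩
    · rw [Finset.mem_range]
      have h1 := Int.emod_lt_of_pos n hpos
      have h2 := Int.emod_nonneg n hpos.ne'
      omega
    · rw [← zpow_natCast, Int.toNat_of_nonneg (Int.emod_nonneg n hpos.ne'),
        zpow_mod_period_smul]

/-- A sum over `X` is the sum over orbits of `g` of the sums along the orbits. -/
theorem sum_eq_sum_orbits (g : G) [Fintype (orbitRel.Quotient (Subgroup.zpowers g) X)] (F : X → A) :
    ∑ x, F x = ∑ q : orbitRel.Quotient (Subgroup.zpowers g) X,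
      ∑ i ∈ Finset.range (period g q.out), F (g ^ i • q.out) := by
  classical
  rw [← Finset.sum_fiberwise Finset.univ
    (fun x : X => (Quotient.mk'' x : orbitRel.Quotient (Subgroup.zpowers g) X)) F]
  refine Finset.sum_congr rfl fun q _ => ?_
  rw [sum_range_period g F q.out]
  simp

end Fermat.Agent.Ihara
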