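import Mathlib.Tactic.LinearCombination
import Fermat.Agent.Grp.EdgeHom
import Fermat.Agent.Ihara.PairingOrbit

/-!
# Cusps as classes of primitive parabolic elements

For a subgroup `Γ` of `SL(2, ℤ)` of finite index containing `-1`, the cusps are in bijection with
the conjugacy classes of primitive positively oriented parabolic elements of `Γ`, each generated by
a chosen element `cuspElt`, and every positive parabolic element is conjugate to a positive power of
one of these. The Poincaré pairing is a sum over these classes.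
-/

namespace Fermat.Agent.Ihara

open scoped MatrixGroups
open ModularGroup Fermat.Agent.Grp

/-- The orientation of a parabolic element: `n > 0` when it is conjugate to `T ^ n`. -/
def IsPos (γ : SL(2, ℤ)) : Prop := 0 < γ 0 1 ∨ γ 1 0 < 0

theorem coe_conj_T_zpow (g : SL(2, ℤ)) (n : ℤ) :
    ((g * T ^ n * g⁻¹ : SL(2, ℤ)) : Matrix (Fin 2) (Fin 2) ℤ) =
      !![1 - n * g 0 0 * g 1 0, n * g 0 0 ^ 2; -(n * g 1 0 ^ 2), 1 + n * g 0 0 * g 1 0] := by
  have hdet := det_eq g
  simp only [Matrix.SpecialLinearGroup.coe_mul, Matrix.SpecialLinearGroup.coe_inv, coe_T_zpow,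
    Matrix.adjugate_fin_two]
  ext i j
  fin_cases i <;> fin_cases j <;> simp [Matrix.mul_apply, Fin.sum_univ_two]
  · linear_combination hdet
  · ring
  · ring
  · linear_combination hdet

theorem isPos_conj_T_zpow (g : SL(2, ℤ)) (n : ℤ) : IsPos (g * T ^ n * g⁻¹) ↔ 0 < n := by
  have hne : g 0 0 ≠ 0 ∨ g 1 0 ≠ 0 := by
    by_contra h
    push Not at h
    have := det_eq g
    simp [h.1, h.2] at this
  unfold IsPos
  rw [coe_conj_T_zpow]
  simp only [Matrix.of_apply, Matrix.cons_val', Matrix.cons_val_zero, Matrix.cons_val_one,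
    Matrix.cons_val_fin_one]
  constructor
  · rintro (h | h)
    · by_contra hn
      nlinarith [sq_nonneg (g 0 0)]
    · by_contra hn
      nlinarith [sq_nonneg (g 1 0)]
  · intro hn
    rcases hne with h | h
    · exact Or.inl (by positivity)
    · right
      have : 0 < n * g 1 0 ^ 2 := by positivity
      linarith

/-- An element of trace `2` is conjugate to a power of `T`. -/
theorem exists_conj_T_zpow_of_tr {γ : SL(2, ℤ)} (h : tr γ = 2) :
    ∃ (g : SL(2, ℤ)) (n : ℤ), γ = g * T ^ n * g⁻¹ := by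
  obtain ⟨g, s, hge, hs⟩ := isBasicUpToConj_of_abs_tr_le_two γ (by rw [h]; norm_num)
  rcases hge with e | e
  · rcases hs with ⟨n, rfl⟩ | rfl | rfl | rfl
    · exact ⟨g, n, e⟩
    all_goals rw [e, tr_conj] at h; simp [tr_S, tr_R, tr_R_sq] at h
  · rcases hs with ⟨n, rfl⟩ | rfl | rfl | rfl
    all_goals rw [e, tr_neg, tr_conj] at h; simp [tr_S, tr_R, tr_R_sq, tr_T_zpow] at h

theorem T_zpow_injective : Function.Injective fun n : ℤ => (T ^ n : SL(2, ℤ)) := by
  intro m n h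
  have := congrArg (fun γ : SL(2, ℤ) => (γ : Matrix (Fin 2) (Fin 2) ℤ) 0 1) h
  simpa [coe_T_zpow] using this

theorem eq_T_zpow_of_lower_zero {u : SL(2, ℤ)} (h : u 1 0 = 0) :
    ∃ j : ℤ, u = T ^ j ∨ u = -T ^ j := by
  have hdet := det_eq u
  rw [h, mul_zero, sub_zero] at hdet
  rcases Int.eq_one_or_neg_one_of_mul_eq_one' hdet with ⟨ha, hd⟩ | ⟨ha, hd⟩
  · exact ⟨u 0 1, Or.inl (Subtype.ext (by ext i j; fin_cases i <;> fin_cases j <;>
      simp [coe_T_zpow, ha, hd, h]))⟩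
  · exact ⟨-u 0 1, Or.inr (Subtype.ext (by ext i j; fin_cases i <;> fin_cases j <;>
      simp [coe_T_zpow, ha, hd, h]))⟩

/-- An element conjugating `T ^ n` to `T ^ m` is `± T ^ j`. -/
theorem semiconj_T_zpow {u : SL(2, ℤ)} {n m : ℤ} (hn : n ≠ 0) (h : u * T ^ n = T ^ m * u) :
    n = m ∧ ∃ j : ℤ, u = T ^ j ∨ u = -T ^ j := by
  have e := fun i j => congrArg (fun γ : SL(2, ℤ) => (γ : Matrix (Fin 2) (Fin 2) ℤ) i j) h
  have e11 := e 1 1
  have e01 := e 0 1
  simp [Matrix.mul_apply, Fin.sum_univ_two, coe_T_zpow] at e11 e01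
  have hc : u 1 0 = 0 := by
    rcases e11 with h' | h'
    · exact h'
    · exact absurd h' hn
  refine ⟨?_, eq_T_zpow_of_lower_zero hc⟩
  obtain ⟨j, rfl | rfl⟩ := eq_T_zpow_of_lower_zero hc <;> simp [coe_T_zpow] at e01 <;> linarith

variable {Γ : Subgroup SL(2, ℤ)}

theorem neg_smul_coset (hneg : (-1 : SL(2, ℤ)) ∈ Γ) (g : SL(2, ℤ)) (x : SL(2, ℤ) ⧸ Γ) :
    (-g) • x = g • x := by
  rw [← neg_one_mul g, mul_smul, neg_one_smul_coset hneg]

/-- The stabiliser of the coset `h • Γ` is `h Γ h⁻¹`. -/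
theorem smul_eq_iff_conj_mem (g : SL(2, ℤ)) {h : SL(2, ℤ)} {x : SL(2, ℤ) ⧸ Γ}
    (hx : h • baseCoset Γ = x) : g • x = x ↔ h⁻¹ * g * h ∈ Γ := by
  subst hx
  rw [← smul_baseCoset_eq, mul_smul, mul_smul, inv_smul_eq_iff]

variable (Γ) in
/-- The positive generator of the stabiliser of the cusp of the coset `x`. -/
noncomputable def cuspElt (x : SL(2, ℤ) ⧸ Γ) : Γ :=
  ⟨x.out⁻¹ * T ^ MulAction.period T x * x.out,
    (smul_eq_iff_conj_mem _ (out_smul_baseCoset x)).mp (MulAction.pow_period_smul T x)⟩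

theorem tr_cuspElt (x : SL(2, ℤ) ⧸ Γ) : tr (cuspElt Γ x : SL(2, ℤ)) = 2 := by
  show tr (x.out⁻¹ * T ^ MulAction.period T x * x.out) = 2
  conv_lhs => rw [← inv_inv x.out]; rw [inv_inv x.out⁻¹]
  rw [tr_conj, ← zpow_natCast, tr_T_zpow]

theorem coe_cuspElt_zpow (x : SL(2, ℤ) ⧸ Γ) (n : ℤ) :
    ((cuspElt Γ x ^ n : Γ) : SL(2, ℤ)) =
      x.out⁻¹ * T ^ ((MulAction.period T x : ℤ) * n) * x.out⁻¹⁻¹ := by
  rw [SubgroupClass.coe_zpow, show (cuspElt Γ x : SL(2, ℤ)) =
      x.out⁻¹ * T ^ (MulAction.period T x : ℤ) * x.out⁻¹⁻¹ by simp [cuspElt], conj_zpow, ← zpow_mul]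

theorem tr_cuspElt_zpow (x : SL(2, ℤ) ⧸ Γ) (n : ℤ) :
    tr ((cuspElt Γ x ^ n : Γ) : SL(2, ℤ)) = 2 := by
  rw [coe_cuspElt_zpow, tr_conj, tr_T_zpow]

variable [Γ.FiniteIndex]

theorem period_T_pos' (x : SL(2, ℤ) ⧸ Γ) : (0 : ℤ) < MulAction.period T x := by
  exact_mod_cast period_pos T x

variable (Γ) in
/-- A primitive positive parabolic element of `Γ`. -/
def IsCuspGen (π : Γ) : Prop :=
  tr (π : SL(2, ℤ)) = 2 ∧ IsPos (π : SL(2, ℤ)) ∧ ∀ (σ : Γ) (n : ℕ), 2 ≤ n → σ ^ n ≠ π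

/-- The chosen elements are primitive positive parabolic elements. -/
theorem isCuspGen_cuspElt (hneg : (-1 : SL(2, ℤ)) ∈ Γ) (x : SL(2, ℤ) ⧸ Γ) :
    IsCuspGen Γ (cuspElt Γ x) := by
  refine ⟨tr_cuspElt x, ?_, fun σ n hn hσ => ?_⟩
  · show IsPos (x.out⁻¹ * T ^ MulAction.period T x * x.out)
    have : x.out⁻¹ * T ^ MulAction.period T x * x.out =
        x.out⁻¹ * T ^ (MulAction.period T x : ℤ) * x.out⁻¹⁻¹ := by rw [inv_inv, zpow_natCast]
    rw [this, isPos_conj_T_zpow]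
    exact period_T_pos' x
  · set w := MulAction.period T x
    set u := x.out * (σ : SL(2, ℤ)) * x.out⁻¹ with hu
    have hun : u ^ n = T ^ (w : ℤ) := by
      have h := congrArg Subtype.val hσ
      simp only [SubmonoidClass.coe_pow] at h
      rw [hu, conj_pow, h]
      show x.out * (x.out⁻¹ * T ^ w * x.out) * x.out⁻¹ = T ^ (w : ℤ)
      rw [zpow_natCast]; group
    have hcomm : u * T ^ (w : ℤ) = T ^ (w : ℤ) * u := by rw [← hun, (Commute.self_pow u n).eq]
    obtain ⟨-, j, hj⟩ := semiconj_T_zpow (period_T_pos' x).ne' hcomm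
    have hfix : T ^ j • x = x := by
      have hux : u • x = x :=
        (smul_eq_iff_conj_mem _ (out_smul_baseCoset x)).mpr (by rw [hu]; simp [mul_assoc])
      rcases hj with hj | hj
      · rwa [hj] at hux
      · rwa [hj, neg_smul_coset hneg] at hux
    obtain ⟨i, hi⟩ := MulAction.zpow_smul_eq_iff_period_dvd.mp hfix
    have habs : |j * n| = (w : ℤ) := by
      have e := congrArg (fun γ : SL(2, ℤ) => |(γ : Matrix (Fin 2) (Fin 2) ℤ) 0 1|) hun
      rcases hj with hj | hj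
      · simpa [hj, ← zpow_natCast, ← zpow_mul, coe_T_zpow] using e
      · rw [hj] at e
        rcases Nat.even_or_odd n with he | he
        · simpa [he.neg_pow, ← zpow_natCast, ← zpow_mul, coe_T_zpow] using e
        · simpa [he.neg_pow, ← zpow_natCast, ← zpow_mul, coe_T_zpow] using e
    rw [hi, abs_mul, abs_mul, abs_of_nonneg (period_T_pos' x).le] at habs
    have hw := period_T_pos' x
    rcases eq_or_ne i 0 with rfl | hi0
    · rw [abs_zero, mul_zero, zero_mul] at habs; omega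
    · have h1 : 1 ≤ |i| := abs_pos.mpr hi0
      have h2 : (2 : ℤ) ≤ |(n : ℤ)| := by rw [Nat.abs_cast]; exact_mod_cast hn
      have h3 : (MulAction.period T x : ℤ) * 1 * 2 ≤ MulAction.period T x * |i| * |(n : ℤ)| := by
        gcongr
      change (MulAction.period T x : ℤ) * |i| * |(n : ℤ)| = MulAction.period T x at habs
      linarith

/-- A positive parabolic element is conjugate to a positive power of a chosen cusp generator. -/
theorem exists_conj_zpow_cuspElt {e : Γ} (htr : tr (e : SL(2, ℤ)) = 2)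
    (hpos : IsPos (e : SL(2, ℤ))) :
    ∃ (q : FaceOrbit Γ) (δ : Γ) (j : ℤ), 0 < j ∧ δ * cuspElt Γ q.out ^ j * δ⁻¹ = e := by
  obtain ⟨g, n, hn⟩ := exists_conj_T_zpow_of_tr htr
  have hn0 : 0 < n := (isPos_conj_T_zpow g n).mp (hn ▸ hpos)
  set x : SL(2, ℤ) ⧸ Γ := g⁻¹ • baseCoset Γ with hx
  have hfix : T ^ n • x = x :=
    (smul_eq_iff_conj_mem _ hx.symm).mpr (by rw [inv_inv, ← hn]; exact e.2)
  obtain ⟨j, rfl⟩ := MulAction.zpow_smul_eq_iff_period_dvd.mp hfix
  set q : FaceOrbit Γ := Quotient.mk'' x with hq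
  obtain ⟨i, hi⟩ := (orbit_mk_eq_iff T x q.out).mp (Quotient.out_eq' q)
  have hδ : g * T ^ (-i) * q.out.out ∈ Γ := by
    rw [← smul_baseCoset_eq (Γ := Γ), mul_smul, mul_smul, out_smul_baseCoset, ← hi, zpow_neg,
      inv_smul_smul, hx, smul_inv_smul]
  refine ⟨q, ⟨_, hδ⟩, j, pos_of_mul_pos_right hn0 (period_T_pos' x).le, Subtype.ext ?_⟩
  show g * T ^ (-i) * q.out.out * ((cuspElt Γ q.out ^ j : Γ) : SL(2, ℤ)) *
    (g * T ^ (-i) * q.out.out)⁻¹ = (e : SL(2, ℤ))
  rw [coe_cuspElt_zpow, hn, show MulAction.period T q.out = MulAction.period T x by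
    rw [← hi, period_zpow_smul]]
  group

/-- Every primitive positive parabolic element is conjugate to a chosen cusp generator. -/
theorem exists_conj_cuspElt {π : Γ} (hπ : IsCuspGen Γ π) :
    ∃ (q : FaceOrbit Γ) (δ : Γ), δ * cuspElt Γ q.out * δ⁻¹ = π := by
  obtain ⟨htr, hpos, hprim⟩ := hπ
  obtain ⟨q, δ, j, hj, h⟩ := exists_conj_zpow_cuspElt htr hpos
  obtain ⟨m, rfl⟩ := Int.eq_ofNat_of_zero_le hj.le
  obtain rfl : m = 1 := by
    by_contra hm
    exact hprim (δ * cuspElt Γ q.out * δ⁻¹) m (by omega) (by rwa [conj_pow, ← zpow_natCast])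
  exact ⟨q, δ, by rwa [Nat.cast_one, zpow_one] at h⟩

/-- Distinct cusps have non-conjugate generators. -/
theorem cuspElt_conj_inj (hneg : (-1 : SL(2, ℤ)) ∈ Γ) {q q' : FaceOrbit Γ} (δ : Γ)
    (h : δ * cuspElt Γ q.out * δ⁻¹ = cuspElt Γ q'.out) : q = q' := by
  set u := q'.out.out * (δ : SL(2, ℤ)) * q.out.out⁻¹ with hu
  have hcomm : u * T ^ (MulAction.period T q.out : ℤ) =
      T ^ (MulAction.period T q'.out : ℤ) * u := by
    have e := congrArg Subtype.val h
    simp only [Subgroup.coe_mul, InvMemClass.coe_inv, cuspElt] at e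
    rw [zpow_natCast, zpow_natCast, hu]
    calc q'.out.out * ↑δ * q.out.out⁻¹ * T ^ MulAction.period T q.out
        = q'.out.out * (↑δ * (q.out.out⁻¹ * T ^ MulAction.period T q.out * q.out.out) * (↑δ)⁻¹)
            * ↑δ * q.out.out⁻¹ := by group
      _ = _ := by rw [e]; group
  obtain ⟨-, j, hj⟩ := semiconj_T_zpow (period_T_pos' q.out).ne' hcomm
  have hux : u • q.out = q'.out := by
    have hinv : q.out.out⁻¹ • q.out = baseCoset Γ := by
      rw [inv_smul_eq_iff]; exact (out_smul_baseCoset q.out).symm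
    rw [hu, mul_smul, mul_smul, hinv, (smul_baseCoset_eq _).mpr δ.2, out_smul_baseCoset]
  have hT : T ^ j • q.out = q'.out := by
    rcases hj with hj | hj
    · rwa [hj] at hux
    · rwa [hj, neg_smul_coset hneg] at hux
  rw [← Quotient.out_eq' q, ← Quotient.out_eq' q', ← hT]
  exact (mk_zpow_smul T j _).symm

end Fermat.Agent.Ihara
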