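import Mathlib.Algebra.BigOperators.Finprod
import Mathlib.Algebra.Module.LinearMap.Defs
import Mathlib.LinearAlgebra.BilinearMap
import Mathlib.Tactic.Ring
import Fermat.Agent.Ihara.PairingCusp

/-!
# The Poincaré pairing through quadratic refinements

For cuspidal characters `φ, ψ` of `Γ` a quadratic refinement is a function `f` on `Γ` with
coboundary `φ ∪ ψ` that vanishes on elements killed by `12`. It exists by a cocycle with values in
the Heisenberg group, and the sum of `f` over the cusps does not depend on it. This sum is the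
pairing `clPairing`; it is bilinear, alternating and natural in isomorphisms preserving orientation.
-/

namespace Fermat.Agent.Ihara

open scoped MatrixGroups
open ModularGroup Fermat.Agent.Grp

variable {Γ : Subgroup SL(2, ℤ)} {k : Type*} [CommRing k]

instance finite_faceOrbit [Γ.FiniteIndex] : Finite (FaceOrbit Γ) :=
  Finite.of_surjective _ Quotient.mk''_surjective

/-- The Heisenberg group over `k`. -/
@[ext]
structure Heis (k : Type*) where
  /-- first coordinate -/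
  u : k
  /-- second coordinate -/
  v : k
  /-- central coordinate -/
  w : k

namespace Heis

instance : Mul (Heis k) := ⟨fun a b => ⟨a.u + b.u, a.v + b.v, a.w + b.w + a.u * b.v⟩⟩
instance : One (Heis k) := ⟨⟨0, 0, 0⟩⟩
instance : Inv (Heis k) := ⟨fun a => ⟨-a.u, -a.v, -a.w + a.u * a.v⟩⟩

@[simp] theorem mul_u (a b : Heis k) : (a * b).u = a.u + b.u := rfl
@[simp] theorem mul_v (a b : Heis k) : (a * b).v = a.v + b.v := rfl
@[simp] theorem mul_w (a b : Heis k) : (a * b).w = a.w + b.w + a.u * b.v := rfl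
@[simp] theorem one_u : (1 : Heis k).u = 0 := rfl
@[simp] theorem one_v : (1 : Heis k).v = 0 := rfl
@[simp] theorem one_w : (1 : Heis k).w = 0 := rfl
@[simp] theorem inv_u (a : Heis k) : a⁻¹.u = -a.u := rfl
@[simp] theorem inv_v (a : Heis k) : a⁻¹.v = -a.v := rfl
@[simp] theorem inv_w (a : Heis k) : a⁻¹.w = -a.w + a.u * a.v := rfl

instance : Group (Heis k) where
  mul_assoc a b c := by ext <;> simp <;> ring
  one_mul a := by ext <;> simp
  mul_one a := by ext <;> simp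
  inv_mul_cancel a := by ext <;> simp

end Heis

/-- A cocycle of `SL(2, ℤ)` on the coset space with values in a group. -/
def IsGrpCoc {H : Type*} [Group H] (V : SL(2, ℤ) → (SL(2, ℤ) ⧸ Γ) → H) : Prop :=
  ∀ g h x, V (g * h) x = V g (h • x) * V h x

namespace IsGrpCoc

variable {H : Type*} [Group H] {V : SL(2, ℤ) → (SL(2, ℤ) ⧸ Γ) → H}

theorem one (hV : IsGrpCoc V) (x : SL(2, ℤ) ⧸ Γ) : V 1 x = 1 := by
  have h := hV 1 1 x
  rw [one_smul, mul_one] at h
  exact left_eq_mul.mp h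

theorem inv (hV : IsGrpCoc V) (g : SL(2, ℤ)) (x : SL(2, ℤ) ⧸ Γ) :
    V g⁻¹ x = (V g (g⁻¹ • x))⁻¹ := by
  have h := hV g g⁻¹ x
  rw [mul_inv_cancel, hV.one] at h
  exact eq_inv_of_mul_eq_one_right h.symm

theorem conj (hV : IsGrpCoc V) (g e : SL(2, ℤ)) (x : SL(2, ℤ) ⧸ Γ)
    (he : e • (g⁻¹ • x) = g⁻¹ • x) :
    V (g * e * g⁻¹) x = V g (g⁻¹ • x) * V e (g⁻¹ • x) * (V g (g⁻¹ • x))⁻¹ := by
  rw [hV, hV, hV.inv, he]

end IsGrpCoc

/-- Cocycles with prescribed values at `S` and trivial values at `R`. -/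
theorem exists_grpCoc (hneg : (-1 : SL(2, ℤ)) ∈ Γ) {H : Type*} [Group H]
    (a : (SL(2, ℤ) ⧸ Γ) → H) (ha : ∀ x, a (S • x) * a x = 1) :
    ∃ V : SL(2, ℤ) → (SL(2, ℤ) ⧸ Γ) → H,
      IsGrpCoc V ∧ (∀ x, V S x = a x) ∧ ∀ x, V R x = 1 := by
  let step : SL(2, ℤ) → ((SL(2, ℤ) ⧸ Γ) → H) → Equiv.Perm ((SL(2, ℤ) ⧸ Γ) × H) := fun g b =>
    { toFun := fun p => (g • p.1, b p.1 * p.2)
      invFun := fun p => (g⁻¹ • p.1, (b (g⁻¹ • p.1))⁻¹ * p.2)
      left_inv := fun p => by simp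
      right_inv := fun p => by simp }
  have step_apply : ∀ g b p, step g b p = (g • p.1, b p.1 * p.2) := fun _ _ _ => rfl
  obtain ⟨F, hFS, hFR⟩ := exists_lift_S_R (step S a) (step R fun _ => 1)
    (by
      ext p
      · simp [pow_two, step_apply, S_smul_S_smul hneg]
      · simp [pow_two, step_apply, ← mul_assoc, ha])
    (by
      ext p
      · have h := R_pow_three_smul hneg p.1
        rw [pow_three, mul_smul, mul_smul] at h
        simp [pow_three, step_apply, h]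
      · simp [pow_three, step_apply])
  have key : ∀ g x t, F g (x, t) = (g • x, (F g (x, 1)).2 * t) := by
    intro g
    have hg : g ∈ Subgroup.closure {S, R} := by rw [closure_S_R]; trivial
    induction hg using Subgroup.closure_induction with
    | mem g hg =>
      simp only [Set.mem_insert_iff, Set.mem_singleton_iff] at hg
      rcases hg with rfl | rfl <;> intro x t <;> simp [hFS, hFR, step_apply]
    | one => intro x t; simp
    | mul g h _ _ hg hh =>
      intro x t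
      rw [map_mul, Equiv.Perm.mul_apply, Equiv.Perm.mul_apply, hh x t, hh x 1,
        hg (h • x) (_ * t), hg (h • x) (_ * 1), mul_smul]
      simp [mul_assoc]
    | inv g _ hg =>
      intro x t
      have h : ∀ t, (F g⁻¹) (x, t) = (g⁻¹ • x, (F g (g⁻¹ • x, 1)).2⁻¹ * t) := fun t => by
        rw [map_inv, Equiv.Perm.inv_def, Equiv.symm_apply_eq, hg, smul_inv_smul]; simp
      rw [h t, h 1]; simp
  refine ⟨fun g x => (F g (x, 1)).2, ?_, fun x => by simp [hFS, step_apply],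
    fun x => by simp [hFR, step_apply]⟩
  intro g h x
  simp only
  rw [map_mul, Equiv.Perm.mul_apply, key h x 1, key g _ (_ * 1), mul_one]

/-- Elements of order dividing `12` have trace of absolute value at most `2`. -/
theorem abs_tr_le_two_of_pow_twelve {γ : SL(2, ℤ)} (h : γ ^ 12 = 1) : |tr γ| ≤ 2 := by
  have hsq : ∀ δ : SL(2, ℤ), tr (δ ^ 2) = tr δ ^ 2 - 2 := by
    intro δ
    have := det_eq δ
    rw [tr_eq, tr_eq, pow_two δ]
    simp only [Matrix.SpecialLinearGroup.coe_mul, Matrix.mul_apply, Fin.sum_univ_two]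
    linear_combination -2 * this
  have hcube : ∀ δ : SL(2, ℤ), tr (δ ^ 3) = tr δ ^ 3 - 3 * tr δ := by
    intro δ
    have := det_eq δ
    rw [tr_eq, tr_eq, pow_three δ]
    simp only [Matrix.SpecialLinearGroup.coe_mul, Matrix.mul_apply, Fin.sum_univ_two]
    linear_combination (-3 * (δ 0 0 + δ 1 1)) * this
  have h12 : tr ((γ ^ 4) ^ 3) = 2 := by rw [← pow_mul, h]; simp [tr]
  rw [hcube, show γ ^ 4 = (γ ^ 2) ^ 2 by rw [← pow_mul], hsq, hsq] at h12
  set s := (tr γ ^ 2 - 2) ^ 2 - 2 with hs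
  have h2 : (s + 1) ^ 2 * (s - 2) = 0 := by linear_combination h12
  have hs' : s ≤ 2 := by
    rcases mul_eq_zero.mp h2 with h3 | h3
    · have := pow_eq_zero_iff two_ne_zero |>.mp h3; omega
    · omega
  by_contra hgt
  push Not at hgt
  have h3 : 9 ≤ tr γ ^ 2 := by
    have : (3 : ℤ) ≤ |tr γ| := by omega
    rw [← sq_abs]; nlinarith
  nlinarith

/-- An element with `γ ^ 12 = 1` is `±1` or conjugate to `±S`, `±R`, `±R²`. -/
theorem basic_of_pow_twelve {γ : SL(2, ℤ)} (h : γ ^ 12 = 1) :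
    γ = 1 ∨ γ = -1 ∨
      ∃ g e : SL(2, ℤ), (γ = g * e * g⁻¹ ∨ γ = -(g * e * g⁻¹)) ∧ (e = S ∨ e = R ∨ e = R ^ 2) := by
  obtain ⟨g, e, hge, he⟩ := isBasicUpToConj_of_abs_tr_le_two γ
    (abs_tr_le_two_of_pow_twelve h)
  rcases he with ⟨n, rfl⟩ | rfl | rfl | rfl
  · have h' : g * T ^ (12 * n) * g⁻¹ = 1 := by
      have : (T ^ n) ^ 12 = (T ^ (12 * n) : SL(2, ℤ)) := by
        rw [mul_comm, zpow_mul, ← zpow_natCast]; rfl
      rw [← this, ← conj_pow]
      rcases hge with rfl | rfl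
      · exact h
      · rwa [(show Even 12 by decide).neg_pow] at h
    have h0 : 12 * n = 0 := T_zpow_injective (by
      show (T ^ (12 * n) : SL(2, ℤ)) = T ^ (0 : ℤ)
      have := congrArg (fun z => g⁻¹ * z * g) h'
      simpa [mul_assoc] using this)
    obtain rfl : n = 0 := by omega
    rcases hge with rfl | rfl
    · left; simp
    · right; left; simp
  all_goals exact Or.inr (Or.inr ⟨g, _, hge, by tauto⟩)

/-- `f` is a quadratic refinement of `(φ, ψ)`. -/
def IsQuad (φ ψ : Additive Γ →+ k) (f : Γ → k) : Prop :=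
  (∀ γ δ : Γ, f (γ * δ) = f γ + f δ + φ (Additive.ofMul γ) * ψ (Additive.ofMul δ)) ∧
    ∀ γ : Γ, γ ^ 12 = 1 → f γ = 0

/-- A quadratic refinement is invariant under conjugation at elements killed by `φ` and `ψ`. -/
theorem IsQuad.conj {φ ψ : Additive Γ →+ k} {f : Γ → k} (hf : IsQuad φ ψ f) {π : Γ}
    (hφ : φ (Additive.ofMul π) = 0) (hψ : ψ (Additive.ofMul π) = 0) (δ : Γ) :
    f (δ * π * δ⁻¹) = f π := by
  have h1 : f (δ * δ⁻¹) = f δ + f δ⁻¹ + φ (Additive.ofMul δ) * ψ (Additive.ofMul δ⁻¹) := hf.1 _ _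
  rw [mul_inv_cancel, hf.2 1 (one_pow _)] at h1
  rw [hf.1, hf.1, hψ, mul_zero, add_zero, ofMul_mul, map_add, hφ, add_zero]
  linear_combination -h1

variable [Γ.FiniteIndex]

open scoped Classical in
/-- The central coordinate at `S` of the Heisenberg cocycle of two edge data. -/
noncomputable def quadT (a b : (SL(2, ℤ) ⧸ Γ) → k) (x : SL(2, ℤ) ⧸ Γ) : k :=
  if Finite.equivFin (SL(2, ℤ) ⧸ Γ) x < Finite.equivFin (SL(2, ℤ) ⧸ Γ) (S • x) then a x * b x
  else 0

theorem quadT_eq_zero (a b : (SL(2, ℤ) ⧸ Γ) → k) {x : SL(2, ℤ) ⧸ Γ} (hx : S • x = x) :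
    quadT a b x = 0 := by simp [quadT, hx]

/-- The Heisenberg cocycle of two edge data. -/
theorem exists_heisCoc (hneg : (-1 : SL(2, ℤ)) ∈ Γ) (a b : edgeSpace k Γ k) :
    ∃ V : SL(2, ℤ) → (SL(2, ℤ) ⧸ Γ) → Heis k, IsGrpCoc V ∧
      (∀ x, V S x = ⟨a.1 x, b.1 x, quadT a.1 b.1 x⟩) ∧ ∀ x, V R x = 1 := by
  classical
  obtain ⟨a, ha⟩ := a
  obtain ⟨b, hb⟩ := b
  let o := Finite.equivFin (SL(2, ℤ) ⧸ Γ)
  let t := quadT a b
  refine exists_grpCoc hneg (fun x => (⟨a x, b x, t x⟩ : Heis k)) fun x => ?_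
  obtain ⟨ha1, ha2⟩ := ha.1 x
  obtain ⟨hb1, hb2⟩ := hb.1 x
  ext
  · simp [ha1]
  · simp [hb1]
  · simp only [Heis.mul_w, Heis.one_w, t, quadT, S_smul_S_smul hneg]
    rcases lt_trichotomy (o x) (o (S • x)) with h | h | h
    · rw [if_pos h, if_neg h.asymm, ha1]; ring
    · have hx : S • x = x := (o.injective h).symm
      simp [hx, ha2 hx]
    · rw [if_neg h.asymm, if_pos h, ha1, hb1]; ring

/-- The Heisenberg cocycle of two edge data gives a quadratic refinement. -/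
theorem isQuad_heisCoc (hneg : (-1 : SL(2, ℤ)) ∈ Γ) (a b : edgeSpace k Γ k)
    {V : SL(2, ℤ) → (SL(2, ℤ) ⧸ Γ) → Heis k} (hV : IsGrpCoc V)
    (hVS : ∀ x, V S x = ⟨a.1 x, b.1 x, quadT a.1 b.1 x⟩) (hVR : ∀ x, V R x = 1) :
    IsQuad (edgeToHom hneg k a) (edgeToHom hneg k b) (fun γ => (V γ (baseCoset Γ)).w) := by
  obtain ⟨a, ha⟩ := a
  obtain ⟨b, hb⟩ := b
  have hcu : cocOf hneg a (fun x => (ha.1 x).1) = fun g x => (V g x).u :=
    cocOf_eq hneg (fun g h x => by simp [hV g h x]) _ _ (fun x => by simp [hVS])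
      (fun x => by simp [hVR])
  have hcv : cocOf hneg b (fun x => (hb.1 x).1) = fun g x => (V g x).v :=
    cocOf_eq hneg (fun g h x => by simp [hV g h x]) _ _ (fun x => by simp [hVS])
      (fun x => by simp [hVR])
  refine ⟨fun γ δ => ?_, fun γ hγ => ?_⟩
  · rw [edgeToHom_apply, edgeToHom_apply]
    simp only [hcu, hcv, Subgroup.coe_mul]
    rw [hV, (smul_baseCoset_eq _).mpr δ.2]
    simp
  · have hV1 : V (γ : SL(2, ℤ)) (baseCoset Γ) = 1 := by
      have hR3 : ∀ x, V (-1) x = 1 := fun x => by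
        rw [← R_pow_three, pow_three, hV, hV, hVR, hVR, hVR]; simp
      have hneg' : ∀ g x, V (-g) x = V g x := fun g x => by
        rw [← neg_one_mul g, hV, hR3, one_mul]
      have hfix : (γ : SL(2, ℤ)) • baseCoset Γ = baseCoset Γ := (smul_baseCoset_eq _).mpr γ.2
      rcases basic_of_pow_twelve (γ := (γ : SL(2, ℤ))) (by
        simpa using congrArg Subtype.val hγ) with h | h | ⟨g, e, hge, he⟩
      · rw [h, hV.one]
      · rw [h, hR3]
      · have hge' : (g * e * g⁻¹) • baseCoset Γ = baseCoset Γ ∧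
            V (γ : SL(2, ℤ)) (baseCoset Γ) = V (g * e * g⁻¹) (baseCoset Γ) := by
          rcases hge with h | h
          · exact ⟨h ▸ hfix, by rw [h]⟩
          · rw [h, neg_smul_coset hneg] at hfix
            exact ⟨hfix, by rw [h, hneg']⟩
        set y := g⁻¹ • baseCoset Γ with hy
        have hey : e • y = y := by
          rw [hy, eq_inv_smul_iff, ← mul_smul, ← mul_smul, hge'.1]
        rw [hge'.2, hV.conj g e _ hey]
        suffices V e y = 1 by simp [← hy, this]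
        rcases he with rfl | rfl | rfl
        · rw [hVS]
          ext <;> simp [quadT_eq_zero _ _ hey, (ha.1 y).2 hey, (hb.1 y).2 hey]
        · exact hVR y
        · rw [pow_two, hV, hVR, hVR, one_mul]
    show (V (γ : SL(2, ℤ)) (baseCoset Γ)).w = 0
    rw [hV1]; rfl

/-- Any two cuspidal characters have a quadratic refinement. -/
theorem exists_isQuad (hneg : (-1 : SL(2, ℤ)) ∈ Γ) {φ ψ : Additive Γ →+ k}
    (hφ : IsClHom Γ φ) (hψ : IsClHom Γ ψ) : ∃ f, IsQuad φ ψ f := by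
  obtain ⟨a, rfl⟩ := exists_edgeToHom_eq hneg k hφ
  obtain ⟨b, rfl⟩ := exists_edgeToHom_eq hneg k hψ
  obtain ⟨V, hV, hVS, hVR⟩ := exists_heisCoc hneg a b
  exact ⟨_, isQuad_heisCoc hneg a b hV hVS hVR⟩

omit [Γ.FiniteIndex] in
theorem homCoc_apply_fixed (h : Additive Γ →+ k) (g : SL(2, ℤ)) {x : SL(2, ℤ) ⧸ Γ}
    (hx : g • x = x) :
    homCoc h g x = h (Additive.ofMul ⟨x.out⁻¹ * g * x.out,
      (smul_eq_iff_conj_mem _ (out_smul_baseCoset x)).mp hx⟩) := by
  refine congrArg (fun z => h (Additive.ofMul z)) (Subtype.ext ?_)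
  show (g • x).out⁻¹ * g * x.out = x.out⁻¹ * g * x.out
  rw [hx]

variable (Γ) in
/-- The sum of a function over the chosen cusp generators. -/
noncomputable def cuspSum (f : Γ → k) : k := ∑ᶠ q : FaceOrbit Γ, f (cuspElt Γ q.out)

/-- A homomorphism killing torsion has vanishing total at the cusps. -/
theorem cuspSum_hom_eq_zero (h : Additive Γ →+ k)
    (hh : ∀ γ : Γ, γ ^ 12 = 1 → h (Additive.ofMul γ) = 0) :
    cuspSum Γ (fun γ => h (Additive.ofMul γ)) = 0 := by
  classical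
  let := Fintype.ofFinite (SL(2, ℤ) ⧸ Γ)
  let := Fintype.ofFinite (FaceOrbit Γ)
  have hc : IsCoc (homCoc h) := fun g h' x => by
    unfold homCoc
    rw [← map_add, ← ofMul_mul]
    refine congrArg (fun γ => h (Additive.ofMul γ)) (Subtype.ext ?_)
    simp only [Subgroup.coe_mul, mul_smul, mul_assoc, mul_inv_cancel_left]
  have tors : ∀ g : SL(2, ℤ), g ^ 12 = 1 → ∑ x : SL(2, ℤ) ⧸ Γ, homCoc h g x = 0 := by
    intro g hg
    let := Fintype.ofFinite (MulAction.orbitRel.Quotient (Subgroup.zpowers g) (SL(2, ℤ) ⧸ Γ))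
    rw [sum_eq_sum_orbits g]
    refine Finset.sum_eq_zero fun q _ => ?_
    rw [← hc.pow, homCoc_apply_fixed h _ (MulAction.pow_period_smul g q.out)]
    refine hh _ (Subtype.ext ?_)
    simp only [SubmonoidClass.coe_pow, OneMemClass.coe_one]
    conv_lhs => arg 1; rw [← inv_inv q.out.out]; rw [inv_inv q.out.out⁻¹]
    rw [conj_pow, ← pow_mul, mul_comm, pow_mul, hg, one_pow]
    simp
  have htotal : ∑ x : SL(2, ℤ) ⧸ Γ, homCoc h T x = 0 := by
    simp only [T_eq_S_inv_mul_R, hc S⁻¹ R, Finset.sum_add_distrib]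
    have hcomp : ∑ x : SL(2, ℤ) ⧸ Γ, homCoc h S⁻¹ (R • x) = ∑ x, homCoc h S⁻¹ x :=
      Equiv.sum_comp (MulAction.toPerm R) (homCoc h S⁻¹)
    rw [hcomp, tors R, tors S⁻¹, add_zero]
    · rw [inv_pow, show S ^ 12 = ((S * S) * (S * S)) ^ 3 by simp [← pow_two, ← pow_mul],
        S_mul_S]
      simp
    · rw [show R ^ 12 = (R ^ 3 * R ^ 3) ^ 2 by group, R_pow_three]; simp
  rw [cuspSum, finsum_eq_sum_of_fintype]
  rw [sum_eq_sum_orbits T] at htotal
  refine Eq.trans ?_ htotal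
  refine Finset.sum_congr (Finset.ext fun q => ⟨fun _ => @Finset.mem_univ _ (_) q,
    fun _ => @Finset.mem_univ _ (_) q⟩)
    fun q _ => ?_
  rw [← hc.pow]
  exact (homCoc_apply_fixed h _ (MulAction.pow_period_smul T q.out)).symm

theorem cuspSum_add (f g : Γ → k) : cuspSum Γ (f + g) = cuspSum Γ f + cuspSum Γ g := by
  let := Fintype.ofFinite (FaceOrbit Γ)
  simp [cuspSum, finsum_eq_sum_of_fintype, Finset.sum_add_distrib]

theorem cuspSum_smul (c : k) (f : Γ → k) : cuspSum Γ (c • f) = c * cuspSum Γ f := by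
  let := Fintype.ofFinite (FaceOrbit Γ)
  simp [cuspSum, finsum_eq_sum_of_fintype, Finset.mul_sum]

/-- The sum over the cusps does not depend on the quadratic refinement. -/
theorem IsQuad.cuspSum_eq {φ ψ : Additive Γ →+ k} {f f' : Γ → k} (hf : IsQuad φ ψ f)
    (hf' : IsQuad φ ψ f') : cuspSum Γ f = cuspSum Γ f' := by
  let h : Additive Γ →+ k :=
    AddMonoidHom.mk' (fun γ => f (Additive.toMul γ) - f' (Additive.toMul γ)) (fun γ δ => by
      simp only [toMul_add, hf.1, hf'.1]; ring)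
  have h0 := cuspSum_hom_eq_zero h (fun γ hγ => by simp [h, hf.2 γ hγ, hf'.2 γ hγ])
  have e : f = f' + fun γ => h (Additive.ofMul γ) := by funext γ; simp [h]
  rw [e, cuspSum_add, h0, add_zero]

open scoped Classical in
/-- The pairing of two characters, when they have a quadratic refinement. -/
noncomputable def pairVal (φ ψ : Additive Γ →+ k) : k :=
  if h : ∃ f, IsQuad φ ψ f then cuspSum Γ h.choose else 0

theorem pairVal_eq {φ ψ : Additive Γ →+ k} {f : Γ → k} (hf : IsQuad φ ψ f) :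
    pairVal φ ψ = cuspSum Γ f := by
  have h : ∃ f, IsQuad φ ψ f := ⟨f, hf⟩
  rw [pairVal, dif_pos h]
  exact h.choose_spec.cuspSum_eq hf

variable (hneg : (-1 : SL(2, ℤ)) ∈ Γ)

/-- The Poincaré pairing on `Hom_cl(Γ, k)`. -/
noncomputable def clPairing : clHoms k Γ k →ₗ[k] clHoms k Γ k →ₗ[k] k :=
  LinearMap.mk₂ k (fun φ ψ => pairVal φ.1 ψ.1)
    (fun φ φ' ψ => by
      obtain ⟨f, hf⟩ := exists_isQuad hneg φ.2 ψ.2
      obtain ⟨f', hf'⟩ := exists_isQuad hneg φ'.2 ψ.2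
      rw [pairVal_eq hf, pairVal_eq hf', ← cuspSum_add]
      refine pairVal_eq ⟨fun γ δ => ?_, fun γ hγ => by simp [hf.2 γ hγ, hf'.2 γ hγ]⟩
      simp only [Pi.add_apply, hf.1, hf'.1, Submodule.coe_add, AddMonoidHom.add_apply]; ring)
    (fun c φ ψ => by
      obtain ⟨f, hf⟩ := exists_isQuad hneg φ.2 ψ.2
      rw [pairVal_eq hf, smul_eq_mul, ← cuspSum_smul]
      refine pairVal_eq ⟨fun γ δ => ?_, fun γ hγ => by simp [hf.2 γ hγ]⟩
      simp only [Pi.smul_apply, hf.1, Submodule.coe_smul, AddMonoidHom.smul_apply,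
          smul_eq_mul]; ring)
    (fun φ ψ ψ' => by
      obtain ⟨f, hf⟩ := exists_isQuad hneg φ.2 ψ.2
      obtain ⟨f', hf'⟩ := exists_isQuad hneg φ.2 ψ'.2
      rw [pairVal_eq hf, pairVal_eq hf', ← cuspSum_add]
      refine pairVal_eq ⟨fun γ δ => ?_, fun γ hγ => by simp [hf.2 γ hγ, hf'.2 γ hγ]⟩
      simp only [Pi.add_apply, hf.1, hf'.1, Submodule.coe_add, AddMonoidHom.add_apply]; ring)
    (fun c φ ψ => by
      obtain ⟨f, hf⟩ := exists_isQuad hneg φ.2 ψ.2
      rw [pairVal_eq hf, smul_eq_mul, ← cuspSum_smul]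
      refine pairVal_eq ⟨fun γ δ => ?_, fun γ hγ => by simp [hf.2 γ hγ]⟩
      simp only [Pi.smul_apply, hf.1, Submodule.coe_smul, AddMonoidHom.smul_apply,
          smul_eq_mul]; ring)

theorem clPairing_eq {φ ψ : clHoms k Γ k} {f : Γ → k} (hf : IsQuad φ.1 ψ.1 f) :
    clPairing hneg φ ψ = cuspSum Γ f :=
  pairVal_eq hf

omit [Γ.FiniteIndex] in
/-- Cuspidal characters vanish on elements of trace `2`. -/
theorem apply_eq_zero_of_tr_eq_two {φ : Additive Γ →+ k} (hφ : IsClHom Γ φ) {π : Γ}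
    (hπ : tr (π : SL(2, ℤ)) = 2) : φ (Additive.ofMul π) = 0 :=
  hφ π (by rw [hπ]; norm_num)

/-- The pairing is antisymmetric. -/
theorem clPairing_swap (φ ψ : clHoms k Γ k) :
    clPairing hneg ψ φ = -clPairing hneg φ ψ := by
  obtain ⟨f, hf⟩ := exists_isQuad hneg φ.2 ψ.2
  have hg : IsQuad ψ.1 φ.1 (fun γ => φ.1 (Additive.ofMul γ) * ψ.1 (Additive.ofMul γ) - f γ) := by
    refine ⟨fun γ δ => ?_, fun γ hγ => ?_⟩
    · simp only [ofMul_mul, map_add, hf.1]; ring
    · have : |tr (γ : SL(2, ℤ))| ≤ 2 :=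
        abs_tr_le_two_of_pow_twelve (by simpa using congrArg Subtype.val hγ)
      simp [hf.2 γ hγ, φ.2 γ this]
  rw [clPairing_eq hneg hg, clPairing_eq hneg hf]
  let := Fintype.ofFinite (FaceOrbit Γ)
  simp only [cuspSum, finsum_eq_sum_of_fintype, ← Finset.sum_neg_distrib]
  exact Finset.sum_congr rfl fun q _ => by
    rw [apply_eq_zero_of_tr_eq_two φ.2 (tr_cuspElt q.out), zero_mul, zero_sub]

/-- Invariance under an isomorphism preserving trace and orientation. -/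
theorem clPairing_comp_mulEquiv {Γ' : Subgroup SL(2, ℤ)} [Γ'.FiniteIndex]
    (hneg' : (-1 : SL(2, ℤ)) ∈ Γ') (c : Γ ≃* Γ')
    (htr : ∀ γ : Γ, tr (c γ : SL(2, ℤ)) = tr (γ : SL(2, ℤ)))
    (hpos : ∀ γ : Γ, tr (γ : SL(2, ℤ)) = 2 → (IsPos (c γ : SL(2, ℤ)) ↔ IsPos (γ : SL(2, ℤ))))
    (φ' ψ' : clHoms k Γ' k) (φ ψ : clHoms k Γ k)
    (hφ : ∀ γ, φ.1 (Additive.ofMul γ) = φ'.1 (Additive.ofMul (c γ)))
    (hψ : ∀ γ, ψ.1 (Additive.ofMul γ) = ψ'.1 (Additive.ofMul (c γ))) :
    clPairing hneg φ ψ = clPairing hneg' φ' ψ' := by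
  obtain ⟨f, hf⟩ := exists_isQuad hneg' φ'.2 ψ'.2
  have hg : IsQuad φ.1 ψ.1 (fun γ => f (c γ)) :=
    ⟨fun γ δ => by simp only [map_mul, hf.1, hφ, hψ],
      fun γ hγ => hf.2 _ (by rw [← map_pow, hγ, map_one])⟩
  rw [clPairing_eq hneg hg, clPairing_eq hneg' hf]
  let := Fintype.ofFinite (FaceOrbit Γ)
  let := Fintype.ofFinite (FaceOrbit Γ')
  have hgen : ∀ q : FaceOrbit Γ, IsCuspGen Γ' (c (cuspElt Γ q.out)) := by
    intro q
    obtain ⟨h1, h2, h3⟩ := isCuspGen_cuspElt hneg q.out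
    refine ⟨by rw [htr, h1], (hpos _ h1).mpr h2, fun σ n hn hσ => h3 (c.symm σ) n hn ?_⟩
    rw [← map_pow, hσ, c.symm_apply_apply]
  choose q' δ hδ using fun q => exists_conj_cuspElt (hgen q)
  simp only [cuspSum, finsum_eq_sum_of_fintype]
  refine Finset.sum_bij (fun q _ => q' q) (fun _ _ => Finset.mem_univ _) ?_ ?_ ?_
  · intro q₁ _ q₂ _ h
    refine cuspElt_conj_inj hneg (c.symm (δ q₂ * (δ q₁)⁻¹)) (c.injective ?_)
    simp only [map_mul, map_inv, MulEquiv.apply_symm_apply]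
    rw [← hδ q₁, ← hδ q₂, h]
    group
  · intro r _
    have hgen' : IsCuspGen Γ (c.symm (cuspElt Γ' r.out)) := by
      obtain ⟨h1, h2, h3⟩ := isCuspGen_cuspElt hneg' r.out
      have h1' : tr (c.symm (cuspElt Γ' r.out) : SL(2, ℤ)) = 2 := by
        rw [← htr, c.apply_symm_apply, h1]
      refine ⟨h1', by rw [← hpos _ h1', c.apply_symm_apply]; exact h2,
        fun σ n hn hσ => h3 (c σ) n hn (by rw [← map_pow, hσ, c.apply_symm_apply])⟩
    obtain ⟨q, ε, hε⟩ := exists_conj_cuspElt hgen'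
    refine ⟨q, Finset.mem_univ _, cuspElt_conj_inj hneg' (c ε * δ q) ?_⟩
    have h := congrArg c hε
    simp only [map_mul, map_inv, c.apply_symm_apply, ← hδ q] at h
    rw [← h]; group
  · intro q _
    rw [← hδ q]
    exact hf.conj (apply_eq_zero_of_tr_eq_two φ'.2 (tr_cuspElt _))
      (apply_eq_zero_of_tr_eq_two ψ'.2 (tr_cuspElt _)) _

end Fermat.Agent.Ihara
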