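import Fermat.Agent.Ihara.PairingPowers
import Fermat.Agent.Ihara.PairingQuad
import Fermat.Agent.Ihara.PairingSpec

/-!
# Adjunction for the Poincaré pairing

Restriction and corestriction between the cuspidal characters of two finite index subgroups of
`SL(2, ℤ)` are adjoint for the Poincaré pairing `clPairing`. The proof induces a quadratic
refinement from the smaller group to the larger one and compares the sums over cusps.
-/

namespace Fermat.Agent.Ihara

open scoped MatrixGroups
open ModularGroup Fermat.Agent.Grp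

variable {G H : Subgroup SL(2, ℤ)}

theorem out_conj_mem (γ : G) (x : G ⧸ H.subgroupOf G) :
    (((γ • x).out⁻¹ * γ * x.out : G) : SL(2, ℤ)) ∈ H := by
  rw [← Subgroup.mem_subgroupOf, mul_assoc, ← QuotientGroup.eq, QuotientGroup.out_eq',
    ← smul_eq_mul, ← MulAction.Quotient.smul_coe, QuotientGroup.out_eq']

/-- A sufficient condition for `g` to map the coset `x` to the coset `y`, up to sign. -/
theorem smul_eq_of_eq_or_eq_neg (hH : (-1 : SL(2, ℤ)) ∈ H) {g η : G} {x y : G ⧸ H.subgroupOf G}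
    (hη : ((y.out⁻¹ * η * x.out : G) : SL(2, ℤ)) ∈ H)
    (h : (η : SL(2, ℤ)) = g ∨ (η : SL(2, ℤ)) = -(g : SL(2, ℤ))) : g • x = y := by
  have hmem : ((y.out⁻¹ * g * x.out : G) : SL(2, ℤ)) ∈ H := by
    rcases h with h | h
    · rwa [← Subtype.ext h]
    · rw [Subgroup.coe_mul, Subgroup.coe_mul, h] at hη
      rw [Subgroup.coe_mul, Subgroup.coe_mul]
      simpa [mul_assoc] using mul_mem hη hH
  rw [← Subgroup.mem_subgroupOf, mul_assoc, ← QuotientGroup.eq, QuotientGroup.out_eq',
    ← smul_eq_mul, ← MulAction.Quotient.smul_coe, QuotientGroup.out_eq'] at hmem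
  exact hmem.symm

/-- The element of `H` attached to `γ` and a coset of `H` in `G`. -/
noncomputable def cosElt (γ : G) (x : G ⧸ H.subgroupOf G) : H :=
  ⟨(((γ • x).out⁻¹ * γ * x.out : G) : SL(2, ℤ)), out_conj_mem γ x⟩

theorem inclusion_cosElt (h : H ≤ G) (γ : G) (x : G ⧸ H.subgroupOf G) :
    Subgroup.inclusion h (cosElt γ x) = (γ • x).out⁻¹ * γ * x.out :=
  Subtype.ext rfl

theorem cosElt_mul (γ δ : G) (x : G ⧸ H.subgroupOf G) :
    cosElt (γ * δ) x = cosElt γ (δ • x) * cosElt δ x := by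
  refine Subtype.ext ?_
  simp only [cosElt, Subgroup.coe_mul, InvMemClass.coe_inv, mul_smul, mul_assoc,
    mul_inv_cancel_left]

variable {k : Type*} [CommRing k] [H.FiniteIndex]

/-- Corestriction in terms of the elements `cosElt`. -/
theorem coresHom_apply_cosElt [Fintype (G ⧸ H.subgroupOf G)] (h : H ≤ G) (χ : Additive H →+ k)
    (γ : G) :
    coresHom h χ (Additive.ofMul γ) = ∑ x, χ (Additive.ofMul (cosElt γ x)) := by
  let T : (H.subgroupOf G).LeftTransversal :=
    ⟨Set.range Quotient.out,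
      Subgroup.isComplement_range_left (fun q => QuotientGroup.out_eq' q)⟩
  have hT : ∀ q, (T.2.leftQuotientEquiv q : G) = q.out := fun q =>
    Subgroup.IsComplement.leftQuotientEquiv_apply (fun q => QuotientGroup.out_eq' q) q
  show Multiplicative.toAdd (MonoidHom.transfer _ γ) = _
  rw [MonoidHom.transfer_def _ T γ]
  unfold Subgroup.leftTransversals.diff
  simp only [toAdd_prod]
  refine Eq.trans (Finset.sum_congr (Finset.ext fun q => ⟨fun _ => @Finset.mem_univ _ _ q,
    fun _ => @Finset.mem_univ _ (_) q⟩) fun q _ => rfl)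
    (Fintype.sum_equiv (MulAction.toPerm γ).symm _ _ fun q => ?_)
  show χ (Additive.ofMul (Subgroup.subgroupOfEquivOfLe h _)) = _
  refine congrArg (fun z => χ (Additive.ofMul z)) (Subtype.ext ?_)
  simp [cosElt, hT, Subgroup.smul_apply_eq_smul_apply_inv_smul, mul_assoc,
    MulAction.toPerm_symm_apply]

variable (hH : (-1 : SL(2, ℤ)) ∈ H)

/-- The quadratic refinement on `G` induced from one on `H`. -/
noncomputable def inducedQuad (φ : Additive G →+ k) (χ : Additive H →+ k) (f : H → k) (γ : G) : k :=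
  ∑ᶠ x : G ⧸ H.subgroupOf G,
    (f (cosElt γ x) + φ (Additive.ofMul (γ • x).out) * χ (Additive.ofMul (cosElt γ x)))

section

variable [Fintype (G ⧸ H.subgroupOf G)] (h : H ≤ G) {φ : Additive G →+ k} {χ : Additive H →+ k}
  {f : H → k}

/-- The coboundary of the induced refinement is `φ ∪ cores χ`. -/
theorem inducedQuad_mul (hf : IsQuad (resHom h φ) χ f) (γ δ : G) :
    inducedQuad φ χ f (γ * δ) = inducedQuad φ χ f γ + inducedQuad φ χ f δ +
      φ (Additive.ofMul γ) * coresHom h χ (Additive.ofMul δ) := by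
  simp only [inducedQuad, finsum_eq_sum_of_fintype, coresHom_apply_cosElt h, Finset.mul_sum]
  rw [← Equiv.sum_comp (MulAction.toPerm δ) (fun x : G ⧸ H.subgroupOf G =>
    f (cosElt γ x) + φ (Additive.ofMul (γ • x).out) * χ (Additive.ofMul (cosElt γ x)))]
  simp only [MulAction.toPerm_apply, ← Finset.sum_add_distrib]
  refine Finset.sum_congr rfl fun x _ => ?_
  have hres : resHom h φ (Additive.ofMul (cosElt γ (δ • x))) =
      -φ (Additive.ofMul (γ • δ • x).out) + φ (Additive.ofMul γ)
        + φ (Additive.ofMul (δ • x).out) := by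
    show φ (Additive.ofMul (Subgroup.inclusion h _)) = _
    rw [toMul_ofMul, inclusion_cosElt, ofMul_mul, ofMul_mul, ofMul_inv, map_add, map_add, map_neg]
  rw [cosElt_mul, hf.1, hres, ofMul_mul, map_add, mul_smul]
  ring

omit [H.FiniteIndex] in
/-- The induced refinement at an element killed by `φ`, orbit by orbit. -/
theorem inducedQuad_orbits (hf : IsQuad (resHom h φ) χ f) {γ : G}
    [Fintype (MulAction.orbitRel.Quotient (Subgroup.zpowers γ) (G ⧸ H.subgroupOf G))]
    (hφγ : φ (Additive.ofMul γ) = 0) :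
    inducedQuad φ χ f γ = ∑ o : MulAction.orbitRel.Quotient (Subgroup.zpowers γ)
      (G ⧸ H.subgroupOf G), (f (cosElt (γ ^ MulAction.period γ o.out) o.out) +
        φ (Additive.ofMul o.out.out) *
          χ (Additive.ofMul (cosElt (γ ^ MulAction.period γ o.out) o.out))) := by
  have key : ∀ (x : G ⧸ H.subgroupOf G) (n : ℕ), f (cosElt (γ ^ n) x) +
      φ (Additive.ofMul (γ ^ n • x).out) * χ (Additive.ofMul (cosElt (γ ^ n) x)) =
      ∑ i ∈ Finset.range n, (f (cosElt γ (γ ^ i • x)) +
        φ (Additive.ofMul (γ • γ ^ i • x).out) *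
          χ (Additive.ofMul (cosElt γ (γ ^ i • x)))) := by
    intro x n
    induction n with
    | zero =>
      have e1 : cosElt (γ ^ 0) x = (1 : H) := Subtype.ext (by simp [cosElt])
      rw [e1, hf.2 1 (one_pow _)]
      simp
    | succ n ih =>
      have hres : resHom h φ (Additive.ofMul (cosElt γ (γ ^ n • x))) =
          -φ (Additive.ofMul (γ • γ ^ n • x).out) + φ (Additive.ofMul (γ ^ n • x).out) := by
        show φ (Additive.ofMul (Subgroup.inclusion h _)) = _
        rw [toMul_ofMul, inclusion_cosElt, ofMul_mul, ofMul_mul, ofMul_inv, map_add, map_add,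
            map_neg, hφγ,
          add_zero]
      rw [pow_succ', cosElt_mul, hf.1, Finset.sum_range_succ, ← ih, hres, ofMul_mul, map_add,
        mul_smul]
      ring
  simp only [inducedQuad, finsum_eq_sum_of_fintype]
  refine (@sum_eq_sum_orbits G (G ⧸ H.subgroupOf G) _ _ _ k _ γ ‹_› _).trans ?_
  refine Finset.sum_congr rfl fun o _ => ?_
  rw [← key, MulAction.pow_period_smul]
  rfl

/-- The induced refinement is a quadratic refinement of `(φ, cores χ)`. -/
theorem isQuad_inducedQuad (hφ : IsClHom G φ) (hχ : IsClHom H χ)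
    (hf : IsQuad (resHom h φ) χ f) : IsQuad φ (coresHom h χ) (inducedQuad φ χ f) := by
  classical
  refine ⟨inducedQuad_mul h hf, fun γ hγ => ?_⟩
  let := Fintype.ofFinite (MulAction.orbitRel.Quotient (Subgroup.zpowers γ) (G ⧸ H.subgroupOf G))
  have hφγ : φ (Additive.ofMul γ) = 0 :=
    hφ γ (abs_tr_le_two_of_pow_twelve (by simpa using congrArg Subtype.val hγ))
  rw [inducedQuad_orbits h hf hφγ]
  refine Finset.sum_eq_zero fun o _ => ?_
  set n := MulAction.period γ o.out
  have hpow : cosElt (γ ^ n) o.out ^ 12 = 1 := by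
    refine Subtype.ext ?_
    show (((γ ^ n • o.out).out⁻¹ * γ ^ n * o.out.out : G) : SL(2, ℤ)) ^ 12 = 1
    rw [MulAction.pow_period_smul, ← Subgroup.coe_pow]
    have : (o.out.out⁻¹ * γ ^ n * o.out.out) ^ 12 = 1 := by
      rw [show o.out.out⁻¹ * γ ^ n * o.out.out = o.out.out⁻¹ * γ ^ n * o.out.out⁻¹⁻¹ by
        rw [inv_inv], conj_pow, ← pow_mul, mul_comm, pow_mul, hγ, one_pow]
      simp
    rw [this]; rfl
  rw [hf.2 _ hpow, hχ _ (abs_tr_le_two_of_pow_twelve (by simpa using congrArg Subtype.val hpow)),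
    mul_zero, add_zero]

end

omit [H.FiniteIndex] in
/-- The element of `H` attached to an orbit of a cusp generator of `G` on the cosets of `H`. -/
noncomputable def orbitElt (q : FaceOrbit G)
    (o : MulAction.orbitRel.Quotient (Subgroup.zpowers (cuspElt G q.out)) (G ⧸ H.subgroupOf G)) :
    H :=
  cosElt (cuspElt G q.out ^ MulAction.period (cuspElt G q.out) o.out) o.out

omit [H.FiniteIndex] in
theorem inclusion_orbitElt (h : H ≤ G) (q : FaceOrbit G)
    (o : MulAction.orbitRel.Quotient (Subgroup.zpowers (cuspElt G q.out)) (G ⧸ H.subgroupOf G)) :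
    Subgroup.inclusion h (orbitElt q o) =
      o.out.out⁻¹ * cuspElt G q.out ^ MulAction.period (cuspElt G q.out) o.out * o.out.out := by
  simp only [orbitElt, inclusion_cosElt, MulAction.pow_period_smul]

variable [G.FiniteIndex]

include hH in
/-- An orbit of a cusp generator of `G` on the cosets of `H` gives a cusp generator of `H`. -/
theorem isCuspGen_orbitElt (h : H ≤ G) (q : FaceOrbit G)
    (o : MulAction.orbitRel.Quotient (Subgroup.zpowers (cuspElt G q.out)) (G ⧸ H.subgroupOf G)) :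
    IsCuspGen H (orbitElt q o) := by
  set per := MulAction.period (cuspElt G q.out) o.out
  set elt : H := orbitElt q o
  have helt : Subgroup.inclusion h elt = o.out.out⁻¹ * cuspElt G q.out ^ per * o.out.out :=
    inclusion_orbitElt h q o
  have hcoe : (elt : SL(2, ℤ)) = (o.out.out : SL(2, ℤ))⁻¹ *
      ((cuspElt G q.out ^ (per : ℤ) : G) : SL(2, ℤ)) * o.out.out := by
    have := congrArg Subtype.val helt
    simpa using this
  have htr : tr (elt : SL(2, ℤ)) = 2 := by
    rw [hcoe, show ∀ r z : SL(2, ℤ), r⁻¹ * z * r = r⁻¹ * z * r⁻¹⁻¹ from fun r z => by rw [inv_inv],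
      tr_conj, tr_cuspElt_zpow]
  have hp : (0 : ℤ) < per := by exact_mod_cast period_pos (cuspElt G q.out) o.out
  refine ⟨htr, ?_, fun σ m hm hσ => ?_⟩
  · rw [hcoe, coe_cuspElt_zpow]
    set r := (o.out.out : SL(2, ℤ))
    rw [show r⁻¹ * (q.out.out⁻¹ * T ^ ((MulAction.period T q.out : ℤ) * per) *
        q.out.out⁻¹⁻¹) * r = (r⁻¹ * q.out.out⁻¹) *
          T ^ ((MulAction.period T q.out : ℤ) * per) * (r⁻¹ * q.out.out⁻¹)⁻¹ by group,
      isPos_conj_T_zpow]
    exact mul_pos (period_T_pos' q.out) hp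
  · set τ : G := o.out.out * Subgroup.inclusion h σ * o.out.out⁻¹ with hτ
    have hτm : τ ^ m = cuspElt G q.out ^ (per : ℤ) := by
      rw [hτ, conj_pow, ← map_pow, hσ, helt, zpow_natCast]; group
    have hcm : τ * cuspElt G q.out ^ (per : ℤ) * τ⁻¹ = cuspElt G q.out ^ (per : ℤ) := by
      rw [← hτm, ← pow_succ', pow_succ, mul_inv_cancel_right]
    obtain ⟨-, i, hi⟩ := conj_zpow_cuspElt (h hH) τ hp.ne' hcm
    have hfix : cuspElt G q.out ^ i • o.out = o.out :=
      smul_eq_of_eq_or_eq_neg hH (by rw [hτ]; simp [mul_assoc]) hi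
    obtain ⟨i', rfl⟩ := MulAction.zpow_smul_eq_iff_period_dvd.mp hfix
    have hpm : (per : ℤ) * i' * m = per := by
      refine cuspElt_zpow_injective q.out ?_
      show cuspElt G q.out ^ ((per : ℤ) * i' * m) = cuspElt G q.out ^ (per : ℤ)
      have e := congrArg Subtype.val hτm
      rw [Subgroup.coe_pow] at e
      refine Subtype.ext ?_
      rw [zpow_mul, zpow_natCast, Subgroup.coe_pow]
      rcases hi with hi | hi
      · rw [← e, hi]
      · rcases Nat.even_or_odd m with he | he
        · rw [← e, hi, he.neg_pow]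
        · exfalso
          have := congrArg tr e
          rw [hi, he.neg_pow, tr_neg, ← Subgroup.coe_pow, ← zpow_natCast, ← zpow_mul,
            tr_cuspElt_zpow, tr_cuspElt_zpow] at this
          omega
    have h1 : i' * (m : ℤ) = 1 := mul_left_cancel₀ hp.ne'
        (by rw [mul_one, ← mul_assoc]; exact hpm)
    rcases Int.eq_one_or_neg_one_of_mul_eq_one' h1 with ⟨-, h2⟩ | ⟨-, h2⟩ <;> omega

include hH in
/-- Different orbits give non-conjugate elements. -/
theorem orbitElt_conj_inj (h : H ≤ G) {q p : FaceOrbit G}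
    (o : MulAction.orbitRel.Quotient (Subgroup.zpowers (cuspElt G q.out)) (G ⧸ H.subgroupOf G))
    (r : MulAction.orbitRel.Quotient (Subgroup.zpowers (cuspElt G p.out)) (G ⧸ H.subgroupOf G))
    (δ : H) (hδ : δ * orbitElt q o * δ⁻¹ = orbitElt p r) :
    (⟨q, o⟩ : Σ q : FaceOrbit G,
      MulAction.orbitRel.Quotient (Subgroup.zpowers (cuspElt G q.out)) (G ⧸ H.subgroupOf G)) =
      ⟨p, r⟩ := by
  set η : G := r.out.out * Subgroup.inclusion h δ * o.out.out⁻¹ with hη
  have hconj : η * cuspElt G q.out ^ (MulAction.period (cuspElt G q.out) o.out : ℤ) * η⁻¹ =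
      cuspElt G p.out ^ (MulAction.period (cuspElt G p.out) r.out : ℤ) := by
    have e2 := congrArg (Subgroup.inclusion h) hδ
    simp only [map_mul, map_inv, inclusion_orbitElt] at e2
    rw [hη, zpow_natCast, zpow_natCast]
    calc r.out.out * Subgroup.inclusion h δ * o.out.out⁻¹ *
          cuspElt G q.out ^ MulAction.period (cuspElt G q.out) o.out *
          (r.out.out * Subgroup.inclusion h δ * o.out.out⁻¹)⁻¹
        = r.out.out * (Subgroup.inclusion h δ * (o.out.out⁻¹ *
          cuspElt G q.out ^ MulAction.period (cuspElt G q.out) o.out * o.out.out) *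
          (Subgroup.inclusion h δ)⁻¹) * r.out.out⁻¹ := by group
      _ = _ := by rw [e2]; group
  obtain ⟨rfl, i, hi⟩ := conj_zpow_cuspElt (h hH) η
    (by exact_mod_cast (period_pos (cuspElt G q.out) o.out).ne') hconj
  have hsmul : cuspElt G q.out ^ i • o.out = r.out := smul_eq_of_eq_or_eq_neg hH
    (by rw [hη]; simp [mul_assoc]) hi
  obtain rfl : o = r := by
    rw [← Quotient.out_eq' o, ← Quotient.out_eq' r, ← hsmul]
    exact (mk_zpow_smul (cuspElt G q.out) i _).symm
  rfl

omit [H.FiniteIndex] in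
/-- Every cusp generator of `H` is conjugate to the element of some orbit. -/
theorem exists_conj_orbitElt (h : H ≤ G) {π : H} (hπ : IsCuspGen H π) :
    ∃ (q : FaceOrbit G)
      (o : MulAction.orbitRel.Quotient (Subgroup.zpowers (cuspElt G q.out)) (G ⧸ H.subgroupOf G))
      (η : H),
      η⁻¹ * orbitElt q o * η = π := by
  classical
  obtain ⟨q, ε, j, hj, hε⟩ := exists_conj_zpow_cuspElt (Γ := G)
    (e := Subgroup.inclusion h π) hπ.1 hπ.2.1
  set y : G ⧸ H.subgroupOf G := ((ε⁻¹ : G) : G ⧸ H.subgroupOf G) with hy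
  have hfix : cuspElt G q.out ^ j • y = y := by
    rw [hy, MulAction.Quotient.smul_coe, smul_eq_mul, eq_comm, QuotientGroup.eq, inv_inv,
      ← mul_assoc, hε, Subgroup.mem_subgroupOf]
    exact π.2
  set o : MulAction.orbitRel.Quotient (Subgroup.zpowers (cuspElt G q.out))
      (G ⧸ H.subgroupOf G) := Quotient.mk'' y with ho
  obtain ⟨i, hi⟩ := (orbit_mk_eq_iff (cuspElt G q.out) o.out y).mp (Quotient.out_eq' o).symm
  have hper : MulAction.period (cuspElt G q.out) y = MulAction.period (cuspElt G q.out) o.out := by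
    rw [← hi, period_zpow_smul]
  obtain ⟨j', rfl⟩ := MulAction.zpow_smul_eq_iff_period_dvd.mp hfix
  rw [hper] at hj hε
  have hη : ((((cuspElt G q.out ^ i * o.out.out)⁻¹ * ε⁻¹ : G)) : SL(2, ℤ)) ∈ H := by
    rw [← Subgroup.mem_subgroupOf, ← QuotientGroup.eq, ← smul_eq_mul,
      ← MulAction.Quotient.smul_coe, QuotientGroup.out_eq', hi]
  let η : H := ⟨_, hη⟩
  have hpow : η⁻¹ * orbitElt q o ^ j' * η = π := by
    refine Subgroup.inclusion_injective h ?_
    rw [map_mul, map_mul, map_inv, map_zpow, inclusion_orbitElt, ← hε,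
      show Subgroup.inclusion h η = (cuspElt G q.out ^ i * o.out.out)⁻¹ * ε⁻¹ from
        Subtype.ext rfl,
      zpow_mul, zpow_natCast]
    rw [show o.out.out⁻¹ * cuspElt G q.out ^ MulAction.period (cuspElt G q.out) o.out * o.out.out =
      o.out.out⁻¹ * cuspElt G q.out ^ MulAction.period (cuspElt G q.out) o.out *
        o.out.out⁻¹⁻¹ by rw [inv_inv], conj_zpow]
    group
  have hj1 : j' = 1 := by
    have hjpos : 0 < j' := pos_of_mul_pos_right hj (Int.natCast_nonneg _)
    obtain ⟨m, rfl⟩ := Int.eq_ofNat_of_zero_le hjpos.le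
    by_contra hne
    refine hπ.2.2 (η⁻¹ * orbitElt q o * η) m (by omega) ?_
    rw [← hpow, zpow_natCast]
    conv_lhs => rw [show η⁻¹ * orbitElt q o * η = η⁻¹ * orbitElt q o * η⁻¹⁻¹ by rw [inv_inv],
      conj_pow, inv_inv]
  rw [hj1, zpow_one] at hpow
  exact ⟨q, o, η, hpow⟩

include hH in
/-- Adjointness of restriction and corestriction. -/
theorem clPairing_res_cores (h : H ≤ G) (φ : clHoms k G k) (χ : clHoms k H k)
    (hr : resHom h (φ : Additive G →+ k) ∈ clHoms k H k)
    (hc : coresHom h (χ : Additive H →+ k) ∈ clHoms k G k) :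
    clPairing hH ⟨_, hr⟩ χ = clPairing (h hH) φ ⟨_, hc⟩ := by
  classical
  let := Fintype.ofFinite (G ⧸ H.subgroupOf G)
  obtain ⟨f, hf⟩ := exists_isQuad hH hr χ.2
  rw [clPairing_eq hH hf, clPairing_eq (h hH) (isQuad_inducedQuad h φ.2 χ.2 hf)]
  let := Fintype.ofFinite (FaceOrbit G)
  let := Fintype.ofFinite (FaceOrbit H)
  let Orb := fun q : FaceOrbit G =>
    MulAction.orbitRel.Quotient (Subgroup.zpowers (cuspElt G q.out)) (G ⧸ H.subgroupOf G)
  let := fun q : FaceOrbit G => Fintype.ofFinite (Orb q)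
  have hgen : ∀ q (o : Orb q), IsCuspGen H (orbitElt q o) := isCuspGen_orbitElt hH h
  -- the value of the induced refinement at a cusp of `G`
  have hval : ∀ q : FaceOrbit G,
      inducedQuad (φ : Additive G →+ k) (χ : Additive H →+ k) f (cuspElt G q.out) =
        ∑ o : Orb q, f (orbitElt q o) := by
    intro q
    rw [inducedQuad_orbits h hf (apply_eq_zero_of_tr_eq_two φ.2 (tr_cuspElt q.out))]
    refine Finset.sum_congr rfl fun o _ => ?_
    show f (orbitElt q o) + _ * (χ : Additive H →+ k) (Additive.ofMul (orbitElt q o)) = _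
    rw [apply_eq_zero_of_tr_eq_two χ.2 (hgen q o).1, mul_zero, add_zero]
  simp only [cuspSum, finsum_eq_sum_of_fintype, hval]
  rw [Finset.sum_sigma']
  symm
  -- cusps of `H` over cusps of `G`
  choose q' δ hδ using fun p : (q : FaceOrbit G) × Orb q => exists_conj_cuspElt (hgen p.1 p.2)
  refine Finset.sum_bij (fun p _ => q' p) (fun _ _ => Finset.mem_univ _) ?_ ?_ ?_
  · rintro ⟨q, o⟩ _ ⟨p, r⟩ _ heq
    change q' ⟨q, o⟩ = q' ⟨p, r⟩ at heq
    refine orbitElt_conj_inj hH h o r (δ ⟨p, r⟩ * (δ ⟨q, o⟩)⁻¹) ?_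
    rw [← hδ ⟨q, o⟩, ← hδ ⟨p, r⟩, heq]
    group
  · intro c _
    obtain ⟨q, o, η, hη⟩ := exists_conj_orbitElt h (isCuspGen_cuspElt hH c.out)
    refine ⟨⟨q, o⟩, Finset.mem_univ _, cuspElt_conj_inj hH (η⁻¹ * δ ⟨q, o⟩) ?_⟩
    rw [← hη, ← hδ ⟨q, o⟩]
    group
  · rintro ⟨q, o⟩ _
    rw [← hδ ⟨q, o⟩]
    exact hf.conj (apply_eq_zero_of_tr_eq_two hr (tr_cuspElt _))
      (apply_eq_zero_of_tr_eq_two χ.2 (tr_cuspElt _)) _

end Fermat.Agent.Ihara
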