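import Mathlib.LinearAlgebra.Basis.VectorSpace
import Mathlib.LinearAlgebra.Isomorphisms
import Fermat.Agent.Grp.Rank
import Fermat.Agent.Ihara.PairingQuad

/-!
# Nondegeneracy of the Poincaré pairing

Expresses `clPairing` in edge data on the coset space `SL(2, ℤ) ⧸ Γ` and deduces from it that the
pairing of `Hom_cl(Γ, k)` with itself is perfect when `k` is a field.
-/

namespace Fermat.Agent.Ihara

open scoped MatrixGroups
open ModularGroup Fermat.Agent.Grp

variable {Γ : Subgroup SL(2, ℤ)} [Γ.FiniteIndex]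

section CommRing

variable {k : Type*} [CommRing k] (hneg : (-1 : SL(2, ℤ)) ∈ Γ)

include hneg in
/-- A potential on the coset space with increments `b (R x)` along the faces. -/
theorem exists_potential (b : edgeSpace k Γ k) :
    ∃ u : (SL(2, ℤ) ⧸ Γ) → k, ∀ x, u (T • x) = u x + b.1 (R • x) := by
  obtain ⟨hc, hS, hR⟩ := cocOf_spec hneg b.1 (fun x => (b.2.1 x).1)
  set c := cocOf hneg b.1 (fun x => (b.2.1 x).1)
  have hcl : IsClCoc c :=
    isClCoc_of_mem_edgeSpace (k := k) hneg hc hR (by simp only [hS]; exact b.2)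
  have hwd : ∀ (y : SL(2, ℤ) ⧸ Γ) (n m : ℤ), T ^ n • y = T ^ m • y →
      c (T ^ n) y = c (T ^ m) y := by
    intro y n m h
    have hy : T ^ (m - n) • y = y := by
      rw [sub_eq_neg_add, zpow_add, mul_smul, ← h, zpow_neg, inv_smul_smul]
    rw [show T ^ m = T ^ n * T ^ (m - n) by rw [← zpow_add, add_sub_cancel], hc, hy,
      hcl.2 _ y hy (by rw [tr_T_zpow]; norm_num), add_zero]
  have hrep : ∀ x : SL(2, ℤ) ⧸ Γ, ∃ n : ℤ, T ^ n • (Quotient.mk'' x : FaceOrbit Γ).out = x :=
    fun x => (orbit_mk_eq_iff T _ _).mp (Quotient.out_eq' _).symm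
  choose num hnum using hrep
  refine ⟨fun x => c (T ^ num x) (Quotient.mk'' x : FaceOrbit Γ).out, fun x => ?_⟩
  have hq := face_mk_T (Γ := Γ) x
  show c (T ^ num (T • x)) (Quotient.mk'' (T • x) : FaceOrbit Γ).out = _
  rw [hq, hwd _ (num (T • x)) (1 + num x) (by
    have e := hnum (T • x)
    rw [hq] at e
    rw [e, zpow_add, zpow_one, mul_smul, hnum x]), zpow_add, zpow_one, hc, hnum x,
    hc.T_apply hR, hS, add_comm]

include hneg in
omit [Γ.FiniteIndex] in
/-- A potential for `b` increases by `b y` from `R⁻¹ y` to `S y`. -/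
theorem potential_S_smul {b u : (SL(2, ℤ) ⧸ Γ) → k} (hu : ∀ x, u (T • x) = u x + b (R • x))
    (y : SL(2, ℤ) ⧸ Γ) : u (S • y) = u (R⁻¹ • y) + b y := by
  have := hu (R⁻¹ • y)
  rw [smul_inv_smul] at this
  rw [← this, ← R_S_smul hneg, smul_inv_smul]

/-- The pairing in edge data, summed over all oriented edges. -/
theorem clPairing_edge [Fintype (SL(2, ℤ) ⧸ Γ)] (a b : edgeSpace k Γ k)
    (φ ψ : clHoms k Γ k) (hφ : φ.1 = edgeToHom hneg k a) (hψ : ψ.1 = edgeToHom hneg k b)
    (u : (SL(2, ℤ) ⧸ Γ) → k) (hu : ∀ x, u (T • x) = u x + b.1 (R • x)) :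
    clPairing hneg φ ψ =
      ∑ z : SL(2, ℤ) ⧸ Γ, (quadT a.1 b.1 z + a.1 z * u (R⁻¹ • z)) := by
  classical
  obtain ⟨V, hV, hVS, hVR⟩ := exists_heisCoc hneg a b
  have hq := isQuad_heisCoc hneg a b hV hVS hVR
  rw [← hφ, ← hψ] at hq
  rw [clPairing_eq hneg hq]
  let := Fintype.ofFinite (FaceOrbit Γ)
  have hneg1 : ∀ x, V (-1) x = 1 := fun x => by
    rw [← R_pow_three, pow_three, hV, hV, hVR, hVR, hVR]; simp
  have hT : ∀ y, V T y = ⟨a.1 (R • y), b.1 (R • y), quadT a.1 b.1 (R • y)⟩ := by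
    intro y
    have h1 : V S (T • y) * V T y = 1 := by rw [← hV, show S * T = R from rfl, hVR]
    have h2 : V S (R • y) * V S (T • y) = 1 := by
      rw [show R • y = S • T • y by rw [← mul_smul]; rfl, ← hV, S_mul_S, hneg1]
    rw [← hVS, eq_inv_of_mul_eq_one_right h1, eq_inv_of_mul_eq_one_left h2]
  have key : ∀ (x : SL(2, ℤ) ⧸ Γ) (n : ℕ),
      (V (T ^ n) x).u = ∑ i ∈ Finset.range n, a.1 (R • T ^ i • x) ∧
      (V (T ^ n) x).v = u (T ^ n • x) - u x ∧
      (V (T ^ n) x).w = (∑ i ∈ Finset.range n,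
        (quadT a.1 b.1 (R • T ^ i • x) + a.1 (R • T ^ i • x) * u (T ^ i • x)))
          - u x * ∑ i ∈ Finset.range n, a.1 (R • T ^ i • x) := by
    intro x n
    induction n with
    | zero => simp [hV.one]
    | succ n ih =>
      obtain ⟨h1, h2, h3⟩ := ih
      rw [pow_succ', hV, hT]
      simp only [Heis.mul_u, Heis.mul_v, Heis.mul_w, h1, h2, h3, mul_smul, hu,
        Finset.sum_range_succ]
      refine ⟨by ring, by ring, by ring⟩
  have hfix : ∀ x : SL(2, ℤ) ⧸ Γ,
      (V (cuspElt Γ x : SL(2, ℤ)) (baseCoset Γ)).w = ∑ i ∈ Finset.range (MulAction.period T x),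
        (quadT a.1 b.1 (R • T ^ i • x) + a.1 (R • T ^ i • x) * u (T ^ i • x)) := by
    intro x
    obtain ⟨h1, h2, h3⟩ := key x (MulAction.period T x)
    have ha : ∑ i ∈ Finset.range (MulAction.period T x), a.1 (R • T ^ i • x) = 0 := by
      have := congrFun (LinearMap.mem_ker.mp a.2.2) (Quotient.mk'' x)
      rw [sum_range_period_T (fun y => a.1 (R • y)) x]
      simp only [faceMap, LinearMap.coe_mk, AddHom.coe_mk, Pi.zero_apply] at this
      convert this
    rw [ha] at h1 h3
    rw [MulAction.pow_period_smul, sub_self] at h2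
    have hbase : x.out⁻¹ • x = baseCoset Γ := by
      rw [inv_smul_eq_iff]; exact (out_smul_baseCoset x).symm
    show (V (x.out⁻¹ * T ^ MulAction.period T x * x.out) (baseCoset Γ)).w = _
    rw [hV, hV, out_smul_baseCoset, MulAction.pow_period_smul, hV.inv, hbase]
    simp [h1, h2, h3]
    ring
  rw [cuspSum, finsum_eq_sum_of_fintype]
  simp only [hfix]
  rw [← Equiv.sum_comp (MulAction.toPerm R)
    (fun z => quadT a.1 b.1 z + a.1 z * u (R⁻¹ • z))]
  simp only [MulAction.toPerm_apply, inv_smul_smul]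
  refine Eq.trans ?_ (sum_eq_sum_orbits T _).symm
  exact Finset.sum_congr (Finset.ext fun q => ⟨fun _ => @Finset.mem_univ _ (_) q,
    fun _ => @Finset.mem_univ _ (_) q⟩) fun q _ => rfl

open scoped Classical in
include hneg in
/-- The summand of the pairing collected on edges. -/
theorem edge_sum_eq [Fintype (SL(2, ℤ) ⧸ Γ)] (a b : edgeSpace k Γ k)
    (u : (SL(2, ℤ) ⧸ Γ) → k) (hu : ∀ x, u (T • x) = u x + b.1 (R • x)) :
    ∑ z : SL(2, ℤ) ⧸ Γ, (quadT a.1 b.1 z + a.1 z * u (R⁻¹ • z)) =
      ∑ z : SL(2, ℤ) ⧸ Γ, if Finite.equivFin _ z < Finite.equivFin _ (S • z)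
        then a.1 z * (u (R⁻¹ • z) - u z) else 0 := by
  let o := Finite.equivFin (SL(2, ℤ) ⧸ Γ)
  let F := fun z => quadT a.1 b.1 z + a.1 z * u (R⁻¹ • z)
  have hsplit : ∀ z, F z =
      (if o z < o (S • z) then F z else 0) + if o (S • z) < o z then F z else 0 := by
    intro z
    rcases lt_trichotomy (o z) (o (S • z)) with h | h | h
    · rw [if_pos h, if_neg h.asymm, add_zero]
    · have hx : S • z = z := (o.injective h).symm
      simp [F, quadT_eq_zero _ _ hx, (a.2.1 z).2 hx]
    · rw [if_neg h.asymm, if_pos h, zero_add]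
  show ∑ z, F z = _
  rw [Finset.sum_congr rfl fun z _ => hsplit z, Finset.sum_add_distrib,
    ← Equiv.sum_comp (MulAction.toPerm S) (fun z => if o (S • z) < o z then F z else 0),
    ← Finset.sum_add_distrib]
  refine Finset.sum_congr rfl fun z _ => ?_
  simp only [MulAction.toPerm_apply, S_smul_S_smul hneg]
  by_cases h : o z < o (S • z)
  · have h' : ¬ o (S • z) < o z := h.asymm
    have e1 := potential_S_smul hneg hu (S • z)
    rw [S_smul_S_smul hneg, (b.2.1 z).1] at e1
    rw [if_pos h, if_pos h, if_pos h]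
    simp only [F, quadT, S_smul_S_smul hneg]
    rw [if_pos h, if_neg h', (a.2.1 z).1]
    linear_combination a.1 z * e1
  · rw [if_neg h, if_neg h, if_neg h, add_zero]

end CommRing

variable {k : Type*} [Field k] (hneg : (-1 : SL(2, ℤ)) ∈ Γ)

omit [Γ.FiniteIndex] in
include hneg in
/-- `S y` and `R⁻¹ y` lie on the same face. -/
theorem mk_S_smul (y : SL(2, ℤ) ⧸ Γ) :
    (Quotient.mk'' (S • y) : FaceOrbit Γ) = Quotient.mk'' (R⁻¹ • y) := by
  rw [← face_mk_T (R⁻¹ • y), ← R_S_smul hneg, smul_inv_smul]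

open scoped Classical in
include hneg in
/-- An alternating function orthogonal to all edge data is the coboundary of weights on the
faces. -/
theorem exists_faceWeight [Fintype (SL(2, ℤ) ⧸ Γ)] (d : (SL(2, ℤ) ⧸ Γ) → k)
    (hd : ∀ y, d (S • y) = -d y) (hd' : ∀ y, S • y = y → d y = 0)
    (h : ∀ a ∈ edgeSpace k Γ k, (∑ z, if Finite.equivFin _ z < Finite.equivFin _ (S • z)
      then a z * d z else 0) = 0) :
    ∃ w : FaceOrbit Γ → k, ∀ y, d y = w (Quotient.mk'' (R⁻¹ • y)) - w (Quotient.mk'' y) := by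
  let o := Finite.equivFin (SL(2, ℤ) ⧸ Γ)
  let L : altSpace k Γ k →ₗ[k] k :=
    { toFun := fun a => ∑ z, if o z < o (S • z) then a.1 z * d z else 0
      map_add' := fun a a' => by
        rw [← Finset.sum_add_distrib]
        exact Finset.sum_congr rfl fun z _ => by
          split_ifs <;> simp [add_mul]
      map_smul' := fun t a => by
        rw [RingHom.id_apply, smul_eq_mul, Finset.mul_sum]
        exact Finset.sum_congr rfl fun z _ => by
          split_ifs <;> simp [mul_assoc] }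
  let F := (faceMap k Γ k).comp (altSpace k Γ k).subtype
  have hker : LinearMap.ker F ≤ LinearMap.ker L := fun a ha => h a.1 ⟨a.2, ha⟩
  obtain ⟨v, hv⟩ := LinearMap.exists_extend
    (((LinearMap.ker F).liftQ L hker).comp F.quotKerEquivRange.symm.toLinearMap)
  have hL : ∀ a, L a = v (F a) := by
    intro a
    have := LinearMap.congr_fun hv ⟨F a, LinearMap.mem_range_self F a⟩
    simp only [LinearMap.coe_comp, Function.comp_apply, Submodule.coe_subtype,
      LinearEquiv.coe_coe] at this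
    rw [this, LinearMap.quotKerEquivRange_symm_apply_image]
    rfl
  let := Fintype.ofFinite (FaceOrbit Γ)
  let w : FaceOrbit Γ → k := fun q => v (Pi.single q 1)
  have hw : ∀ g : (SL(2, ℤ) ⧸ Γ) → k,
      v (faceMap k Γ k g) = ∑ x, w (Quotient.mk'' x) * g (R • x) := by
    intro g
    rw [LinearMap.pi_apply_eq_sum_univ v]
    rw [← Finset.sum_fiberwise Finset.univ (fun x => (Quotient.mk'' x : FaceOrbit Γ))]
    refine Finset.sum_congr rfl fun q _ => ?_
    have hs : (fun j => if q = j then (1 : k) else 0) = Pi.single q 1 := by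
      funext j; simp [Pi.single_apply, eq_comm]
    rw [hs, smul_eq_mul, show faceMap k Γ k g q =
      ∑ x ∈ Finset.univ.filter (fun x => (Quotient.mk'' x : FaceOrbit Γ) = q), g (R • x) by
        simp only [faceMap, LinearMap.coe_mk, AddHom.coe_mk]; congr!, Finset.sum_mul]
    refine Finset.sum_congr rfl fun x hx => ?_
    rw [(Finset.mem_filter.mp hx).2]
    exact mul_comm _ _
  refine ⟨w, fun y => ?_⟩
  rcases eq_or_ne (S • y) y with hy | hy
  · rw [← mk_S_smul hneg, hy, sub_self, hd' y hy]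
  · have hay : (Pi.single y 1 - Pi.single (S • y) 1 : (SL(2, ℤ) ⧸ Γ) → k) ∈ altSpace k Γ k := by
      intro x
      refine ⟨?_, fun hx => ?_⟩
      · have h1 : S • x = y ↔ x = S • y :=
          ⟨fun h => by rw [← h, S_smul_S_smul hneg],
            fun h => by rw [h, S_smul_S_smul hneg]⟩
        simp [Pi.single_apply, h1]
      · have h1 : x ≠ y := fun h => hy (h ▸ hx)
        have h2 : x ≠ S • y := fun h => hy (by
          rw [h, S_smul_S_smul hneg] at hx; exact hx.symm)
        simp [h1, h2]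
    have e2 := hL ⟨_, hay⟩
    have e3 : ∀ F : (SL(2, ℤ) ⧸ Γ) → k,
        ∑ x, F x * (Pi.single y 1 - Pi.single (S • y) 1 : (SL(2, ℤ) ⧸ Γ) → k) x
          = F y - F (S • y) := fun F => by
      simp [mul_sub, Finset.sum_sub_distrib, Pi.single_apply]
    have e4 : L ⟨_, hay⟩ = d y := by
      show (∑ z, if o z < o (S • z) then _ * d z else 0) = d y
      rw [Finset.sum_congr rfl fun z _ => show (if o z < o (S • z) then
          (Pi.single y 1 - Pi.single (S • y) 1 : (SL(2, ℤ) ⧸ Γ) → k) z * d z else 0) =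
        (if o z < o (S • z) then d z else 0) *
          (Pi.single y 1 - Pi.single (S • y) 1 : (SL(2, ℤ) ⧸ Γ) → k) z by
        split_ifs <;> ring, e3, S_smul_S_smul hneg]
      rcases lt_trichotomy (o y) (o (S • y)) with h | h | h
      · rw [if_pos h, if_neg h.asymm, sub_zero]
      · exact absurd (o.injective h).symm hy
      · rw [if_neg h.asymm, if_pos h, zero_sub, hd, neg_neg]
    have e6 : v (F ⟨_, hay⟩) =
        w (Quotient.mk'' (R⁻¹ • y)) - w (Quotient.mk'' (R⁻¹ • (S • y))) := by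
      show v (faceMap k Γ k _) = _
      rw [hw]
      rw [← Equiv.sum_comp (MulAction.toPerm R⁻¹)]
      simp only [MulAction.toPerm_apply, smul_inv_smul]
      exact e3 (fun x => w (Quotient.mk'' (R⁻¹ • x)))
    rw [← e4, e2, e6, ← mk_S_smul hneg (S • y), S_smul_S_smul hneg]

/-- Perfectness on the right. -/
theorem clPairing_right_nondeg (ψ : clHoms k Γ k) (h : ∀ φ, clPairing hneg φ ψ = 0) : ψ = 0 := by
  classical
  let := Fintype.ofFinite (SL(2, ℤ) ⧸ Γ)
  obtain ⟨b, hb⟩ := exists_edgeToHom_eq hneg k ψ.2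
  obtain ⟨u, hu⟩ := exists_potential hneg b
  have hS := potential_S_smul hneg hu
  obtain ⟨w, hw⟩ := exists_faceWeight hneg (fun z => u (R⁻¹ • z) - u z) (fun y => by
      have e := hS (S • y)
      rw [S_smul_S_smul hneg, (b.2.1 y).1] at e
      linear_combination -e - hS y)
    (fun y hy => by
      have e := hS y
      rw [hy, (b.2.1 y).2 hy, add_zero] at e
      rw [← e, sub_self])
    (fun a ha => by
      have h1 := h ⟨edgeToHom hneg k ⟨a, ha⟩, edgeToHom_isClHom hneg _⟩
      rwa [clPairing_edge hneg ⟨a, ha⟩ b _ ψ rfl hb.symm u hu, edge_sum_eq hneg _ _ u hu] at h1)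
  refine Subtype.ext ?_
  rw [Submodule.coe_zero, ← hb, edgeToHom_eq_zero_iff hneg]
  let u' := fun x => u x - w (Quotient.mk'' x)
  have hu' : ∀ y, u' (R⁻¹ • y) = u' y := fun y => by
    simp only [u']
    linear_combination hw y
  refine ⟨u', fun x => ?_, fun y => ?_⟩
  · have := hu' (R • x)
    rwa [inv_smul_smul, eq_comm] at this
  · rw [← hu' y]
    simp only [u', mk_S_smul hneg y, hS y]
    ring

/-- Perfectness on the left. -/
theorem clPairing_left_nondeg (φ : clHoms k Γ k) (h : ∀ ψ, clPairing hneg φ ψ = 0) : φ = 0 :=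
  clPairing_right_nondeg hneg φ fun ψ => by rw [clPairing_swap hneg, h, neg_zero]

/-- The pairing is nondegenerate. -/
theorem clPairing_nondegenerate : Function.Injective (clPairing (k := k) hneg) := by
  refine (injective_iff_map_eq_zero _).mpr fun φ h => clPairing_left_nondeg hneg φ fun ψ => ?_
  rw [h]; rfl

end Fermat.Agent.Ihara
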