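import Mathlib.Algebra.Field.Basic
import Mathlib.LinearAlgebra.Matrix.Trace
import Fermat.Agent.Ihara.PairingAdjoint
import Fermat.Agent.Ihara.PairingNondeg
import Fermat.Agent.Ihara.PairingSpec

/-!
# The Poincaré pairing on cuspidal characters

Assembles the pairing `clPairing` into a Poincaré pairing in the sense of `IsPoincarePairing`:
alternating, nondegenerate, restriction adjoint to corestriction, and invariant under conjugation by
integral matrices of positive determinant, which preserve trace and orientation of parabolic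
elements. Level raising uses only this interface.
-/

namespace Fermat.Agent.Ihara

open scoped MatrixGroups
open ModularGroup Fermat.Agent.Grp

/-- Conjugation by an integral matrix of positive determinant keeps the trace. -/
theorem tr_eq_of_intertwine {η : Matrix (Fin 2) (Fin 2) ℤ} (hη : 0 < η.det) {γ δ : SL(2, ℤ)}
    (h : η * (γ : Matrix (Fin 2) (Fin 2) ℤ) = (δ : Matrix (Fin 2) (Fin 2) ℤ) * η) :
    tr δ = tr γ := by
  have e := congrArg (fun M => (η.adjugate * M).trace) h
  simp only [← mul_assoc, Matrix.adjugate_mul] at e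
  rw [Matrix.trace_mul_comm (η.adjugate * _) η, ← mul_assoc, Matrix.mul_adjugate] at e
  simp only [smul_mul_assoc, one_mul, Matrix.trace_smul, smul_eq_mul] at e
  exact (mul_left_cancel₀ hη.ne' e).symm

/-- Conjugation by an integral matrix of positive determinant keeps the orientation of parabolic
elements. -/
theorem isPos_iff_of_intertwine {η : Matrix (Fin 2) (Fin 2) ℤ} (hη : 0 < η.det) {γ δ : SL(2, ℤ)}
    (h : η * (γ : Matrix (Fin 2) (Fin 2) ℤ) = (δ : Matrix (Fin 2) (Fin 2) ℤ) * η) (htr : tr γ = 2) :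
    IsPos δ ↔ IsPos γ := by
  obtain ⟨g, n, rfl⟩ := exists_conj_T_zpow_of_tr htr
  obtain ⟨g', n', rfl⟩ := exists_conj_T_zpow_of_tr ((tr_eq_of_intertwine hη h).trans htr)
  rw [isPos_conj_T_zpow, isPos_conj_T_zpow]
  set M := ((g'⁻¹ : SL(2, ℤ)) : Matrix (Fin 2) (Fin 2) ℤ) * η * (g : Matrix (Fin 2) (Fin 2) ℤ)
    with hM
  have hdet : 0 < M.det := by
    rw [hM, Matrix.det_mul, Matrix.det_mul, Matrix.SpecialLinearGroup.det_coe,
      Matrix.SpecialLinearGroup.det_coe, one_mul, mul_one]
    exact hη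
  have hg : ∀ u : SL(2, ℤ), ((u⁻¹ : SL(2, ℤ)) : Matrix (Fin 2) (Fin 2) ℤ) * u = 1 := fun u => by
    rw [← Matrix.SpecialLinearGroup.coe_mul, inv_mul_cancel, Matrix.SpecialLinearGroup.coe_one]
  have hMT : M * ((T ^ n : SL(2, ℤ)) : Matrix (Fin 2) (Fin 2) ℤ) =
      ((T ^ n' : SL(2, ℤ)) : Matrix (Fin 2) (Fin 2) ℤ) * M := by
    have e := congrArg (fun X => ((g'⁻¹ : SL(2, ℤ)) : Matrix (Fin 2) (Fin 2) ℤ) * X *
      (g : Matrix (Fin 2) (Fin 2) ℤ)) h
    simp only [Matrix.SpecialLinearGroup.coe_mul, mul_assoc, hg, mul_one] at e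
    rw [← mul_assoc ((g'⁻¹ : SL(2, ℤ)) : Matrix (Fin 2) (Fin 2) ℤ) (g' : Matrix (Fin 2) (Fin 2) ℤ),
      hg, one_mul] at e
    rw [hM]
    simpa only [mul_assoc] using e
  have e11 := congrFun (congrFun hMT 1) 1
  have e01 := congrFun (congrFun hMT 0) 1
  have e00 := congrFun (congrFun hMT 0) 0
  simp [Matrix.mul_apply, Fin.sum_univ_two, coe_T_zpow] at e11 e01 e00
  rw [Matrix.det_fin_two] at hdet
  constructor
  · intro hn'
    have hc : M 1 0 = 0 := by rcases e00 with h' | h' <;> omega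
    rw [hc, mul_zero, sub_zero] at hdet
    have e : n * M 0 0 ^ 2 = n' * (M 0 0 * M 1 1) := by linear_combination M 0 0 * e01
    have hp := mul_pos hn' hdet
    rw [← e] at hp
    exact pos_of_mul_pos_left hp (sq_nonneg _)
  · intro hn
    have hc : M 1 0 = 0 := by rcases e11 with h' | h' <;> omega
    rw [hc, mul_zero, sub_zero] at hdet
    have e : n' * M 1 1 ^ 2 = n * (M 0 0 * M 1 1) := by linear_combination -(M 1 1) * e01
    have hp := mul_pos hn hdet
    rw [← e] at hp
    exact pos_of_mul_pos_left hp (sq_nonneg _)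

/-- Poincaré duality for `Hom_cl`. -/
theorem exists_poincarePairing (k : Type) [Field k] :
    ∃ P : ∀ X : Lev, clHoms k X.grp k →ₗ[k] clHoms k X.grp k →ₗ[k] k, IsPoincarePairing k P := by
  refine ⟨fun X => clPairing X.neg_mem, fun X φ ψ => clPairing_swap X.neg_mem ψ φ,
    fun X φ h => clPairing_left_nondeg X.neg_mem φ h,
    fun X Y h φ χ hr hc => clPairing_res_cores Y.neg_mem h φ χ hr hc,
    fun X Y e η hη he φ ψ hφ hψ => ?_⟩
  exact clPairing_comp_mulEquiv Y.neg_mem X.neg_mem e
    (fun γ => tr_eq_of_intertwine hη (he γ))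
    (fun γ htr => isPos_iff_of_intertwine hη (he γ) htr) φ ψ ⟨_, hφ⟩ ⟨_, hψ⟩
    (fun _ => rfl) (fun _ => rfl)

end Fermat.Agent.Ihara
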