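import Fermat.Agent.Ihara.Irr

/-!
# The Galois criterion for elliptic curves

If `p` is odd and `a_ℓ ≡ ± (ℓ + 1) mod p` for almost all primes `ℓ`, then `E[p]` is reducible: by
Chebotarev's density theorem every element of the image has an eigenvalue `± 1`. Hence an
irreducible `E[p]` has infinitely many primes `ℓ` at which its Hecke system is visibly not
Eisenstein.
-/

noncomputable section

open Module WeierstrassCurve WeierstrassCurve.Affine.Point
open scoped WeierstrassCurve.Affine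

namespace Fermat.Agent.Ihara

local notation "Qbar" => AlgebraicClosure ℚ

/-- The interface for the trace of Frobenius on `E[p]` at good primes. -/
def FrobTraceAt (W : WeierstrassCurve ℤ) (p : ℕ) : Prop :=
  ∀ ℓ : ℕ, ℓ.Prime → ℓ ≠ p → W.IsGoodPrimeFor ℓ →
    ∀ (A : ValuationSubring Qbar) (σ : Qbar ≃ₐ[ℚ] Qbar), A.LiesOverPrime ℓ →
      A.IsFrobeniusAt σ ℓ →
        Affine.Point.galoisTrace ℚ (W.map (Int.castRingHom ℚ)).toAffine p σ =
            (W.apOfModel ℓ : ZMod p)

/-- The cyclotomic character is `-1` on complex conjugation. -/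
theorem cyclotomicCharacter_complexConjugation {n : ℕ} [NeZero n]
    (hn : Nat.card (rootsOfUnity n Qbar) = n) :
    ((modularCyclotomicCharacter Qbar hn (complexConjugation : Qbar ≃+* Qbar) : (ZMod n)ˣ) : ZMod n)
      = -1 := by
  refine (modularCyclotomicCharacter.unique Qbar hn _ fun t ht => ?_).symm
  have htn : (t : Qbar) ^ n = 1 := by
    rw [← Units.val_pow_eq_pow_val, (mem_rootsOfUnity n t).mp ht, Units.val_one]
  show complexConjugation (t : Qbar) = _
  have hz : (t : Qbar) * complexConjugation (t : Qbar) = 1 := by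
    apply complexEmbedding.injective
    show complexEmbedding ((t : Qbar) * complexConjugation (t : Qbar)) = complexEmbedding 1
    rw [map_mul, map_one, complexEmbedding_complexConjugation, Complex.mul_conj,
      Complex.normSq_eq_norm_sq,
      Complex.norm_eq_one_of_pow_eq_one (n := n) (by rw [← map_pow, htn, map_one]) (NeZero.ne n)]
    norm_num
  have hv : t ^ (-1 : ZMod n).val * t = 1 := by
    rw [← pow_succ]
    obtain ⟨q, hq⟩ : n ∣ (-1 : ZMod n).val + 1 := by
      rw [← ZMod.natCast_eq_zero_iff]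
      simp
    rw [hq, pow_mul, (mem_rootsOfUnity n t).mp ht, one_pow]
  have hv' := congrArg Units.val hv
  rw [Units.val_mul, Units.val_one, mul_comm] at hv'
  exact mul_left_cancel₀ t.ne_zero (hz.trans hv'.symm)

variable {p : ℕ} [Fact p.Prime]

/-- The determinant of the torsion representation is the cyclotomic character. -/
theorem det_galoisRepModuleEnd (E : WeierstrassCurve ℚ) [E.IsElliptic]
    (hn : Nat.card (rootsOfUnity p Qbar) = p) (σ : Qbar ≃ₐ[ℚ] Qbar) :
    LinearMap.det (galoisRepModuleEnd (K := Qbar) ℚ E p σ) =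
      ((modularCyclotomicCharacter Qbar hn (σ : Qbar ≃+* Qbar) : (ZMod p)ˣ) : ZMod p) := by
  rw [← EC.galoisRepDetEqCyclotomic E p hn σ, galoisRepDet_apply, LinearEquiv.coe_det]
  rfl

theorem card_rootsOfUnity_Qbar (p : ℕ) [NeZero p] : Nat.card (rootsOfUnity p Qbar) = p :=
  IsAlgClosed.card_rootsOfUnity_eq Qbar p

/-- All elements have a sign eigenvalue. -/
theorem hasSignEigen_of_congr (W : WeierstrassCurve ℤ)
    [(W.map (Int.castRingHom ℚ)).IsElliptic] (hFrob : FrobTraceAt W p) (S : Finset ℕ)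
    (h : ∀ ℓ : ℕ, ℓ.Prime → W.IsGoodPrimeFor ℓ → ℓ ∉ S →
      (W.apOfModel ℓ : ZMod p) = (ℓ : ZMod p) + 1 ∨
        (W.apOfModel ℓ : ZMod p) = -((ℓ : ZMod p) + 1))
    (g : Qbar ≃ₐ[ℚ] Qbar) :
    HasSignEigen (galoisRepModuleEnd (K := Qbar) ℚ (W.map (Int.castRingHom ℚ)) p g) := by
  have hp : p.Prime := Fact.out
  set E := W.map (Int.castRingHom ℚ) with hE
  have hΔ : W.Δ ≠ 0 := fun h0 => E.isUnit_Δ.ne_zero (by
      rw [hE, WeierstrassCurve.map_Δ, h0, _root_.map_zero])
  obtain ⟨ℓ, hℓ, hℓS, A, hA, σ, hσ, a, -, hg, -⟩ :=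
    Gal.exists_frobenius_map_generates _
      (EC.galoisFactorsThroughFiniteLevel E p hp.ne_zero) g
      (insert p (S ∪ W.Δ.natAbs.primeFactors))
  simp only [Finset.mem_insert, Finset.mem_union, Nat.mem_primeFactors, not_or] at hℓS
  have hgood : W.IsGoodPrimeFor ℓ := fun hd =>
    hℓS.2.2 ⟨hℓ, Int.natCast_dvd.mp hd, Int.natAbs_ne_zero.mpr hΔ⟩
  rw [hg]
  refine HasSignEigen.pow ?_ a
  have hn := card_rootsOfUnity_Qbar p
  have hℓp : ¬ ℓ ∣ p := fun hd => hℓS.1 ((Nat.prime_dvd_prime_iff_eq hℓ hp).mp hd)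
  have hdet : LinearMap.det (galoisRepModuleEnd (K := Qbar) ℚ E p σ) = (ℓ : ZMod p) := by
    rw [det_galoisRepModuleEnd E hn σ]
    refine (modularCyclotomicCharacter.unique Qbar hn _ fun t ht => ?_).symm
    have htn : (t : Qbar) ^ p = 1 := by
      rw [← Units.val_pow_eq_pow_val, (mem_rootsOfUnity p t).mp ht, Units.val_one]
    show σ (t : Qbar) = _
    rw [Gal.isFrobeniusAt_rootOfUnity hℓ hA hσ hℓp htn, ZMod.val_natCast]
    exact pow_eq_pow_mod _ htn
  have htr : LinearMap.trace (ZMod p) _ (galoisRepModuleEnd (K := Qbar) ℚ E p σ) =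
      (W.apOfModel ℓ : ZMod p) := hFrob ℓ hℓ hℓS.1 hgood A σ hA hσ
  have hV := EC.finrank_torsionBy (K := Qbar) E p (Nat.cast_ne_zero.mpr hp.ne_zero)
  rcases h ℓ hℓ hgood hℓS.2.1 with e | e
  · exact hasSignEigen_of_trace_eq hV 1 (one_mul 1) (by rw [htr, hdet, e]; ring)
  · exact hasSignEigen_of_trace_eq hV (-1) (by ring) (by rw [htr, hdet, e]; ring)

/-- The Galois criterion. -/
theorem not_irreducible_of_congr (hp2 : p ≠ 2) (E : WeierstrassCurve ℚ)
    {W : WeierstrassCurve ℤ} [E.IsElliptic] (hW : W.IsIntegralModelOf E)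
    (hFrob : FrobTraceAt W p) (S : Finset ℕ)
    (h : ∀ ℓ : ℕ, ℓ.Prime → W.IsGoodPrimeFor ℓ → ℓ ∉ S →
      (W.apOfModel ℓ : ZMod p) = (ℓ : ZMod p) + 1 ∨
        (W.apOfModel ℓ : ZMod p) = -((ℓ : ZMod p) + 1)) :
    ¬ GaloisRepIsIrreducible (K := Qbar) ℚ E p := by
  have hp : p.Prime := Fact.out
  obtain ⟨C, hC⟩ := hW
  intro hirr
  have hirr' : GaloisRepIsIrreducible (K := Qbar) ℚ (C • E) p :=
    (EC.galoisRepIsIrreducible_variableChange C E p).mpr hirr
  rw [hC] at hirr'
  have : (W.map (Int.castRingHom ℚ)).IsElliptic := hC ▸ inferInstanceAs (C • E).IsElliptic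
  set E' := W.map (Int.castRingHom ℚ)
  have hV := EC.finrank_torsionBy (K := Qbar) E' p (Nat.cast_ne_zero.mpr hp.ne_zero)
  have h2 : (2 : ZMod p) ≠ 0 := by
    rw [← Nat.cast_two, Ne, ZMod.natCast_eq_zero_iff]
    exact fun hd => hp2 ((Nat.prime_dvd_prime_iff_eq hp Nat.prime_two).mp hd)
  have hn := card_rootsOfUnity_Qbar p
  obtain ⟨v, hv, hstab⟩ := exists_stable_line h2 hV (galoisRepModuleEnd (K := Qbar) ℚ E' p)
    complexConjugation complexConjugation_mul_self
    (by rw [det_galoisRepModuleEnd E' hn, cyclotomicCharacter_complexConjugation hn])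
    fun g => (hasSignEigen_of_congr W hFrob S h g).trace_eq hV
  rcases hirr'.2 (Submodule.span (ZMod p) {v}) (fun σ x hx => by
    obtain ⟨r, rfl⟩ := Submodule.mem_span_singleton.mp hx
    obtain ⟨a, ha⟩ := hstab σ
    rw [galoisRepModuleEnd_apply] at ha
    rw [smul_comm, ha, smul_smul]
    exact Submodule.mem_span_singleton.mpr ⟨_, rfl⟩) with e | e
  · exact hv (by simpa using e)
  · have h1 := finrank_span_singleton (K := ZMod p) hv
    rw [e, finrank_top, hV] at h1
    omega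

/-- Irreducibility gives infinitely many good primes with `a_ℓ ≢ ±(ℓ + 1)`. -/
theorem exists_prime_not_congr (hp2 : p ≠ 2) (E : WeierstrassCurve ℚ) [E.IsElliptic]
    {W : WeierstrassCurve ℤ} (hW : W.IsIntegralModelOf E) (hFrob : FrobTraceAt W p)
    (hirr : GaloisRepIsIrreducible (K := Qbar) ℚ E p) (S : Finset ℕ) :
    ∃ ℓ : ℕ, ℓ.Prime ∧ W.IsGoodPrimeFor ℓ ∧ ℓ ∉ S ∧
      (W.apOfModel ℓ : ZMod p) ≠ (ℓ : ZMod p) + 1 ∧
        (W.apOfModel ℓ : ZMod p) ≠ -((ℓ : ZMod p) + 1) := by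
  by_contra hcon
  push Not at hcon
  exact not_irreducible_of_congr hp2 E hW hFrob S
    (fun ℓ h1 h2 h3 => or_iff_not_imp_left.mpr (hcon ℓ h1 h2 h3)) hirr

end Fermat.Agent.Ihara
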