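import Fermat.Agent.Ihara.DegenMaps

/-!
# Hecke operators and degeneracy maps

`T_ℓ` commutes with both degeneracy maps from level `N` to level `N q`; the two transfers defining
`T_q` at level `N` agree, as the Atkin–Lehner involution exchanges the degeneracy maps; and on
characters of
`Γ₀(N q)` killed by both transfers to level `N` the operator `U_q` squares to the identity (it is
minus the Atkin–Lehner involution there). The latter gives the condition `a_q ^ 2 = 1` for the
eigenform produced by level raising.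
-/

noncomputable section

namespace Fermat.Agent.Ihara

open scoped MatrixGroups
open CongruenceSubgroup Fermat.Agent.Grp Fermat.Agent.Hecke

variable {N q ℓ : ℕ} {A : Type*} [AddCommGroup A]

/-- `T_ℓ` commutes with pull back along a homomorphism compatible with `upperConj`. -/
theorem perTransfer_comp {M : ℕ} [NeZero N] [NeZero M] [NeZero ℓ] (hℓ : ℓ.Prime) (hN : ¬ ℓ ∣ N)
    (hM : ¬ ℓ ∣ M) (c : Gamma0 M →* Gamma0 N)
    (hU : ∀ γ, c γ ∈ upperSub N ℓ ↔ γ ∈ upperSub M ℓ)
    (hc : ∀ h : upperSub M ℓ, upperConj N ℓ ⟨c h, (hU h).mpr h.2⟩ = c (upperConj M ℓ h))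
    (φ : Additive (Gamma0 N) →+ A) :
    perTransfer M ℓ A (φ.comp (MonoidHom.toAdditive c)) =
      (perTransfer N ℓ A φ).comp (MonoidHom.toAdditive c) := by
  let r := upperRepOpt hℓ hM
  have hr := upperRepOpt_bijective hℓ hM
  let e := Equiv.ofBijective _ hr
  have hr' : Function.Bijective fun i => ((c (r i) : Gamma0 N) : Gamma0 N ⧸ upperSub N ℓ) := by
    let e' := Equiv.ofBijective _ (upperRepOpt_bijective hℓ hN)
    have hinj : Function.Injective fun i =>
        e'.symm ((c (r i) : Gamma0 N) : Gamma0 N ⧸ upperSub N ℓ) := by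
      intro i j h
      have h2 := QuotientGroup.eq.mp (e'.symm.injective h)
      rw [← map_inv, ← map_mul, hU] at h2
      exact hr.1 (QuotientGroup.eq.mpr h2)
    have hbij := e'.bijective.comp (Finite.injective_iff_bijective.mp hinj)
    simpa [Function.comp_def] using hbij
  refine addChar_ext fun γ => ?_
  let σ : Option (Fin ℓ) → Option (Fin ℓ) := fun i => e.symm (γ • e i)
  have hσ : ∀ i, (r (σ i))⁻¹ * (γ * r i) ∈ upperSub M ℓ := fun i => by
    refine QuotientGroup.eq.mp ?_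
    show e (σ i) = γ • e i
    exact e.apply_symm_apply _
  have hσ' : ∀ i, (c (r (σ i)))⁻¹ * (c γ * c (r i)) ∈ upperSub N ℓ := fun i => by
    rw [← map_inv, ← map_mul, ← map_mul, hU]; exact hσ i
  show _ = perTransfer N ℓ A φ (Additive.ofMul (c γ))
  rw [perTransfer, perTransfer, transferHom_apply_reps _ _ r hr γ σ hσ,
    transferHom_apply_reps _ φ (fun i => c (r i)) hr' (c γ) σ hσ']
  refine Finset.sum_congr rfl fun i _ => ?_
  show φ (Additive.ofMul (c (upperConj M ℓ ⟨_, hσ i⟩))) = _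
  rw [← hc]
  refine congrArg φ (congrArg Additive.ofMul (congrArg (upperConj N ℓ) (Subtype.ext ?_)))
  simp only [map_mul, map_inv]

theorem not_dvd_mul (hℓ : ℓ.Prime) (hN : ¬ ℓ ∣ N) (hq : ¬ ℓ ∣ q) : ¬ ℓ ∣ N * q := fun h =>
  (hℓ.dvd_mul.mp h).elim hN hq

/-- `T_ℓ` commutes with the first degeneracy map. -/
theorem perTransfer_degA [NeZero N] [NeZero q] [NeZero ℓ] (hℓ : ℓ.Prime) (hN : ¬ ℓ ∣ N)
    (hq : ¬ ℓ ∣ q) (φ : Additive (Gamma0 N) →+ A) :
    perTransfer (N * q) ℓ A (degA N q φ) = degA N q (perTransfer N ℓ A φ) := by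
  refine perTransfer_comp hℓ hN (not_dvd_mul hℓ hN hq)
    (Subgroup.inclusion (Gamma0_le_mul N q)) (fun γ => Iff.rfl) (fun h => ?_) φ
  apply Subtype.ext
  rfl

/-- `T_ℓ` commutes with the second degeneracy map. -/
theorem perTransfer_degB [NeZero N] [NeZero q] [NeZero ℓ] (hℓ : ℓ.Prime) (hN : ¬ ℓ ∣ N)
    (hq : ¬ ℓ ∣ q) (φ : Additive (Gamma0 N) →+ A) :
    perTransfer (N * q) ℓ A (degB N q φ) = degB N q (perTransfer N ℓ A φ) := by
  have hU : ∀ γ : Gamma0 (N * q), betaHom N q γ ∈ upperSub N ℓ ↔ γ ∈ upperSub (N * q) ℓ := by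
    intro γ
    rw [mem_upperSub, mem_upperSub, betaHom_val]
    show (ℓ : ℤ) ∣ (q : ℤ) * γ.1 0 1 ↔ _
    exact ((Nat.prime_iff_prime_int.mp hℓ).dvd_mul).trans
      (or_iff_right fun h => hq (Int.natCast_dvd_natCast.mp h))
  refine perTransfer_comp hℓ hN (not_dvd_mul hℓ hN hq) (betaHom N q) hU (fun h => ?_) φ
  obtain ⟨z, hz⟩ := mem_upperSub.mp h.2
  obtain ⟨c, hc⟩ := Gamma0_dvd h.1
  have hq0 : (q : ℤ) ≠ 0 := by exact_mod_cast NeZero.ne q
  have hℓ0 : (ℓ : ℤ) ≠ 0 := by exact_mod_cast hℓ.ne_zero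
  have hc' : h.1.1.1 1 0 = (q : ℤ) * ((N : ℤ) * c) := by rw [hc]; push_cast; ring
  apply Gamma0_ext <;> simp only [upperConj_val, betaHom_val, Matrix.of_apply, Matrix.cons_val',
    Matrix.cons_val_zero, Matrix.cons_val_one, Matrix.cons_val_fin_one]
  · show (q : ℤ) * h.1.1.1 0 1 / ℓ = (q : ℤ) * (h.1.1.1 0 1 / ℓ)
    rw [hz, Int.mul_ediv_cancel_left _ hℓ0,
      show (q : ℤ) * ((ℓ : ℤ) * z) = (ℓ : ℤ) * ((q : ℤ) * z) by ring,
      Int.mul_ediv_cancel_left _ hℓ0]
  · show (ℓ : ℤ) * (h.1.1.1 1 0 / q) = (ℓ : ℤ) * h.1.1.1 1 0 / q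
    rw [hc', Int.mul_ediv_cancel_left _ hq0,
      show (ℓ : ℤ) * ((q : ℤ) * ((N : ℤ) * c)) = (q : ℤ) * ((ℓ : ℤ) * ((N : ℤ) * c)) by ring,
      Int.mul_ediv_cancel_left _ hq0]

/-! ### `U_q² = 1` on the common kernel -/

section Kernel

variable [NeZero N] [NeZero q] (hq : q.Prime) (hqN : ¬ q ∣ N)

omit [NeZero N] [NeZero q] in
include hq hqN in
theorem conjInf_mem (γ : Gamma0 (N * q)) :
    (upperRepInf hq hqN).1⁻¹ * (γ.1 * (upperRepInf hq hqN).1) ∈ upperGrp N q := by
  refine mem_upperGrp.mpr ⟨(Gamma0 N).mul_mem ((Gamma0 N).inv_mem (upperRepInf hq hqN).2)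
    ((Gamma0 N).mul_mem (Gamma0_le_mul N q γ.2) (upperRepInf hq hqN).2), ?_⟩
  obtain ⟨c, hc⟩ := Gamma0_dvd γ
  rw [(entries_mul _ _).2.1, (entries_mul _ _).2.1, (entries_mul _ _).2.2.2, (entries_inv _).1,
    (entries_inv _).2.1, show (upperRepInf hq hqN).1 0 1 = -(bezout hq hqN).2 from rfl,
    show (upperRepInf hq hqN).1 1 1 = (q : ℤ) * (bezout hq hqN).1 from rfl,
    show γ.1 1 0 = _ from hc]
  push_cast
  refine ⟨(bezout hq hqN).1 * (γ.1 0 0 * -(bezout hq hqN).2 + γ.1 0 1 * ((q : ℤ) *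
      (bezout hq hqN).1))
    + (bezout hq hqN).2 * ((N : ℤ) * c * -(bezout hq hqN).2 + γ.1 1 1 * (bezout hq hqN).1), ?_⟩
  ring

/-- Conjugation by the inverse of the representative at infinity. -/
def infConj : Gamma0 (N * q) →* upperGrp N q :=
  MonoidHom.mk' (fun γ => ⟨(upperRepInf hq hqN).1⁻¹ * (γ.1 * (upperRepInf hq hqN).1),
      conjInf_mem hq hqN γ⟩)
    fun γ δ => Subtype.ext (by
      show (upperRepInf hq hqN).1⁻¹ * (γ.1 * δ.1 * (upperRepInf hq hqN).1) =
        (upperRepInf hq hqN).1⁻¹ * (γ.1 * (upperRepInf hq hqN).1) *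
          ((upperRepInf hq hqN).1⁻¹ * (δ.1 * (upperRepInf hq hqN).1))
      group)

/-- Conjugation by the matrix `!![q x, y; q N, q]`. -/
def atkinLehner : Gamma0 (N * q) →* Gamma0 (N * q) :=
  (alphaUp N q).comp (infConj hq hqN)

/-- The matrix `!![q x, y; q N, q]`. -/
def alMatrix : Matrix (Fin 2) (Fin 2) ℤ :=
  !![1, 0; 0, (q : ℤ)] * imat ((upperRepInf hq hqN)⁻¹ : Gamma0 N).1

omit [NeZero N] [NeZero q] in
include hq hqN in
theorem det_alMatrix : (alMatrix hq hqN).det = q := by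
  rw [alMatrix, Matrix.det_mul, Matrix.SpecialLinearGroup.det_coe, Matrix.det_fin_two_of]
  ring

omit [NeZero N] in
include hq hqN in
/-- `atkinLehner` is conjugation by `alMatrix`. -/
theorem atkinLehner_spec (γ : Gamma0 (N * q)) :
    imat (atkinLehner hq hqN γ).1 * alMatrix hq hqN = alMatrix hq hqN * imat γ.1 := by
  show imat (alphaUp N q (infConj hq hqN γ)).1 * alMatrix hq hqN = _
  rw [alMatrix, ← mul_assoc, alphaUp_spec, mul_assoc, mul_assoc]
  congr 1
  show ((upperRepInf hq hqN).1⁻¹ * (γ.1 * (upperRepInf hq hqN).1) *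
      (upperRepInf hq hqN).1⁻¹).1 = ((upperRepInf hq hqN).1⁻¹ * γ.1).1
  congr 1
  rw [mul_assoc, mul_assoc, mul_inv_cancel, mul_one]

include hq hqN in
/-- `U_q χ + χ ∘ w = res (second transfer)`. -/
theorem corB_res (χ : Additive (Gamma0 (N * q)) →+ A) (γ : Gamma0 (N * q)) :
    corB N q χ (Additive.ofMul ⟨γ.1, Gamma0_le_mul N q γ.2⟩) =
      perTransfer (N * q) q A χ (Additive.ofMul γ) +
        χ (Additive.ofMul (atkinLehner hq hqN γ)) := by
  have hr := upperRep_bijective (N := N * q) hq (dvd_mul_left q N)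
  let e := Equiv.ofBijective _ hr
  let σ : Fin q → Fin q := fun j => e.symm (γ • e j)
  have hσ : ∀ j : Fin q,
      (upperRep (N * q) (σ j))⁻¹ * (γ * upperRep (N * q) j) ∈ upperSub (N * q) q :=
    fun j => by
      refine QuotientGroup.eq.mp ?_
      show e (σ j) = γ • e j
      exact e.apply_symm_apply _
  let g : Gamma0 N := ⟨γ.1, Gamma0_le_mul N q γ.2⟩
  have hrep : ∀ j : ℕ, (upperRep (N * q) j).1 = (upperRep N j).1 := fun j => rfl
  have hσ' : ∀ i : Option (Fin q),
      ((upperRepOpt hq hqN (i.map σ))⁻¹ * (g * upperRepOpt hq hqN i) : Gamma0 N).1 ∈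
        upperGrp N q := by
    rintro (_ | j)
    · exact conjInf_mem hq hqN γ
    · refine mem_upperGrp.mpr ⟨SetLike.coe_mem _, ?_⟩
      exact mem_upperSub.mp (hσ j)
  rw [corB, coresHom_apply_reps (upperGrp_le N q) _ (upperRepOpt hq hqN)
      (upperGrp_bijective _ (upperRepOpt_bijective hq hqN)) g (fun i => i.map σ) hσ',
    Fintype.sum_option, perTransfer, transferHom_apply_reps _ χ _ hr γ σ hσ, add_comm]
  refine congrArg₂ (· + ·) (Finset.sum_congr rfl fun j _ => ?_) ?_
  · refine congrArg χ (congrArg Additive.ofMul (Subtype.ext (Subtype.ext ?_)))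
    rfl
  · refine congrArg χ (congrArg Additive.ofMul (congrArg (alphaUp N q) (Subtype.ext ?_)))
    rfl

omit [NeZero N] in
include hq hqN in
/-- The Atkin–Lehner involution squares to an inner automorphism. -/
theorem atkinLehner_atkinLehner :
    ∃ g : Gamma0 (N * q), ∀ γ, atkinLehner hq hqN (atkinLehner hq hqN γ) = g * γ * g⁻¹ := by
  set x := (bezout hq hqN).1
  set y := (bezout hq hqN).2
  have hb : (q : ℤ) * x - N * y = 1 := bezout_spec hq hqN
  let g : Gamma0 (N * q) := mkGamma0 (N * q) (q * x ^ 2 + N * y) (y * (x + 1))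
    ((q : ℤ) * N * (x + 1)) (N * y + q) (by linear_combination (q * x - N * y + 1) * hb)
    ⟨x + 1, by push_cast; ring⟩
  refine ⟨g, fun γ => Subtype.ext ?_⟩
  have hsq : alMatrix hq hqN * alMatrix hq hqN = (q : ℤ) • imat g.1 := by
    rw [alMatrix, imat, upperRepInf_inv_val]
    show _ = (q : ℤ) • g.1.1
    rw [mkGamma0_val]
    ext i j
    fin_cases i <;> fin_cases j <;>
      simp [Matrix.mul_apply, Fin.sum_univ_two, x, y] <;> ring
  refine imat_inj (X := alMatrix hq hqN * alMatrix hq hqN) ?_ ?_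
  · rw [Matrix.det_mul, det_alMatrix]
    exact mul_ne_zero (by exact_mod_cast hq.ne_zero) (by exact_mod_cast hq.ne_zero)
  · rw [← mul_assoc (imat _), atkinLehner_spec, mul_assoc, atkinLehner_spec, ← mul_assoc, hsq,
      smul_mul_assoc, mul_smul_comm]
    congr 1
    show (g.1 * γ.1).1 = ((g * γ * g⁻¹).1 * g.1).1
    simp only [Subgroup.coe_mul, Subgroup.coe_inv, inv_mul_cancel_right]

omit [NeZero N] in
include hq hqN in
/-- `w ∘ Ad diag(1,q) = Ad (x, y; N, q)` on `Γ₀(N) ∩ Γ⁰(q)`. -/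
theorem atkinLehner_alphaUp (u : upperGrp N q) :
    (atkinLehner hq hqN (alphaUp N q u)).1 =
      (upperEps hq hqN).1 * u.1 * (upperEps hq hqN).1⁻¹ := by
  set eps := upperEps hq hqN with heps
  have hz : alMatrix hq hqN * !![1, 0; 0, (q : ℤ)] = (q : ℤ) • imat eps.1 := by
    rw [alMatrix, imat, upperRepInf_inv_val, heps]
    show _ = (q : ℤ) • (upperEps hq hqN).1.1
    rw [upperEps, mkGamma0_val]
    ext i j
    fin_cases i <;> fin_cases j <;> simp [Matrix.mul_apply, Fin.sum_univ_two]; ring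
  refine imat_inj (X := alMatrix hq hqN * !![1, 0; 0, (q : ℤ)]) ?_ ?_
  · rw [Matrix.det_mul, det_alMatrix, Matrix.det_fin_two_of]
    simpa using hq.ne_zero
  · rw [← mul_assoc (imat _), atkinLehner_spec, mul_assoc, alphaUp_spec, ← mul_assoc, hz,
      smul_mul_assoc, mul_smul_comm]
    congr 1
    show (eps.1 * u.1).1 = ((eps.1 * u.1 * eps.1⁻¹) * eps.1).1
    rw [inv_mul_cancel_right]

include hq hqN in
/-- The Atkin–Lehner involution exchanges the two transfers. -/
theorem corB_atkinLehner (χ : Additive (Gamma0 (N * q)) →+ A) :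
    corB N q (χ.comp (MonoidHom.toAdditive (atkinLehner hq hqN))) = corA N q χ := by
  have key := atkinLehner_alphaUp (N := N) hq hqN
  set eps := upperEps hq hqN with heps
  have hmem : ∀ u : Gamma0 N, u ∈ upperSub N q →
      ((MulAut.conj eps u : Gamma0 N)).1 ∈ Gamma0 (N * q) := fun u hu => by
    have h1 := key ⟨u.1, u, hu, rfl⟩
    show eps.1 * u.1 * eps.1⁻¹ ∈ _
    rw [← h1]
    exact SetLike.coe_mem _
  refine addChar_ext fun γ => ?_
  have := (upperSub N q).fintypeQuotientOfFiniteIndex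
  let r : Gamma0 N ⧸ upperSub N q → Gamma0 N := fun i => i.out
  have hr : Function.Bijective fun i => ((r i : Gamma0 N) : Gamma0 N ⧸ upperSub N q) := by
    simp only [r, QuotientGroup.out_eq']; exact Function.bijective_id
  -- the translated representatives for `Γ₀(Nq)`
  let r' : Gamma0 N ⧸ upperSub N q → Gamma0 N := fun i => eps * r i * eps⁻¹
  let g' : Gamma0 N := eps * γ * eps⁻¹
  have hr' : Function.Bijective fun i =>
      ((r' i : Gamma0 N) : Gamma0 N ⧸ (Gamma0 (N * q)).subgroupOf (Gamma0 N)) := by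
    have := ((Gamma0 (N * q)).subgroupOf (Gamma0 N)).fintypeQuotientOfFiniteIndex
    refine (Fintype.bijective_iff_surjective_and_card _).mpr ⟨fun y => ?_, ?_⟩
    · refine ⟨((eps⁻¹ * y.out * eps : Gamma0 N) : Gamma0 N ⧸ upperSub N q), ?_⟩
      obtain ⟨u, hu⟩ := QuotientGroup.mk_out_eq_mul (upperSub N q) (eps⁻¹ * y.out * eps)
      refine Eq.trans ?_ (QuotientGroup.out_eq' y)
      refine (QuotientGroup.eq.mpr (Subgroup.mem_subgroupOf.mpr ?_)).symm
      have e : y.out⁻¹ * (eps * (eps⁻¹ * y.out * eps * u.1) * eps⁻¹) = MulAut.conj eps u.1 := by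
        rw [MulAut.conj_apply]; group
      simp only [r', r, hu, e]
      exact hmem _ u.2
    · rw [← Nat.card_eq_fintype_card, ← Nat.card_eq_fintype_card]
      show (upperSub N q).index = (lowerSub N q).index
      rw [index_upperSub hq hqN, index_lowerSub hq hqN]
  have hσ : ∀ i, ((r (γ • i))⁻¹ * (γ * r i) : Gamma0 N).1 ∈ upperGrp N q := fun i =>
    ⟨_, cocycle_mem Quotient.out QuotientGroup.out_eq' γ i, rfl⟩
  have hσ' : ∀ i, ((r' (γ • i))⁻¹ * (g' * r' i) : Gamma0 N).1 ∈ Gamma0 (N * q) := fun i => by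
    have e1 : (r' (γ • i))⁻¹ * (g' * r' i) = MulAut.conj eps ((r (γ • i))⁻¹ * (γ * r i)) := by
      simp only [r', g', MulAut.conj_apply]; group
    rw [e1]
    exact hmem _ (cocycle_mem Quotient.out QuotientGroup.out_eq' γ i)
  have hg : corA N q χ (Additive.ofMul g') = corA N q χ (Additive.ofMul γ) :=
    apply_conj _ eps γ
  rw [← hg, corB, corA,
    coresHom_apply_reps (upperGrp_le N q) _ r (upperGrp_bijective r hr) γ (fun i => γ • i) hσ,
    coresHom_apply_reps (Gamma0_le_mul N q) χ r' hr' g' (fun i => γ • i) hσ']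
  refine Finset.sum_congr rfl fun i _ => ?_
  refine congrArg χ (congrArg Additive.ofMul (Subtype.ext ?_))
  refine (key ⟨_, hσ i⟩).trans ?_
  simp only [r', g', Subgroup.coe_mul, Subgroup.coe_inv]
  group

include hq hqN in
/-- `Γ₀(N) diag(q,1) Γ₀(N) = Γ₀(N) diag(1,q) Γ₀(N)` for `q ∤ N`: the two transfers defining `T_q`
agree. -/
theorem monoTransfer_eq_perTransfer (φ : Additive (Gamma0 N) →+ A) :
    monoTransfer N q A φ = perTransfer N q A φ := by
  have h : (degB N q φ).comp (MonoidHom.toAdditive (atkinLehner hq hqN)) = degA N q φ := by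
    refine addChar_ext fun γ => ?_
    show φ (Additive.ofMul (betaHom N q (alphaUp N q (infConj hq hqN γ)))) =
      φ (Additive.ofMul (Subgroup.inclusion (Gamma0_le_mul N q) γ))
    rw [show betaHom N q (alphaUp N q (infConj hq hqN γ)) =
        (upperRepInf hq hqN)⁻¹ * Subgroup.inclusion (Gamma0_le_mul N q) γ *
          (upperRepInf hq hqN)⁻¹⁻¹ from Subtype.ext ((betaHom_alphaUp _).trans (by
        show _ = (upperRepInf hq hqN).1⁻¹ * γ.1 * (upperRepInf hq hqN).1⁻¹⁻¹
        rw [inv_inv, mul_assoc]; rfl)), apply_conj]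
  rw [← corA_degB, ← corB_atkinLehner hq hqN, h, corB_degA]

include hq hqN in
/-- `U_q² = 1` on characters killed by both transfers. -/
theorem perTransfer_sq_of_cores (χ : Additive (Gamma0 (N * q)) →+ A) (h1 : corA N q χ = 0)
    (h2 : corB N q χ = 0) :
    perTransfer (N * q) q A (perTransfer (N * q) q A χ) = χ := by
  set w := MonoidHom.toAdditive (atkinLehner hq hqN) with hw
  have hU : ∀ ψ : Additive (Gamma0 (N * q)) →+ A, corB N q ψ = 0 →
      perTransfer (N * q) q A ψ = -(ψ.comp w) := fun ψ hψ => addChar_ext fun γ => by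
    have h := corB_res hq hqN ψ γ
    rw [hψ, AddMonoidHom.zero_apply] at h
    exact eq_neg_of_add_eq_zero_left h.symm
  have h3 : corB N q (χ.comp w) = 0 := (corB_atkinLehner hq hqN χ).trans h1
  rw [hU χ h2, map_neg, hU _ h3, neg_neg]
  refine addChar_ext fun γ => ?_
  show χ (Additive.ofMul (atkinLehner hq hqN (atkinLehner hq hqN γ))) = _
  obtain ⟨g, hg⟩ := atkinLehner_atkinLehner hq hqN
  rw [hg, apply_conj]

end Kernel

end Fermat.Agent.Ihara
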