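import Mathlib.Algebra.MvPolynomial.CommRing
import Fermat.Agent.Grp.HomCl
import Fermat.Agent.Ihara.DegenComm

/-!
# Degeneracy maps and Hecke operators as linear maps

`Hom_cl(Γ₀(M), k)` with its Hecke operators `clT`, the map `clI` (sum of the two degeneracy maps),
the map `clJ` (pair of the two transfers), and their compatibility with change of coefficients.
These are the objects of the level raising argument.
-/

noncomputable section

namespace Fermat.Agent.Ihara

open scoped MatrixGroups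
open CongruenceSubgroup Fermat.Agent.Grp Fermat.Agent.Hecke

/-- `Hom_cl(Γ₀(M), k)`. -/
abbrev clH (k : Type) [CommRing k] (M : ℕ) : Submodule k (Additive (Gamma0 M) →+ k) :=
  clHoms k (Gamma0 M) k

variable (k : Type) [CommRing k]

/-- `Hom_cl(Γ₀(M), k)` is a finite `k`-module. -/
instance moduleFinite_clH (M : ℕ) [NeZero M] : Module.Finite k (clH k M) := by
  obtain ⟨e⟩ := nonempty_clHoms_equiv_pi (Gamma0 M) (neg_one_mem_Gamma0 M) k k
  exact Module.Finite.equiv e.symm

/-- The Hecke operator `T_ℓ` (or `U_ℓ`) on `Hom_cl(Γ₀(M), k)`. -/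
def clT (M ℓ : ℕ) [NeZero M] [NeZero ℓ] : Module.End k (clH k M) :=
  (transferLin (upperConj M ℓ) k k).restrict fun _ hφ => isClHom_perTransfer hφ

theorem clT_val {M ℓ : ℕ} [NeZero M] [NeZero ℓ] (φ : clH k M) :
    (clT k M ℓ φ : Additive (Gamma0 M) →+ k) = perTransfer M ℓ k φ := rfl

variable (N q : ℕ)

/-- First degeneracy map on `Hom_cl`. -/
def clDegA : clH k N →ₗ[k] clH k (N * q) where
  toFun φ := ⟨degA N q φ, isClHom_degA φ.2⟩
  map_add' _ _ := rfl
  map_smul' _ _ := rfl

/-- Second degeneracy map on `Hom_cl`. -/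
def clDegB [NeZero q] : clH k N →ₗ[k] clH k (N * q) where
  toFun φ := ⟨degB N q φ, isClHom_degB φ.2⟩
  map_add' _ _ := rfl
  map_smul' _ _ := rfl

/-- First transfer on `Hom_cl`. -/
def clCorA [NeZero N] [NeZero q] : clH k (N * q) →ₗ[k] clH k N where
  toFun χ := ⟨corA N q χ, isClHom_corA χ.2⟩
  map_add' _ _ := Subtype.ext (coresHom_add _ _ _)
  map_smul' _ _ := Subtype.ext (coresHom_smul _ _ _)

/-- Second transfer on `Hom_cl`. -/
def clCorB [NeZero N] [NeZero q] : clH k (N * q) →ₗ[k] clH k N where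
  toFun χ := ⟨corB N q χ, isClHom_corB χ.2⟩
  map_add' χ χ' := Subtype.ext (coresHom_add (upperGrp_le N q)
    ((χ : Additive (Gamma0 (N * q)) →+ k).comp (MonoidHom.toAdditive (alphaUp N q)))
    ((χ' : Additive (Gamma0 (N * q)) →+ k).comp (MonoidHom.toAdditive (alphaUp N q))))
  map_smul' c χ := Subtype.ext (coresHom_smul (upperGrp_le N q) c
    ((χ : Additive (Gamma0 (N * q)) →+ k).comp (MonoidHom.toAdditive (alphaUp N q))))

/-- The degeneracy map `i`. -/
def clI [NeZero q] : (clH k N × clH k N) →ₗ[k] clH k (N * q) :=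
  (clDegA k N q).coprod (clDegB k N q)

/-- The pair of transfers `j`. -/
def clJ [NeZero N] [NeZero q] : clH k (N * q) →ₗ[k] (clH k N × clH k N) :=
  (clCorA k N q).prod (clCorB k N q)

variable {k N q}

theorem clT_degA [NeZero N] [NeZero q] {ℓ : ℕ} [NeZero ℓ] (hℓ : ℓ.Prime) (hN : ¬ ℓ ∣ N)
    (hq : ¬ ℓ ∣ q) (φ : clH k N) :
    clT k (N * q) ℓ (clDegA k N q φ) = clDegA k N q (clT k N ℓ φ) :=
  Subtype.ext (perTransfer_degA hℓ hN hq _)

theorem clT_degB [NeZero N] [NeZero q] {ℓ : ℕ} [NeZero ℓ] (hℓ : ℓ.Prime) (hN : ¬ ℓ ∣ N)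
    (hq : ¬ ℓ ∣ q) (φ : clH k N) :
    clT k (N * q) ℓ (clDegB k N q φ) = clDegB k N q (clT k N ℓ φ) :=
  Subtype.ext (perTransfer_degB hℓ hN hq _)

/-- `T_ℓ` commutes with the sum of the degeneracy maps. -/
theorem clT_clI [NeZero N] [NeZero q] {ℓ : ℕ} [NeZero ℓ] (hℓ : ℓ.Prime) (hN : ¬ ℓ ∣ N)
    (hq : ¬ ℓ ∣ q) (x : clH k N × clH k N) :
    clT k (N * q) ℓ (clI k N q x) = clI k N q (clT k N ℓ x.1, clT k N ℓ x.2) := by
  simp only [clI, LinearMap.coprod_apply, map_add, clT_degA hℓ hN hq, clT_degB hℓ hN hq]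

/-- `j ∘ i = (q+1, T_q; T_q, q+1)`. -/
theorem clJ_clI [NeZero N] [NeZero q] (hq : q.Prime) (hqN : ¬ q ∣ N) (x y : clH k N) :
    clJ k N q (clI k N q (x, y)) =
      ((q + 1) • x + clT k N q y, clT k N q x + (q + 1) • y) := by
  refine Prod.ext ?_ ?_
  · show clCorA k N q (clDegA k N q x + clDegB k N q y) = _
    rw [map_add]
    refine congrArg₂ (· + ·) (Subtype.ext ?_) (Subtype.ext ?_)
    · exact (corA_degA hq hqN _).trans (by simp)
    · exact (corA_degB _).trans (monoTransfer_eq_perTransfer hq hqN _)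
  · show clCorB k N q (clDegA k N q x + clDegB k N q y) = _
    rw [map_add]
    refine congrArg₂ (· + ·) (Subtype.ext ?_) (Subtype.ext ?_)
    · exact corB_degA _
    · exact (corB_degB hq hqN _).trans (by simp)

/-! ### Change of coefficients -/

variable {k' : Type} [CommRing k'] {Γ : Subgroup SL(2, ℤ)}

/-- Change of coefficients. -/
def clMap (f : k →+* k') : clHoms k Γ k →+ clHoms k' Γ k' where
  toFun φ := ⟨f.toAddMonoidHom.comp φ, IsClHom.comp φ.2 _⟩
  map_zero' := Subtype.ext (AddMonoidHom.ext fun _ => map_zero f)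
  map_add' _ _ := Subtype.ext (AddMonoidHom.ext fun _ => map_add f _ _)

theorem clMap_smul (f : k →+* k') (c : k) (φ : clHoms k Γ k) :
    clMap f (c • φ) = f c • clMap f φ :=
  Subtype.ext (AddMonoidHom.ext fun _ => map_mul f _ _)

theorem clMap_injective (f : k →+* k') (hf : Function.Injective f) :
    Function.Injective (clMap (Γ := Γ) f) := fun _ _ h => Subtype.ext (AddMonoidHom.ext fun x =>
  hf (DFunLike.congr_fun (congrArg Subtype.val h) x))

/-- The image of `Hom_cl(Γ, ℤ)` spans. -/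
theorem span_range_clMap [Γ.FiniteIndex] (hneg : (-1 : SL(2, ℤ)) ∈ Γ) :
    Submodule.span k (Set.range (clMap (Γ := Γ) (Int.castRingHom k))) = ⊤ := by
  obtain ⟨γ, e, he, -, hdec⟩ := clBasis_exists Γ hneg
  refine eq_top_iff.mpr fun φ _ => ?_
  have hφ : φ = ∑ i, (φ : Additive Γ →+ k) (Additive.ofMul (γ i)) •
      clMap (Int.castRingHom k) (⟨e i, he i⟩ : clHoms ℤ Γ ℤ) := by
    refine Subtype.ext (AddMonoidHom.ext fun x => ?_)
    rw [AddSubmonoidClass.coe_finsetSum, AddMonoidHom.finsetSum_apply, hdec k φ.1 φ.2 x]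
    refine Finset.sum_congr rfl fun i _ => ?_
    show e i x • _ = (φ : Additive Γ →+ k) (Additive.ofMul (γ i)) * ((e i x : ℤ) : k)
    rw [zsmul_eq_mul, mul_comm]
  rw [hφ]
  exact Submodule.sum_mem _ fun i _ => Submodule.smul_mem _ _ (Submodule.subset_span ⟨_, rfl⟩)

/-- Reduction of lattices is surjective. -/
theorem clMap_surjective [Γ.FiniteIndex] (hneg : (-1 : SL(2, ℤ)) ∈ Γ)
    (hf : Function.Surjective (Int.castRingHom k)) :
    Function.Surjective (clMap (Γ := Γ) (Int.castRingHom k)) := by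
  intro φ
  have hφ : φ ∈ Submodule.span k (Set.range (clMap (Γ := Γ) (Int.castRingHom k))) := by
    rw [span_range_clMap hneg]; trivial
  induction hφ using Submodule.span_induction with
  | mem x hx => exact hx
  | zero => exact ⟨0, map_zero _⟩
  | add x y _ _ hx hy =>
    obtain ⟨a, rfl⟩ := hx
    obtain ⟨b, rfl⟩ := hy
    exact ⟨a + b, map_add _ _ _⟩
  | smul c x _ hx =>
    obtain ⟨a, rfl⟩ := hx
    obtain ⟨n, rfl⟩ := hf c
    exact ⟨n • a, clMap_smul (Int.castRingHom k) n a⟩

/-- The kernel of reduction mod `p`. -/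
theorem exists_of_clMap_eq_zero {p : ℕ} (hp : p ≠ 0) (φ : clHoms ℤ Γ ℤ)
    (h : clMap (Int.castRingHom (ZMod p)) φ = 0) : ∃ ψ : clHoms ℤ Γ ℤ, φ = (p : ℤ) • ψ := by
  have hd : ∀ x, (p : ℤ) ∣ (φ : Additive Γ →+ ℤ) x := fun x => by
    rw [← ZMod.intCast_zmod_eq_zero_iff_dvd]
    exact DFunLike.congr_fun (congrArg Subtype.val h) x
  have hp' : (p : ℤ) ≠ 0 := Int.natCast_ne_zero.mpr hp
  let ψ : Additive Γ →+ ℤ :=
    { toFun := fun x => (φ : Additive Γ →+ ℤ) x / p
      map_zero' := by simp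
      map_add' := fun x y => by rw [map_add, Int.add_ediv_of_dvd_left (hd x)] }
  refine ⟨⟨ψ, fun γ hγ => ?_⟩, Subtype.ext (AddMonoidHom.ext fun x => ?_)⟩
  · show (φ : Additive Γ →+ ℤ) _ / _ = 0
    rw [φ.2 γ hγ]; simp
  · show _ = (p : ℤ) * ((φ : Additive Γ →+ ℤ) x / p)
    rw [Int.mul_ediv_cancel' (hd x)]

/-- Hecke operators commute with change of coefficients. -/
theorem clT_clMap (f : k →+* k') {M ℓ : ℕ} [NeZero M] [NeZero ℓ] (φ : clH k M) :
    clT k' M ℓ (clMap f φ) = clMap f (clT k M ℓ φ) :=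
  Subtype.ext (transferHom_comp (upperConj M ℓ) f.toAddMonoidHom (φ : Additive (Gamma0 M) →+ k))

/-- The degeneracy maps commute with change of coefficients. -/
theorem clI_clMap (f : k →+* k') [NeZero q] (x : clH k N × clH k N) :
    clI k' N q (clMap f x.1, clMap f x.2) = clMap f (clI k N q x) := by
  refine Subtype.ext (AddMonoidHom.ext fun γ => ?_)
  exact (map_add f _ _).symm

/-- The transfers commute with change of coefficients. -/
theorem clJ_clMap (f : k →+* k') [NeZero N] [NeZero q] (χ : clH k (N * q)) :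
    clJ k' N q (clMap f χ) = (clMap f (clJ k N q χ).1, clMap f (clJ k N q χ).2) :=
  Prod.ext (Subtype.ext (coresHom_comp _ f.toAddMonoidHom (χ : Additive (Gamma0 (N * q)) →+ k)))
    (Subtype.ext (coresHom_comp (upperGrp_le N q) f.toAddMonoidHom
      ((χ : Additive (Gamma0 (N * q)) →+ k).comp (MonoidHom.toAdditive (alphaUp N q)))))

/-! ### Actions of a polynomial ring -/

/-- Commuting families of operators which are intertwined give intertwined polynomial actions. -/
theorem polyAct_intertwine {ι : Type*} {V W : Type*} [AddCommGroup V] [AddCommGroup W]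
    {R R' : Type*} [CommRing R] [CommRing R'] [Module R V] [Module R' W]
    (ρ : MvPolynomial ι ℤ →+* Module.End R V) (ρ' : MvPolynomial ι ℤ →+* Module.End R' W)
    (e : V →+ W) (h : ∀ a x, e (ρ (MvPolynomial.X a) x) = ρ' (MvPolynomial.X a) (e x))
    (t : MvPolynomial ι ℤ) (x : V) : e (ρ t x) = ρ' t (e x) := by
  induction t using MvPolynomial.induction_on generalizing x with
  | C n => rw [eq_intCast MvPolynomial.C, map_intCast, map_intCast,
      Module.End.intCast_apply, Module.End.intCast_apply, map_zsmul]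
  | add a b ha hb =>
    rw [map_add, map_add, LinearMap.add_apply, LinearMap.add_apply, map_add, ha, hb]
  | mul_X a i ha => rw [map_mul, map_mul, Module.End.mul_apply, Module.End.mul_apply, ha, h]

end Fermat.Agent.Ihara
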