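import Fermat.Agent.Attach.EigenChar
import Fermat.Agent.Eis.Eigenform
import Fermat.Agent.Hecke.Periods
import Fermat.Agent.Ihara.RaiseBase
import Fermat.Agent.Periods.Glue
import Fermat.Agent.X0.CuspDim

/-!
# Eigenvectors of cuspidal characters and eigenforms

By Eichler–Shimura the period map identifies two copies of the weight two cusp forms with
`Hom_cl(Γ₀(N), ℂ)`. So an eigenform gives an eigenvector in the latter, an eigenvector gives a
normalized eigenform, and the Hecke operators on `Hom_cl` commute.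
-/

noncomputable section

namespace Fermat.Agent.Ihara

open scoped MatrixGroups
open CongruenceSubgroup ModularFormClass Fermat.Agent.Grp Fermat.Agent.Hecke
open ModularCurve (periodHomPair)
open ModularCurve.Period (parabolicHoms)

variable {N : ℕ} [NeZero N]

theorem periodHomPair_range :
    LinearMap.range (periodHomPair N) = clH ℂ N :=
  (Periods.eichlerShimura_of_le N (X0.genusFormula_le_finrank N)).2.trans
    (Grp.parabolicHoms_eq N ℂ ℂ)

/-- The operator on forms matching `clT`. -/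
abbrev formT (N : ℕ) [NeZero N] {ℓ : ℕ} (hℓ : ℓ.Prime) :
    Module.End ℂ (CuspForm (Gamma0 N) 2) :=
  (CuspForm.heckeFormsGen N 2 ⟨ℓ, hℓ⟩ : CuspForm.heckeAlgebra N 2 ∅)

/-- The period of a form turns the Hecke operator into `perTransfer`. -/
theorem periodMap_formT {ℓ : ℕ} [NeZero ℓ] (hℓ : ℓ.Prime) (f : CuspForm (Gamma0 N) 2) :
    ModularCurve.periodMap N (formT N hℓ f) = perTransfer N ℓ ℂ (ModularCurve.periodMap N f) := by
  by_cases h : ℓ ∣ N
  · rw [formT, CuspForm.heckeFormsGen_of_dvd (q := ⟨ℓ, hℓ⟩) h]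
    exact periodMap_heckeULin hℓ h f
  · rw [formT, CuspForm.heckeFormsGen_of_not_dvd (ℓ := ⟨ℓ, hℓ⟩) h]
    exact periodMap_heckeTLin hℓ h f

/-- The period map turns the Hecke operator on forms into `perTransfer`. -/
theorem periodHomPair_formT {ℓ : ℕ} [NeZero ℓ] (hℓ : ℓ.Prime)
    (x : CuspForm (Gamma0 N) 2 × CuspForm (Gamma0 N) 2) :
    periodHomPair N (formT N hℓ x.1, formT N hℓ x.2) =
      perTransfer N ℓ ℂ (periodHomPair N x) := by
  rw [Periods.periodHomPair_apply, show x = (x.1, x.2) from rfl, Periods.periodHomPair_apply,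
    periodMap_formT, periodMap_formT, map_add, map_add, map_sub,
    perTransfer_charInvolution (p := ℓ), perTransfer_charInvolution (p := ℓ)]

/-- Every complex cuspidal character is the period of a pair of forms. -/
theorem exists_periodHomPair_eq (φ : clH ℂ N) :
    ∃ x, periodHomPair N x = (φ : Additive (Gamma0 N) →+ ℂ) :=
  LinearMap.mem_range.mp ((periodHomPair_range (N := N)).symm ▸ φ.2)

theorem formT_comm {ℓ ℓ' : ℕ} (hℓ : ℓ.Prime) (hℓ' : ℓ'.Prime) (f : CuspForm (Gamma0 N) 2) :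
    formT N hℓ (formT N hℓ' f) = formT N hℓ' (formT N hℓ f) := by
  rw [formT, formT, ← Module.End.mul_apply, ← Module.End.mul_apply]
  exact congrArg (fun t : CuspForm.heckeAlgebra N 2 ∅ => (t : Module.End ℂ _) f) (mul_comm _ _)

/-- The Hecke operators on the complex cuspidal characters commute. -/
theorem clT_comm_complex {ℓ ℓ' : ℕ} [NeZero ℓ] [NeZero ℓ'] (hℓ : ℓ.Prime) (hℓ' : ℓ'.Prime)
    (φ : clH ℂ N) : clT ℂ N ℓ (clT ℂ N ℓ' φ) = clT ℂ N ℓ' (clT ℂ N ℓ φ) := by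
  refine Subtype.ext ?_
  obtain ⟨x, hx⟩ := exists_periodHomPair_eq φ
  show perTransfer N ℓ ℂ (perTransfer N ℓ' ℂ φ.1) = perTransfer N ℓ' ℂ (perTransfer N ℓ ℂ φ.1)
  rw [← hx, ← periodHomPair_formT hℓ', ← periodHomPair_formT hℓ, ← periodHomPair_formT hℓ,
    ← periodHomPair_formT hℓ', formT_comm hℓ hℓ', formT_comm hℓ hℓ']

theorem clT_clMap_clT {k k' : Type} [CommRing k] [CommRing k'] (f : k →+* k') {r r' : ℕ}
    [NeZero r] [NeZero r'] (φ : clH k N) :
    clT k' N r (clT k' N r' (clMap f φ)) = clMap f (clT k N r (clT k N r' φ)) :=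
  (congrArg (clT k' N r) (clT_clMap f φ)).trans (clT_clMap f (clT k N r' φ))

theorem clT_comm_of_injective {k k' : Type} [CommRing k] [CommRing k'] (f : k →+* k')
    (hf : Function.Injective f) {r r' : ℕ} [NeZero r] [NeZero r']
    (h : ∀ x : clH k' N, clT k' N r (clT k' N r' x) = clT k' N r' (clT k' N r x)) (φ : clH k N) :
    clT k N r (clT k N r' φ) = clT k N r' (clT k N r φ) := by
  apply clMap_injective f hf
  rw [← clT_clMap_clT f φ, ← clT_clMap_clT f φ, h]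

theorem clT_comm_of_clMap_surjective {k k' : Type} [CommRing k] [CommRing k']
    (f : k →+* k') {r r' : ℕ}
    [NeZero r] [NeZero r'] (hf : Function.Surjective (clMap (Γ := Gamma0 N) f))
    (h : ∀ x : clH k N, clT k N r (clT k N r' x) = clT k N r' (clT k N r x)) (φ : clH k' N) :
    clT k' N r (clT k' N r' φ) = clT k' N r' (clT k' N r φ) := by
  obtain ⟨ψ, rfl⟩ := hf φ
  rw [clT_clMap_clT f ψ, clT_clMap_clT f ψ, h]

/-- The Hecke operators on the integral cuspidal characters commute. -/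
theorem clT_comm_int {ℓ ℓ' : ℕ} [NeZero ℓ] [NeZero ℓ'] (hℓ : ℓ.Prime) (hℓ' : ℓ'.Prime)
    (φ : clH ℤ N) : clT ℤ N ℓ (clT ℤ N ℓ' φ) = clT ℤ N ℓ' (clT ℤ N ℓ φ) :=
  clT_comm_of_injective (k := ℤ) (k' := ℂ) (r := ℓ) (r' := ℓ') (Int.castRingHom ℂ)
    Int.cast_injective (fun x => clT_comm_complex hℓ hℓ' x) φ

/-- The Hecke operators commute over any quotient of `ℤ`. -/
theorem clT_comm_of_surjective {k : Type} [CommRing k]
    (hk : Function.Surjective (Int.castRingHom k)) {ℓ ℓ' : ℕ} [NeZero ℓ] [NeZero ℓ']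
    (hℓ : ℓ.Prime) (hℓ' : ℓ'.Prime) (φ : clH k N) :
    clT k N ℓ (clT k N ℓ' φ) = clT k N ℓ' (clT k N ℓ φ) :=
  clT_comm_of_clMap_surjective (Int.castRingHom k) (clMap_surjective (neg_one_mem_Gamma0 N) hk)
    (fun x => clT_comm_int hℓ hℓ' x) φ

/-- The periods of a normalised eigenform form an eigenvector. -/
theorem exists_clH_eigenvector {f : CuspForm (Gamma0 N) 2} (hf : f.IsNormalizedEigenform) :
    ∃ φ : clH ℂ N, φ ≠ 0 ∧ ∀ (ℓ : ℕ) [NeZero ℓ], ℓ.Prime → ¬ ℓ ∣ N →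
      clT ℂ N ℓ φ = qCoeff f ℓ • φ := by
  refine ⟨⟨periodHomPair N (f, 0),
      (periodHomPair_range (N := N)) ▸ LinearMap.mem_range_self (periodHomPair N) (f, 0)⟩,
    fun h => ?_, fun ℓ _ hℓ hℓN => Subtype.ext ?_⟩
  · have h0 : periodHomPair N (f, (0 : CuspForm (Gamma0 N) 2)) = periodHomPair N 0 :=
      (congrArg Subtype.val h).trans (map_zero (periodHomPair N)).symm
    have hf0 : f = 0 := congrArg Prod.fst (Periods.periodHomPair_injective h0)
    have h1 := hf.qCoeff_one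
    rw [hf0, Eis.qCoeff_zero_form] at h1
    exact zero_ne_one h1
  · show perTransfer N ℓ ℂ (periodHomPair N (f, 0)) = qCoeff f ℓ • periodHomPair N (f, 0)
    rw [← periodHomPair_formT hℓ, ← map_smul, Prod.smul_mk, smul_zero, map_zero]
    congr 2
    rw [formT, CuspForm.heckeFormsGen_of_not_dvd (ℓ := ⟨ℓ, hℓ⟩) hℓN]
    exact Attach.heckeTLin_apply_eigenform hf hℓ hℓN

/-- An eigenvector in `Hom_cl(Γ₀(N), ℂ)` fixed by `U_q²` gives a normalised eigenform with the
same eigenvalues and `a_q² = 1`. -/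
theorem exists_eigenform_of_clH {S : Set ℕ} (hS : ∀ ℓ ∈ S, ℓ.Prime) (c : ℕ → ℂ) {q : ℕ}
    [NeZero q] (hq : q.Prime) {v : clH ℂ N} (hv0 : v ≠ 0)
    (hv : ∀ (ℓ : ℕ) [NeZero ℓ], ℓ ∈ S → clT ℂ N ℓ v = c ℓ • v)
    (hvq : clT ℂ N q (clT ℂ N q v) = v) :
    ∃ g : CuspForm (Gamma0 N) 2, g.IsNormalizedEigenform ∧ (∀ ℓ ∈ S, qCoeff g ℓ = c ℓ) ∧
      qCoeff g q ^ 2 = 1 := by
  let V := CuspForm (Gamma0 N) 2
  have := Eis.finiteDimensional_cuspForm N 2
  let ρ : CuspForm.heckeAlgebra N 2 ∅ →+* Module.End ℂ V :=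
    (CuspForm.heckeAlgebra N 2 ∅).val.toRingHom
  let W : Submodule ℂ V :=
    (⨅ (ℓ : S), LinearMap.ker (formT N (hS ℓ ℓ.2) - c ℓ • 1)) ⊓
      LinearMap.ker (formT N hq * formT N hq - 1)
  have hmem : ∀ f : V, f ∈ W ↔ (∀ ℓ : S, formT N (hS ℓ ℓ.2) f = c ℓ • f) ∧
      formT N hq (formT N hq f) = f := fun f => by
    simp [W, Submodule.mem_iInf, sub_eq_zero]
  have hW : Eis.IsStableSub ρ W := by
    intro t f hf
    rw [hmem] at hf ⊢
    have hcomm : ∀ (s : CuspForm.heckeAlgebra N 2 ∅) (g : V),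
        (s : Module.End ℂ V) ((t : Module.End ℂ V) g) =
          (t : Module.End ℂ V) ((s : Module.End ℂ V) g) :=
      fun s g => congrArg (fun x : CuspForm.heckeAlgebra N 2 ∅ => (x : Module.End ℂ V) g)
        (mul_comm s t)
    refine ⟨fun ℓ => ?_, ?_⟩
    · show formT N _ ((t : Module.End ℂ V) f) = c ℓ • (t : Module.End ℂ V) f
      rw [formT, hcomm, ← map_smul]
      exact congrArg _ (hf.1 ℓ)
    · show formT N hq (formT N hq ((t : Module.End ℂ V) f)) = (t : Module.End ℂ V) f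
      rw [formT, hcomm, hcomm]
      exact congrArg _ hf.2
  have hne : W ≠ ⊥ := by
    obtain ⟨⟨f₁, f₂⟩, hx⟩ := exists_periodHomPair_eq v
    have h1 : ∀ ℓ : S, formT N (hS ℓ ℓ.2) f₁ = c ℓ • f₁ ∧ formT N (hS ℓ ℓ.2) f₂ = c ℓ • f₂ := by
      rintro ⟨ℓ, hℓ⟩
      have : NeZero ℓ := ⟨(hS ℓ hℓ).ne_zero⟩
      have h : periodHomPair N (formT N (hS ℓ hℓ) f₁, formT N (hS ℓ hℓ) f₂) =
          periodHomPair N (c ℓ • (f₁, f₂)) := by
        rw [periodHomPair_formT (hS ℓ hℓ) (f₁, f₂), map_smul, hx]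
        exact congrArg Subtype.val (hv ℓ hℓ)
      exact ⟨congrArg Prod.fst (Periods.periodHomPair_injective h),
        congrArg Prod.snd (Periods.periodHomPair_injective h)⟩
    have h2 : periodHomPair N (formT N hq (formT N hq f₁), formT N hq (formT N hq f₂)) =
        periodHomPair N (f₁, f₂) := by
      rw [periodHomPair_formT hq (formT N hq f₁, formT N hq f₂),
        periodHomPair_formT hq (f₁, f₂), hx]
      exact congrArg Subtype.val hvq
    have h2' := Periods.periodHomPair_injective h2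
    intro hbot
    have hf₁ : f₁ = 0 := (Submodule.mem_bot ℂ).mp
      (hbot ▸ (hmem f₁).mpr ⟨fun ℓ => (h1 ℓ).1, congrArg Prod.fst h2'⟩)
    have hf₂ : f₂ = 0 := (Submodule.mem_bot ℂ).mp
      (hbot ▸ (hmem f₂).mpr ⟨fun ℓ => (h1 ℓ).2, congrArg Prod.snd h2'⟩)
    refine hv0 (Subtype.ext ?_)
    rw [← hx, hf₁, hf₂]
    exact map_zero (periodHomPair N)
  obtain ⟨w, hwW, hw0, hw⟩ := Eis.exists_common_eigenvector ρ W hW hne
  obtain ⟨χ, hχ⟩ := Eis.exists_character_of_eigenvector ρ hw0 hw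
  obtain ⟨g, hg, hgℓ⟩ := Eis.exists_normalizedEigenform_of_eigen hw0 hχ
  obtain ⟨hwℓ, hwq⟩ := (hmem w).mp hwW
  refine ⟨g, hg, fun ℓ hℓ => ?_, ?_⟩
  · rw [hgℓ ℓ (hS ℓ hℓ)]
    exact smul_left_injective ℂ hw0 ((hχ _).symm.trans (hwℓ ⟨ℓ, hℓ⟩))
  · rw [hgℓ q hq, pow_two]
    refine smul_left_injective ℂ hw0 ?_
    show (χ _ * χ _) • w = (1 : ℂ) • w
    rw [← map_mul, one_smul, ← hχ]
    exact hwq

end Fermat.Agent.Ihara
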