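import Fermat.Agent.Ihara.RaiseBase

/-!
# Consequences of Poincaré duality

With respect to the Poincaré pairing the transfers are adjoint to the degeneracy maps and `T_ℓ` is
self-adjoint. Hence the transfers commute with `T_ℓ`, and the pair of transfers is surjective at any
system at which the sum of the degeneracy maps is injective.
-/

noncomputable section

namespace Fermat.Agent.Ihara

open scoped MatrixGroups
open CongruenceSubgroup Fermat.Agent.Grp Fermat.Agent.Hecke

/-- `Γ₀(M)` as a level. -/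
abbrev gamma0Lev (M : ℕ) [NeZero M] : Lev := ⟨Gamma0 M, neg_one_mem_Gamma0 M, inferInstance⟩

theorem neg_one_mem_upperGrp (N q : ℕ) : (-1 : SL(2, ℤ)) ∈ upperGrp N q :=
  mem_upperGrp.mpr ⟨neg_one_mem_Gamma0 N, by simp⟩

/-- `Γ₀(N) ∩ Γ⁰(q)` as a level. -/
abbrev upperLev (N q : ℕ) [NeZero N] [NeZero q] : Lev :=
  ⟨upperGrp N q, neg_one_mem_upperGrp N q, inferInstance⟩

/-- `Γ₀(Nq) ≃ Γ₀(N) ∩ Γ⁰(q)` by conjugation with `diag(q,1)`. -/
def betaEquiv (N q : ℕ) [NeZero q] : Gamma0 (N * q) ≃* upperGrp N q where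
  toFun γ := ⟨(betaHom N q γ).1, betaHom_mem_upperGrp γ⟩
  invFun := alphaUp N q
  left_inv γ := by
    have hq : (q : ℤ) ≠ 0 := by exact_mod_cast NeZero.ne q
    obtain ⟨c, hc⟩ := Gamma0_dvd γ
    have e : γ.1 1 0 = (q : ℤ) * ((N : ℤ) * c) := by
      rw [show γ.1 1 0 = _ from hc]; push_cast; ring
    apply Gamma0_ext <;> rw [alphaUp_val] <;>
      simp [betaHom_val, Int.mul_ediv_cancel_left _ hq]
    rw [e, Int.mul_ediv_cancel_left _ hq]
  right_inv u := Subtype.ext (betaHom_alphaUp u)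
  map_mul' γ δ := Subtype.ext (by
    show (betaHom N q (γ * δ)).1 = (betaHom N q γ).1 * (betaHom N q δ).1
    rw [map_mul]; rfl)

variable {k : Type} [CommRing k]
  {P : ∀ X : Lev, clHoms k X.grp k →ₗ[k] clHoms k X.grp k →ₗ[k] k}

/-- The pairing at level `M`. -/
abbrev pairAt (P : ∀ X : Lev, clHoms k X.grp k →ₗ[k] clHoms k X.grp k →ₗ[k] k) (M : ℕ) [NeZero M] :
    clH k M →ₗ[k] clH k M →ₗ[k] k := P (gamma0Lev M)

variable {N q : ℕ} [NeZero N] [NeZero q]

/-- The first transfer is adjoint to the first degeneracy map. -/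
theorem pairAt_corA (hP : IsPoincarePairing k P) (x : clH k N) (χ : clH k (N * q)) :
    pairAt P N x (clCorA k N q χ) = pairAt P (N * q) (clDegA k N q x) χ :=
  (hP.adjoint (gamma0Lev N) (gamma0Lev (N * q)) (Gamma0_le_mul N q) x χ _ _).symm

/-- The second transfer is adjoint to the second degeneracy map. -/
theorem pairAt_corB (hP : IsPoincarePairing k P) (x : clH k N) (χ : clH k (N * q)) :
    pairAt P N x (clCorB k N q χ) = pairAt P (N * q) (clDegB k N q x) χ := by
  have hres : IsClHom (upperGrp N q) (resHom (upperGrp_le N q) (x : Additive (Gamma0 N) →+ k)) :=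
    isClHom_resHom _ x.2
  have hα : IsClHom (upperGrp N q)
      ((χ : Additive (Gamma0 (N * q)) →+ k).comp (MonoidHom.toAdditive (alphaUp N q))) :=
    fun u hu => χ.2 (alphaUp N q u) (by rwa [tr_alphaUp])
  have hdet : 0 < Matrix.det !![(q : ℤ), 0; 0, 1] := by simpa using NeZero.pos q
  have hβ : (χ : Additive (Gamma0 (N * q)) →+ k) =
      ((χ : Additive (Gamma0 (N * q)) →+ k).comp (MonoidHom.toAdditive (alphaUp N q))).comp
        (MonoidHom.toAdditive (betaEquiv N q).toMonoidHom) :=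
    AddMonoidHom.ext fun γ => by
      show _ = (χ : Additive (Gamma0 (N * q)) →+ k)
        (Additive.ofMul ((betaEquiv N q).symm (betaEquiv N q (Additive.toMul γ))))
      rw [MulEquiv.symm_apply_apply]; rfl
  have h1 := hP.invariant (upperLev N q) (gamma0Lev (N * q)) (betaEquiv N q) !![(q : ℤ), 0; 0, 1]
    hdet
    (fun γ => (betaHom_spec γ).trans rfl) ⟨_, hres⟩ ⟨_, hα⟩ (clDegB k N q x).2 (hβ ▸ χ.2)
  have h2 := hP.adjoint (gamma0Lev N) (upperLev N q) (upperGrp_le N q) x ⟨_, hα⟩ hres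
    (clCorB k N q χ).2
  refine h2.symm.trans (h1.symm.trans ?_)
  exact congrArg₂ (fun a b => P (gamma0Lev (N * q)) a b) (Subtype.ext rfl) (Subtype.ext hβ.symm)

theorem pairAt_right_nondeg (hP : IsPoincarePairing k P) {M : ℕ} [NeZero M] {φ : clH k M}
    (h : ∀ x, pairAt P M x φ = 0) : φ = 0 :=
  hP.left_nondeg (gamma0Lev M) φ fun ψ => by
    rw [hP.skew]
    exact neg_eq_zero.mpr (h ψ)

/-- `T_ℓ` is self-adjoint. -/
theorem pairAt_clT (hP : IsPoincarePairing k P) {M ℓ : ℕ} [NeZero M] [NeZero ℓ] (hℓ : ℓ.Prime)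
    (hℓM : ¬ ℓ ∣ M) (φ ψ : clH k M) :
    pairAt P M (clT k M ℓ φ) ψ = pairAt P M φ (clT k M ℓ ψ) := by
  have hper : clT k M ℓ φ = clCorA k M ℓ (clDegB k M ℓ φ) :=
    Subtype.ext ((monoTransfer_eq_perTransfer hℓ hℓM _).symm.trans (corA_degB _).symm)
  have hper' : clT k M ℓ ψ = clCorB k M ℓ (clDegA k M ℓ ψ) :=
    Subtype.ext (corB_degA _).symm
  show P (gamma0Lev M) _ _ = _
  rw [hP.skew, hper, hper']
  have e1 := pairAt_corA hP ψ (clDegB k M ℓ φ)
  have e2 := pairAt_corB hP φ (clDegA k M ℓ ψ)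
  show -(pairAt P M ψ _) = pairAt P M φ _
  rw [e1, e2]
  exact (hP.skew (gamma0Lev (M * ℓ)) _ _).symm

/-- The transfers commute with `T_ℓ`. -/
theorem clT_clJ (hP : IsPoincarePairing k P) {ℓ : ℕ} [NeZero ℓ] (hℓ : ℓ.Prime) (hN : ¬ ℓ ∣ N)
    (hq : ¬ ℓ ∣ q) (χ : clH k (N * q)) :
    clJ k N q (clT k (N * q) ℓ χ) =
      (clT k N ℓ (clJ k N q χ).1, clT k N ℓ (clJ k N q χ).2) := by
  have hM := not_dvd_mul hℓ hN hq
  refine Prod.ext ?_ ?_ <;> refine sub_eq_zero.mp (pairAt_right_nondeg hP fun x => ?_)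
  · show pairAt P N x (clCorA k N q _ - clT k N ℓ (clCorA k N q χ)) = 0
    let : AddCommGroup (clH k N) := inferInstance
    rw [(pairAt P N x).map_sub, sub_eq_zero]
    rw [pairAt_corA hP, ← pairAt_clT hP hℓ hM, ← pairAt_clT hP hℓ hN, pairAt_corA hP,
      clT_degA hℓ hN hq]
  · show pairAt P N x (clCorB k N q _ - clT k N ℓ (clCorB k N q χ)) = 0
    let : AddCommGroup (clH k N) := inferInstance
    rw [(pairAt P N x).map_sub, sub_eq_zero]
    rw [pairAt_corB hP, ← pairAt_clT hP hℓ hM, ← pairAt_clT hP hℓ hN, pairAt_corB hP,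
      clT_degB hℓ hN hq]

/-- For a nondegenerate form, a self-adjoint `t` killing the orthogonal of the image of `j` maps
everything into that image. -/
theorem mem_range_of_adjoint {k : Type} [Field k] {V W : Type*} [AddCommGroup V] [Module k V]
    [FiniteDimensional k V] [AddCommGroup W] [Module k W] (B : V →ₗ[k] V →ₗ[k] k)
    (hB : ∀ a, (∀ b, B a b = 0) → a = 0) (j : W →ₗ[k] V) (t : V →ₗ[k] V)
    (ht : ∀ a b, B (t a) b = B a (t b)) (hker : ∀ w, (∀ χ, B w (j χ) = 0) → t w = 0) (y : V) :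
    ∃ χ, j χ = t y := by
  by_contra hne
  have hv : t y ∉ LinearMap.range j := fun ⟨χ, hχ⟩ => hne ⟨χ, hχ⟩
  obtain ⟨lam, hlam, hJ⟩ := Submodule.exists_dual_map_eq_bot_of_notMem hv inferInstance
  have hinj : Function.Injective B :=
    (injective_iff_map_eq_zero B).mpr fun a ha => hB a fun b => LinearMap.congr_fun ha b
  obtain ⟨w, rfl⟩ := ((LinearMap.injective_iff_surjective_of_finrank_eq_finrank
    (Subspace.dual_finrank_eq).symm).mp hinj) lam
  refine hlam ?_
  rw [← ht, hker w (fun χ => (Submodule.mem_bot k).mp (hJ ▸ Submodule.mem_map_of_mem ⟨χ, rfl⟩)),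
    map_zero, LinearMap.zero_apply]

/-- A self-adjoint operator killing the kernel of `i` maps everything into the image of `j`. -/
theorem exists_clJ_eq {k : Type} [Field k]
    {P : ∀ X : Lev, clHoms k X.grp k →ₗ[k] clHoms k X.grp k →ₗ[k] k} (hP : IsPoincarePairing k P)
    (t : Module.End k (clH k N))
    (ht : ∀ a b, pairAt P N (t a) b = pairAt P N a (t b))
    (hker : ∀ w, clI k N q w = 0 → t w.1 = 0 ∧ t w.2 = 0) (y : clH k N × clH k N) :
    ∃ χ, clJ k N q χ = (t y.1, t y.2) := by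
  let B : (clH k N × clH k N) →ₗ[k] (clH k N × clH k N) →ₗ[k] k :=
    LinearMap.mk₂ k (fun a b => pairAt P N a.1 b.1 + pairAt P N a.2 b.2)
      (fun a a' b => by simp only [Prod.fst_add, Prod.snd_add, map_add, LinearMap.add_apply]; abel)
      (fun c a b => by simp [mul_add])
      (fun a b b' => by simp only [Prod.fst_add, Prod.snd_add, map_add]; abel)
      (fun c a b => by simp [mul_add])
  refine mem_range_of_adjoint (W := clH k (N * q)) B (fun a ha => ?_) (clJ k N q) (t.prodMap t)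
    (fun a b => ?_)
    (fun w hw => ?_) y
  · refine Prod.ext (hP.left_nondeg (gamma0Lev N) a.1 fun ψ => ?_)
      (hP.left_nondeg (gamma0Lev N) a.2 fun ψ => ?_)
    · simpa [B] using ha (ψ, 0)
    · simpa [B] using ha (0, ψ)
  · show pairAt P N (t a.1) b.1 + pairAt P N (t a.2) b.2 =
      pairAt P N a.1 (t b.1) + pairAt P N a.2 (t b.2)
    rw [ht, ht]
  · have hiw : clI k N q w = 0 := hP.left_nondeg (gamma0Lev (N * q)) (clI k N q w) fun χ => by
      refine Eq.trans ?_ (hw χ)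
      show pairAt P (N * q) (clDegA k N q w.1 + clDegB k N q w.2) χ =
        pairAt P N w.1 (clCorA k N q χ) + pairAt P N w.2 (clCorB k N q χ)
      rw [map_add, LinearMap.add_apply, pairAt_corA hP, pairAt_corB hP]
    obtain ⟨h1, h2⟩ := hker w hiw
    exact Prod.ext h1 h2

end Fermat.Agent.Ihara
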