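import Fermat.Agent.Ihara.DegenMaps

/-!
# Ihara's lemma: the kernel is Eisenstein

If a pair `(φ, ψ)` of cuspidal characters of `Γ₀(N)` with values in a field is killed by the sum of
the two degeneracy maps to level `N q`, and `φ` is an eigenvector of `T_ℓ` for a prime `ℓ ∤ N` with
`q ^ (4 N ^ 2) ≢ 1 mod ℓ`, then the eigenvalue is `± (ℓ + 1)`; moreover `φ = 0` forces `ψ = 0`.
So a non-Eisenstein system does not meet this kernel, which is the form of Ihara's lemma needed for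
level raising.
-/

namespace Fermat.Agent.Ihara

open scoped MatrixGroups
open CongruenceSubgroup Fermat.Agent.Grp Fermat.Agent.Hecke

variable {A : Type*} [AddCommGroup A] {N ℓ q : ℕ}

/-- An element of `Γ₀(N)` with upper left entry `1` mod `N` is killed as soon as `Γ(N ℓ³)` is. -/
theorem eq_zero_of_corner (hℓ : ℓ.Prime) (hℓN : ¬ ℓ ∣ N) {φ : Additive (Gamma0 N) →+ A}
    (hφ : KillsTrTwo (Gamma0 N) φ)
    (hΓ : ∀ γ : Gamma0 N, γ.1 ∈ CongruenceSubgroup.Gamma (N * ℓ ^ 3) → φ (Additive.ofMul γ) = 0)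
    (γ : Gamma0 N) (ha : (N : ℤ) ∣ γ.1 0 0 - 1) : φ (Additive.ofMul γ) = 0 := by
  have hℓp : Prime (ℓ : ℤ) := Nat.prime_iff_prime_int.mp hℓ
  have hcop : IsCoprime (N : ℤ) ((ℓ : ℤ) ^ 3) :=
    (Nat.isCoprime_iff_coprime.mpr (hℓ.coprime_iff_not_dvd.mpr hℓN).symm).pow_right
  have hU : ∀ t : ℤ, upperE t ∈ Gamma0 N := fun t => Gamma0_mem_iff_dvd.mpr (by simp [upperE])
  have hL : ∀ y : ℤ, lowerE ((N : ℤ) * y) ∈ Gamma0 N := fun y =>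
    Gamma0_mem_iff_dvd.mpr (by simp [lowerE])
  have hu : ∀ t, φ (Additive.ofMul ⟨upperE t, hU t⟩) = 0 := fun t => hφ _ (tr_upperE t)
  have hl : ∀ y, φ (Additive.ofMul ⟨lowerE ((N : ℤ) * y), hL y⟩) = 0 := fun y =>
    hφ _ (tr_lowerE _)
  suffices h : ∀ δ : Gamma0 N, (N : ℤ) ∣ δ.1 0 0 - 1 → ¬ (ℓ : ℤ) ∣ δ.1 0 1 →
      φ (Additive.ofMul δ) = 0 by
    by_cases hb : (ℓ : ℤ) ∣ γ.1 0 1
    · have h1 := h (γ * ⟨upperE 1, hU 1⟩) (by
          rw [Subgroup.coe_mul, (entries_mul _ _).1, (upperE_entries 1).1, (upperE_entries 1).2.2.1]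
          simpa using ha) (by
          rw [Subgroup.coe_mul, (entries_mul _ _).2.1, (upperE_entries 1).2.1,
            (upperE_entries 1).2.2.2, mul_one, mul_one]
          rw [dvd_add_left hb]
          exact fun ha' => hℓp.not_dvd_one
            (det_eq γ.1 ▸ dvd_sub (ha'.mul_right _) (hb.mul_right _)))
      rwa [ofMul_mul, map_add, hu, add_zero] at h1
    · exact h γ ha hb
  intro δ ha hb
  obtain ⟨z, hz⟩ := ha
  obtain ⟨u, v, huv⟩ := ((hℓp.coprime_iff_not_dvd.mpr hb).pow_left (m := 3)).symm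
  obtain ⟨s, t, hst⟩ := hcop
  -- `y` with `a + b N y ≡ 1` mod `N ℓ³`
  set y : ℤ := -(u * z) with hy
  set δ₁ : Gamma0 N := δ * ⟨lowerE ((N : ℤ) * y), hL y⟩ with hδ₁
  have h00 : ((N * ℓ ^ 3 : ℕ) : ℤ) ∣ δ₁.1 0 0 - 1 := by
    refine ⟨z * v, ?_⟩
    rw [hδ₁, Subgroup.coe_mul, (entries_mul _ _).1, (lowerE_entries _).1,
      (lowerE_entries _).2.2.1, hy]
    push_cast
    linear_combination hz - (N : ℤ) * z * huv
  set δ₂ : Gamma0 N := δ₁ * ⟨upperE (-(δ₁.1 0 1)), hU _⟩ with hδ₂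
  obtain ⟨c, hc⟩ := Gamma0_dvd δ₂
  have g00 : δ₂.1 0 0 = δ₁.1 0 0 := by
    rw [hδ₂, Subgroup.coe_mul, (entries_mul _ _).1, (upperE_entries _).1,
      (upperE_entries _).2.2.1]; ring
  have g01 : ((N * ℓ ^ 3 : ℕ) : ℤ) ∣ δ₂.1 0 1 := by
    rw [hδ₂, Subgroup.coe_mul, (entries_mul _ _).2.1, (upperE_entries _).2.1,
      (upperE_entries _).2.2.2]
    refine (Dvd.dvd.mul_right h00 (-(δ₁.1 0 1))).trans (dvd_of_eq ?_)
    ring
  set δ₃ : Gamma0 N := ⟨lowerE ((N : ℤ) * -c), hL _⟩ * δ₂ with hδ₃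
  have k00 : δ₃.1 0 0 = δ₂.1 0 0 := by
    rw [hδ₃, Subgroup.coe_mul, (entries_mul _ _).1, (lowerE_entries _).1,
      (lowerE_entries _).2.1]; ring
  have k01 : δ₃.1 0 1 = δ₂.1 0 1 := by
    rw [hδ₃, Subgroup.coe_mul, (entries_mul _ _).2.1, (lowerE_entries _).1,
      (lowerE_entries _).2.1]; ring
  have k10 : ((N * ℓ ^ 3 : ℕ) : ℤ) ∣ δ₃.1 1 0 := by
    rw [hδ₃, Subgroup.coe_mul, (entries_mul _ _).2.2.1, (lowerE_entries _).2.2.1,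
      (lowerE_entries _).2.2.2, show δ₂.1 1 0 = _ from hc, g00]
    refine (Dvd.dvd.mul_right h00 (-((N : ℤ) * c))).trans (dvd_of_eq ?_)
    ring
  have k11 : ((N * ℓ ^ 3 : ℕ) : ℤ) ∣ δ₃.1 1 1 - 1 := by
    rw [show δ₃.1 1 1 - 1 = δ₃.1 0 1 * δ₃.1 1 0 - (δ₃.1 0 0 - 1) * δ₃.1 1 1 by
      linear_combination det_eq δ₃.1]
    exact dvd_sub (k10.mul_left _) (Dvd.dvd.mul_right (by rw [k00, g00]; exact h00) _)
  have h0 := hΓ δ₃ (Gamma_mem_iff_dvd.mpr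
    ⟨by rw [k00, g00]; exact h00, by rw [k01]; exact g01, k10, k11⟩)
  rw [hδ₃, hδ₂, hδ₁] at h0
  simp only [ofMul_mul, map_add, hu, hl, add_zero, zero_add] at h0
  exact h0

/-- `θ(η γ η⁻¹) = φ(γ)` on `Γ(Nℓ³)`. -/
theorem thetaChar_twist [NeZero ℓ] (hN : 0 < N) (hℓ : ℓ.Prime) (hℓN : ¬ ℓ ∣ N)
    (hq : q.Prime) (hqℓ : q ≠ ℓ) (hexp : ¬ (ℓ : ℤ) ∣ (q : ℤ) ^ (4 * N ^ 2) - 1)
    {φ : Additive (Gamma0 N) →+ A} (hφ : KillsTrTwo (Gamma0 N) φ) (hD : DInvariant N q φ)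
    (γ δ : CongruenceSubgroup.Gamma (N * ℓ ^ 2)) (hγ : γ.1 ∈ Gamma0 N)
    (h00 : δ.1 0 0 = γ.1 0 0) (h01 : δ.1 0 1 = (ℓ : ℤ) * γ.1 0 1)
    (h10 : (ℓ : ℤ) * δ.1 1 0 = γ.1 1 0) (h11 : δ.1 1 1 = γ.1 1 1) :
    thetaChar φ (Additive.ofMul δ) = φ (Additive.ofMul ⟨γ.1, hγ⟩) := by
  obtain ⟨a, b, hab⟩ : IsCoprime (ℓ : ℤ) (N : ℤ) :=
    Nat.isCoprime_iff_coprime.mpr (hℓ.coprime_iff_not_dvd.mpr hℓN)
  have hℓ0 : (ℓ : ℤ) ≠ 0 := by exact_mod_cast hℓ.ne_zero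
  let w : Gamma0 N := mkGamma0 N a (-b) N ℓ (by linear_combination hab) dvd_rfl
  let w' : Gamma0 N := mkGamma0 N (ℓ * a) (-b) N 1 (by linear_combination hab) dvd_rfl
  rw [← DFunLike.congr_fun (thetaChar_conj hN hℓ hq hqℓ hexp hφ hD w) (Additive.ofMul δ),
    conjChar_apply, thetaChar_apply]
  have key : lowerConj N ℓ (toLower N ℓ ⟨w.1 * δ.1 * w.1⁻¹, (Gamma_normal _).conj_mem _ δ.2 _⟩)
      = w' * ⟨γ.1, hγ⟩ * w'⁻¹ := by
    obtain ⟨e, he⟩ : (ℓ : ℤ) ∣ δ.1 1 0 := (Int.natCast_dvd_natCast.mpr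
      (Dvd.dvd.mul_left (dvd_pow_self ℓ two_ne_zero) N)).trans (Gamma_mem_iff_dvd.mp δ.2).2.2.1
    apply Gamma0_ext <;> rw [lowerConj_val] <;>
      simp only [toLower, MonoidHom.coe_mk, OneHom.coe_mk, Subgroup.coe_mul, Subgroup.coe_inv,
        (entries_mul _ _).1, (entries_mul _ _).2.1, (entries_mul _ _).2.2.1,
        (entries_mul _ _).2.2.2, (entries_inv _).1, (entries_inv _).2.1, (entries_inv _).2.2.1,
        (entries_inv _).2.2.2, w, w', mkGamma0_val] <;>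
      simp <;> rw [h00, h11, h01]
    · linear_combination (-b) * h10
    · linear_combination (-(b ^ 2)) * h10
    · rw [he] at h10 ⊢
      rw [show ∀ X Y Z W : ℤ, (X + (ℓ : ℤ) * Y) * (ℓ : ℤ) + -((Z + (ℓ : ℤ) * W) * (N : ℤ)) =
        (X + (ℓ : ℤ) * Y) * (ℓ : ℤ) - (Z + (ℓ : ℤ) * W) * (N : ℤ) from fun _ _ _ _ => by ring]
      refine Int.ediv_eq_of_eq_mul_right hℓ0 ?_
      linear_combination (ℓ : ℤ) * h10
    · linear_combination b * h10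
  rw [key, apply_conj]

/-- An eigenvector of `T_ℓ` in the Ihara kernel with non-Eisenstein eigenvalue vanishes on
`Γ(N ℓ³)`. -/
theorem eq_zero_of_mem_Gamma {k : Type*} [Field k] [NeZero N] [NeZero ℓ]
    (hq : q.Prime) (hℓ : ℓ.Prime) (hℓN : ¬ ℓ ∣ N) (hqℓ : q ≠ ℓ)
    (hexp : ¬ (ℓ : ℤ) ∣ (q : ℤ) ^ (4 * N ^ 2) - 1)
    {φ : Additive (Gamma0 N) →+ k} (hφ : KillsTrTwo (Gamma0 N) φ) (hD : DInvariant N q φ)
    {a : k} (hT : monoTransfer N ℓ k φ = a • φ) (ha : a ≠ (ℓ : k) + 1)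
    (ha' : a ≠ -((ℓ : k) + 1)) (γ : Gamma0 N)
    (hγ : γ.1 ∈ CongruenceSubgroup.Gamma (N * ℓ ^ 3)) : φ (Additive.ofMul γ) = 0 := by
  have step1 : ∀ δ : CongruenceSubgroup.Gamma (N * ℓ ^ 2),
      a * φ (Additive.ofMul (toLower N ℓ δ).1) =
        ((ℓ : k) + 1) * thetaChar φ (Additive.ofMul δ) := by
    intro δ
    have h := monoTransfer_eq_thetaChar hℓ hℓN hq hqℓ hexp hφ hD δ
    rw [hT, AddMonoidHom.smul_apply, smul_eq_mul, nsmul_eq_mul] at h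
    push_cast at h
    exact h
  obtain ⟨h1, h2, ⟨e, he⟩, h4⟩ := Gamma_mem_iff_dvd.mp hγ
  have hdvd : ((N * ℓ ^ 2 : ℕ) : ℤ) ∣ ((N * ℓ ^ 3 : ℕ) : ℤ) :=
    Int.natCast_dvd_natCast.mpr (Nat.mul_dvd_mul_left N (pow_dvd_pow ℓ (by norm_num)))
  let γ2 : CongruenceSubgroup.Gamma (N * ℓ ^ 2) := ⟨γ.1, Gamma_mem_iff_dvd.mpr
    ⟨hdvd.trans h1, hdvd.trans h2, hdvd.trans ⟨e, he⟩, hdvd.trans h4⟩⟩
  let δ : CongruenceSubgroup.Gamma (N * ℓ ^ 2) :=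
    ⟨⟨!![γ.1 0 0, (ℓ : ℤ) * γ.1 0 1; ((N * ℓ ^ 2 : ℕ) : ℤ) * e, γ.1 1 1], by
      rw [Matrix.det_fin_two_of]
      push_cast
      push_cast at he
      linear_combination det_eq γ.1 + (γ.1 0 1) * he⟩, Gamma_mem_iff_dvd.mpr
    ⟨hdvd.trans h1, (hdvd.trans h2).mul_left _, dvd_mul_right _ _, hdvd.trans h4⟩⟩
  have hδ : (toLower N ℓ δ).1 = lowerConj N ℓ (toLower N ℓ γ2) := by
    have hℓ0 : (ℓ : ℤ) ≠ 0 := by exact_mod_cast hℓ.ne_zero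
    apply Gamma0_ext <;> rw [lowerConj_val] <;> simp [toLower, γ2, δ]
    rw [he]; push_cast
    rw [show (N : ℤ) * (ℓ : ℤ) ^ 3 * e = (ℓ : ℤ) * ((N : ℤ) * (ℓ : ℤ) ^ 2 * e) by ring,
      Int.mul_ediv_cancel_left _ hℓ0]
  have e1 := step1 γ2
  have e2 := step1 δ
  rw [hδ, ← thetaChar_apply,
    thetaChar_twist (NeZero.pos N) hℓ hℓN hq hqℓ hexp hφ hD γ2 δ γ.2 rfl rfl
      (by show (ℓ : ℤ) * (((N * ℓ ^ 2 : ℕ) : ℤ) * e) = γ.1 1 0; rw [he]; push_cast; ring) rfl] at e2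
  have e0 : (toLower N ℓ γ2).1 = γ := rfl
  rw [e0] at e1
  have : (a - ((ℓ : k) + 1)) * (a + ((ℓ : k) + 1)) * φ (Additive.ofMul γ) = 0 := by
    linear_combination a * e1 + ((ℓ : k) + 1) * e2
  refine (mul_eq_zero.mp this).resolve_left (mul_ne_zero (sub_ne_zero.mpr ha) ?_)
  exact fun h => ha' (eq_neg_of_add_eq_zero_left h)

/-- `T_ℓ` is `ℓ + 1` on characters that depend only on the upper left entry. -/
theorem monoTransfer_eq_of_corner [NeZero N] [NeZero ℓ] (hℓ : ℓ.Prime) (hℓN : ¬ ℓ ∣ N)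
    {φ : Additive (Gamma0 N) →+ A}
    (h : ∀ γ δ : Gamma0 N, γ.1 0 0 = δ.1 0 0 → φ (Additive.ofMul γ) = φ (Additive.ofMul δ)) :
    monoTransfer N ℓ A φ = (ℓ + 1) • φ := by
  rw [← corA_degB, show degB N ℓ φ = degA N ℓ φ from addChar_ext fun γ => h _ _ rfl,
    corA_degA hℓ hℓN]

/-- The eigenvalues of `T_ℓ` on first components of the Ihara kernel are Eisenstein up to sign. -/
theorem eigenvalue_of_kernel {k : Type*} [Field k] [NeZero N] [NeZero q] [NeZero ℓ]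
    (hq : q.Prime) (hqN : ¬ q ∣ N) (hℓ : ℓ.Prime) (hℓN : ¬ ℓ ∣ N) (hqℓ : q ≠ ℓ)
    (hexp : ¬ (ℓ : ℤ) ∣ (q : ℤ) ^ (4 * N ^ 2) - 1)
    {φ ψ : Additive (Gamma0 N) →+ k} (hφ : KillsTrTwo (Gamma0 N) φ)
    (hker : ∀ γ : lowerSub N q,
      φ (Additive.ofMul γ.1) + ψ (Additive.ofMul (lowerConj N q γ)) = 0)
    {a : k} (hT : monoTransfer N ℓ k φ = a • φ) (h0 : φ ≠ 0) :
    a = (ℓ : k) + 1 ∨ a = -((ℓ : k) + 1) := by
  by_contra hne
  rw [not_or] at hne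
  have hkill := eq_zero_of_mem_Gamma hq hℓ hℓN hqℓ hexp hφ (dInvariant_of_kernel hq hqN hker)
    hT hne.1 hne.2
  -- `φ` depends only on the corner mod `N`, so `T_ℓ = ℓ + 1` on it
  have hcorner : ∀ γ δ : Gamma0 N, γ.1 0 0 = δ.1 0 0 →
      φ (Additive.ofMul γ) = φ (Additive.ofMul δ) := by
    intro γ δ h
    have hz := eq_zero_of_corner hℓ hℓN hφ hkill (γ⁻¹ * δ) (by
      obtain ⟨c, hc⟩ := Gamma0_dvd δ
      obtain ⟨c', hc'⟩ := Gamma0_dvd γ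
      rw [Subgroup.coe_mul, Subgroup.coe_inv, (entries_mul _ _).1, (entries_inv _).1,
        (entries_inv _).2.1, show δ.1 1 0 = _ from hc, ← h]
      refine ⟨γ.1 0 1 * c' - γ.1 0 1 * c, ?_⟩
      linear_combination det_eq γ.1 + γ.1 0 1 * hc')
    rw [ofMul_mul, ofMul_inv, map_add, map_neg, neg_add_eq_zero] at hz
    exact hz
  apply hne.1
  obtain ⟨g, hg⟩ : ∃ g, φ g ≠ 0 := by
    by_contra! hall
    exact h0 (AddMonoidHom.ext hall)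
  have := DFunLike.congr_fun (hT.symm.trans (monoTransfer_eq_of_corner hℓ hℓN hcorner)) g
  simp only [AddMonoidHom.smul_apply, smul_eq_mul, nsmul_eq_mul, Nat.cast_add, Nat.cast_one] at this
  exact mul_right_cancel₀ hg this

/-- A kernel pair with vanishing first component vanishes. -/
theorem eq_zero_of_kernel_left [NeZero q] (hq : q.Prime) (hqN : ¬ q ∣ N)
    {ψ : Additive (Gamma0 N) →+ A} (hψ : KillsTrTwo (Gamma0 N) ψ)
    (hker : ∀ γ : lowerSub N q, ψ (Additive.ofMul (lowerConj N q γ)) = 0) : ψ = 0 := by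
  have hqp : Prime (q : ℤ) := Nat.prime_iff_prime_int.mp hq
  have hq0 : (q : ℤ) ≠ 0 := by exact_mod_cast hq.ne_zero
  have hup : ∀ γ : Gamma0 N, (q : ℤ) ∣ γ.1 0 1 → ψ (Additive.ofMul γ) = 0 := by
    intro γ hb
    obtain ⟨z, hz⟩ := hb
    obtain ⟨c, hc⟩ := Gamma0_dvd γ
    let δ : Gamma0 N := mkGamma0 N (γ.1 0 0) z ((q : ℤ) * γ.1 1 0) (γ.1 1 1)
      (by linear_combination det_eq γ.1 + γ.1 1 0 * hz) ((Gamma0_dvd γ).mul_left _)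
    have hδ : δ ∈ lowerSub N q := mem_lowerSub.mpr ⟨c, by
      show (q : ℤ) * γ.1 1 0 = _; rw [show γ.1 1 0 = _ from hc]; push_cast; ring⟩
    rw [← hker ⟨δ, hδ⟩]
    refine congrArg ψ (congrArg Additive.ofMul ?_)
    apply Gamma0_ext <;> rw [lowerConj_val] <;> simp [δ, mkGamma0_val]
    · exact hz
    · exact (Int.mul_ediv_cancel_left _ hq0).symm
  refine addChar_ext fun γ => ?_
  rw [AddMonoidHom.zero_apply]
  suffices h : ∀ δ : Gamma0 N, ¬ (q : ℤ) ∣ δ.1 0 0 → ψ (Additive.ofMul δ) = 0 by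
    by_cases ha : (q : ℤ) ∣ γ.1 0 0
    · have hL : lowerE (N : ℤ) ∈ Gamma0 N := Gamma0_mem_iff_dvd.mpr (by simp [lowerE])
      have h1 := h (γ * ⟨_, hL⟩) (by
        rw [Subgroup.coe_mul, (entries_mul _ _).1, (lowerE_entries _).1,
          (lowerE_entries _).2.2.1, mul_one, dvd_add_right ha]
        intro hd
        rcases hqp.dvd_mul.mp hd with hb | hN'
        · exact hqp.not_dvd_one (det_eq γ.1 ▸ dvd_sub (ha.mul_right _) (hb.mul_right _))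
        · exact hqN (Int.natCast_dvd_natCast.mp hN'))
      rwa [ofMul_mul, map_add, hψ ⟨_, hL⟩ (tr_lowerE _), add_zero] at h1
    · exact h γ ha
  intro δ ha
  obtain ⟨u, v, huv⟩ := (hqp.coprime_iff_not_dvd.mpr ha).symm
  have hU : upperE (-(δ.1 0 1 * u)) ∈ Gamma0 N := Gamma0_mem_iff_dvd.mpr (by simp [upperE])
  have h1 := hup (δ * ⟨_, hU⟩) (by
    rw [Subgroup.coe_mul, (entries_mul _ _).2.1, (upperE_entries _).2.1, (upperE_entries _).2.2.2]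
    exact ⟨δ.1 0 1 * v, by linear_combination (-(δ.1 0 1)) * huv⟩)
  rwa [ofMul_mul, map_add, hψ ⟨_, hU⟩ (tr_upperE _), add_zero] at h1

end Fermat.Agent.Ihara
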