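import Mathlib.Algebra.Algebra.Subalgebra.Lattice
import Mathlib.Algebra.MvPolynomial.CommRing
import Mathlib.LinearAlgebra.Charpoly.Basic
import Mathlib.LinearAlgebra.Matrix.Charpoly.LinearMap
import Mathlib.RingTheory.Artinian.Module
import Mathlib.RingTheory.Ideal.Quotient.Basic
import Mathlib.RingTheory.IntegralClosure.IsIntegral.Basic
import Mathlib.RingTheory.Noetherian.Basic

/-!
# Commutative algebra of level raising

Facts about finite `ℤ`-modules with a commutative ring of operators and a maximal ideal `m` of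
residue characteristic `p`: elements killing a module not supported at `m`, the criterion showing
that the kernel of `j` is supported at `m` when, modulo `p`, `i` is injective, `j` is surjective and
`j ∘ i` has a kernel at `m`; and integrality of eigenvalues.
-/

namespace Fermat.Agent.Ihara

/-- Commuting elements define a homomorphism from the polynomial ring. -/
theorem exists_polyHom_of_commute {ι E : Type*} [Ring E] (f : ι → E)
    (hf : ∀ a b, Commute (f a) (f b)) :
    ∃ ρ : MvPolynomial ι ℤ →+* E, ∀ a, ρ (MvPolynomial.X a) = f a := by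
  let s : Set E := Set.range f
  have hs : ∀ a ∈ s, ∀ b ∈ s, a * b = b * a := by
    rintro _ ⟨a, rfl⟩ _ ⟨b, rfl⟩
    exact hf a b
  let : CommRing (Subring.closure s) :=
    haveI := Subring.isMulCommutative_closure hs; open scoped IsMulCommutative in inferInstance
  refine ⟨(Subring.closure s).subtype.comp (MvPolynomial.eval₂Hom (Int.castRingHom _)
    fun a => ⟨f a, Subring.subset_closure ⟨a, rfl⟩⟩), fun a => ?_⟩
  simp

variable {R : Type*} [CommRing R]

/-- A finite module without vectors killed by `m` is killed by an element outside `m`. -/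
theorem exists_killer (m : Ideal R) [hm : m.IsPrime] {W : Type*} [AddCommGroup W] [Module R W]
    [Finite W] (h : ∀ w : W, (∀ r ∈ m, r • w = 0) → w = 0) :
    ∃ t : R, t ∉ m ∧ ∀ w : W, t • w = 0 := by
  classical
  cases nonempty_fintype W
  have : Finite (Submodule R W) := Finite.of_injective _ SetLike.coe_injective
  suffices hw : ∀ w : W, ∃ t, t ∉ m ∧ t • w = 0 by
    choose t ht htw using hw
    refine ⟨∏ w, t w, fun hmem => ?_, fun w => ?_⟩
    · obtain ⟨w, -, hw⟩ := hm.prod_mem_iff.mp hmem
      exact ht w hw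
    · rw [← Finset.prod_erase_mul _ _ (Finset.mem_univ w), mul_smul, htw, smul_zero]
  intro w
  -- induction on the cyclic submodule spanned by `w`
  induction hV : Submodule.span R {w} using WellFoundedLT.induction generalizing w with
  | ind V ih =>
  subst hV
  by_contra hno
  push Not at hno
  choose t ht htz using fun z : {z : W // Submodule.span R {z} < Submodule.span R {w}} =>
    ih _ z.2 z.1 rfl
  refine hno (∏ z, t z) (fun hmem => ?_) (h _ fun r hr => ?_)
  · obtain ⟨z, -, hz⟩ := hm.prod_mem_iff.mp hmem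
    exact ht z hz
  have hlt : Submodule.span R {r • w} < Submodule.span R {w} := by
    refine lt_of_le_of_ne (Submodule.span_singleton_smul_le R r w) fun heq => ?_
    obtain ⟨s, hs⟩ := Submodule.mem_span_singleton.mp (heq.ge (Submodule.mem_span_singleton_self w))
    refine hno (1 - s * r) (fun hmem => hm.ne_top ((Ideal.eq_top_iff_one m).mpr ?_)) ?_
    · simpa using m.add_mem hmem (m.mul_mem_left s hr)
    · rw [sub_smul, one_smul, mul_smul, hs, sub_self]
  rw [smul_comm, ← Finset.prod_erase_mul _ _ (Finset.mem_univ ⟨r • w, hlt⟩), mul_smul,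
    htz ⟨r • w, hlt⟩, smul_zero]

/-- If `t ∉ m` maps `M` into `p M` then something outside `m` kills `M` (determinant trick). -/
theorem exists_killer_of_range (m : Ideal R) [hm : m.IsPrime] {p : ℕ} (hp : (p : R) ∈ m)
    {M : Type*} [AddCommGroup M] [Module R M] [Module.Finite ℤ M] {t : R} (ht : t ∉ m)
    (hM : ∀ x : M, ∃ z : M, t • x = (p : R) • z) :
    ∃ t' : R, t' ∉ m ∧ ∀ x : M, t' • x = 0 := by
  let φ : R →+* Module.End ℤ M :=
    { toFun := fun r =>
        { toFun := fun x => r • x
          map_add' := smul_add r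
          map_smul' := fun c x => smul_comm r c x }
      map_one' := LinearMap.ext (one_smul R)
      map_mul' := fun a b => LinearMap.ext (mul_smul a b)
      map_zero' := LinearMap.ext (zero_smul R)
      map_add' := fun a b => LinearMap.ext (add_smul a b) }
  have hr : LinearMap.range (φ t) ≤ Ideal.span {(p : ℤ)} • (⊤ : Submodule ℤ M) := by
    rintro _ ⟨x, rfl⟩
    obtain ⟨z, hz⟩ := hM x
    show t • x ∈ _
    rw [hz, Nat.cast_smul_eq_nsmul, ← natCast_zsmul]
    exact Submodule.smul_mem_smul (Ideal.mem_span_singleton_self _) trivial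
  obtain ⟨P, hmon, -, hcoef, hP⟩ :=
    LinearMap.exists_monic_and_natDegree_eq_and_coeff_mem_pow_and_aeval_eq_zero ℤ (φ t) _ hr
  refine ⟨Polynomial.eval₂ (Int.castRingHom R) t P, fun hmem => ht ?_, fun x => ?_⟩
  · rw [Polynomial.eval₂_eq_sum_range, Finset.sum_range_succ, hmon.coeff_natDegree, map_one,
      one_mul] at hmem
    refine hm.mem_of_pow_mem P.natDegree ?_
    refine (m.add_mem_iff_right (m.sum_mem fun k hk => m.mul_mem_right _ ?_)).mp hmem
    have hk' := Finset.mem_range.mp hk
    obtain ⟨c, hc⟩ := Ideal.mem_span_singleton.mp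
      (Ideal.pow_le_self (Nat.sub_ne_zero_of_lt hk') (hcoef k))
    rw [hc, map_mul, eq_intCast, Int.cast_natCast]
    exact m.mul_mem_right _ hp
  · have hev : φ (Polynomial.eval₂ (Int.castRingHom R) t P) = Polynomial.aeval (φ t) P := by
      rw [Polynomial.hom_eval₂, Polynomial.aeval_def]
      congr 1
      exact RingHom.ext_int _ _
    exact LinearMap.congr_fun (hev.trans hP) x

/-- The level raising argument: if modulo `p` the degeneracy map `i` has no kernel at `m`, its
adjoint `j` is surjective at `m`, and `j ∘ i` has kernel at `m`, then `ker j` is supported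
at `m`. -/
theorem ker_supported_of_congruence (m : Ideal R) [hm : m.IsMaximal] {p : ℕ} (hp : (p : R) ∈ m)
    {L L' : Type*} [AddCommGroup L] [Module R L] [Module.Finite ℤ L] [AddCommGroup L'] [Module R L']
    (i : L →ₗ[R] L') (j : L' →ₗ[R] L)
    (hihara : ∀ w : L, (∀ r ∈ m, ∃ z, r • w = (p : R) • z) → (∃ x, i w = (p : R) • x) →
      ∃ z, w = (p : R) • z)
    (hcok : ∃ t : R, t ∉ m ∧ ∀ y : L, ∃ x z, t • y = j x + (p : R) • z)
    (v : L) (hv : ¬ ∃ z, v = (p : R) • z) (hmv : ∀ r ∈ m, ∃ z, r • v = (p : R) • z)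
    (hjiv : ∃ y, j (i v) = (p : R) • y) {s : R} (hs : s ∉ m) :
    ∃ x : L', j x = 0 ∧ s • x ≠ 0 := by
  by_contra hK
  push Not at hK
  obtain ⟨t, ht, htM⟩ := hcok
  have : Module.Finite ℤ (L ⧸ LinearMap.range j) :=
    Module.Finite.quotient ℤ (LinearMap.range j)
  obtain ⟨t', ht', ht'M⟩ := exists_killer_of_range m hp (M := L ⧸ LinearMap.range j) ht (fun y => by
    obtain ⟨y, rfl⟩ := Submodule.mkQ_surjective _ y
    obtain ⟨x, z, hxz⟩ := htM y
    refine ⟨(LinearMap.range j).mkQ z, ?_⟩
    rw [← map_smul, ← map_smul, hxz, map_add,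
      show (LinearMap.range j).mkQ (j x) = 0 from
        (Submodule.Quotient.mk_eq_zero _).mpr ⟨x, rfl⟩, zero_add])
  obtain ⟨y, hy⟩ := hjiv
  have hy' : t' • y ∈ LinearMap.range j := by
    rw [← Submodule.Quotient.mk_eq_zero, Submodule.Quotient.mk_smul]
    exact ht'M _
  obtain ⟨x', hx'⟩ := hy'
  have h0 := hK (t' • i v - (p : R) • x') (by
    rw [map_sub, map_smul, map_smul, hy, hx', smul_comm, sub_self])
  have hu : s * t' ∉ m := fun h => (hm.isPrime.mem_or_mem h).elim hs ht'
  obtain ⟨z, hz⟩ := hihara ((s * t') • v)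
    (fun r hr => by
      obtain ⟨z, hz⟩ := hmv r hr
      exact ⟨(s * t') • z, by rw [smul_comm, hz, smul_comm]⟩)
    ⟨s • x', by
      rw [map_smul, mul_smul, ← sub_eq_zero, smul_comm (p : R), ← smul_sub]
      exact h0⟩
  obtain ⟨a, μ, hμ, haμ⟩ := hm.exists_inv hu
  obtain ⟨z', hz'⟩ := hmv μ hμ
  exact hv ⟨a • z + z', by
    rw [smul_add, smul_comm, ← hz, ← hz', ← mul_smul, ← add_smul, haμ, one_smul]⟩

/-- Eigenvalues on the span of a stable lattice are integral. -/
theorem isIntegral_eigenvalue {L : Type*} [AddCommGroup L] [Module.Finite ℤ L]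
    {K V : Type*} [Field K] [AddCommGroup V] [Module K V] (e : L →+ V)
    (he : Submodule.span K (Set.range e) = ⊤) (T : L →ₗ[ℤ] L) (T' : V →ₗ[K] V)
    (hT : ∀ x, e (T x) = T' (e x)) {c : K} {v : V} (hv : v ≠ 0) (hc : T' v = c • v) :
    IsIntegral ℤ c := by
  obtain ⟨P, hmon, hP⟩ := Algebra.IsIntegral.isIntegral (R := ℤ) T
  refine ⟨P, hmon, ?_⟩
  have hpow : ∀ (n : ℕ) x, e ((T ^ n) x) = (T' ^ n) (e x) := by
    intro n
    induction n with
    | zero => intro x; simp
    | succ n ih =>
      intro x
      rw [pow_succ, pow_succ, Module.End.mul_apply, Module.End.mul_apply, ih, hT]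
  have hzero : Polynomial.aeval T' P = 0 := by
    refine LinearMap.ext_on_range he fun x => ?_
    have h1 : e ((Polynomial.aeval T P) x) = (Polynomial.aeval T' P) (e x) := by
      rw [Polynomial.aeval_eq_sum_range, Polynomial.aeval_eq_sum_range]
      simp [map_sum, hpow]
    rw [← h1, show Polynomial.aeval T P = 0 from hP]
    simp
  have hvc : (Polynomial.aeval T' P) v = (Polynomial.aeval c P) • v := by
    have hpowv : ∀ n : ℕ, (T' ^ n) v = c ^ n • v := by
      intro n
      induction n with
      | zero => simp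
      | succ n ih =>
        rw [pow_succ, Module.End.mul_apply, hc, map_smul, ih, smul_smul, mul_comm, pow_succ]
    rw [Polynomial.aeval_eq_sum_range, Polynomial.aeval_eq_sum_range, Finset.sum_smul,
      LinearMap.sum_apply]
    refine Finset.sum_congr rfl fun n _ => ?_
    rw [LinearMap.smul_apply, hpowv, smul_assoc]
  rw [hzero, LinearMap.zero_apply] at hvc
  exact (smul_eq_zero.mp hvc.symm).resolve_right hv

end Fermat.Agent.Ihara
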