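import Mathlib.RingTheory.Ideal.GoingUp
import Fermat.Agent.Ihara.LatticeAlgebra
import Fermat.Agent.Ihara.RaiseAdjoint
import Fermat.Agent.Ihara.RaiseForms

/-!
# Polynomial Hecke action on cuspidal characters

Commuting Hecke operators at a set `S` of primes turn `Hom_cl(Γ₀(M), k)` into a module over the
polynomial ring `HeckePoly S`. This file provides the action, its compatibility with linear maps
commuting with the generators, and the wrappers of the lattice algebra used by level raising.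
-/

noncomputable section

namespace Fermat.Agent.Ihara

open scoped MatrixGroups
open CongruenceSubgroup Fermat.Agent.Grp

/-- A set of primes seen as index type of Hecke operators. -/
structure HeckeIdx (S : Set ℕ) where
  /-- The prime, as a natural number. -/
  val : ℕ
  mem : val ∈ S
  prime : val.Prime

variable {S : Set ℕ}

instance (a : HeckeIdx S) : NeZero a.val := ⟨a.prime.ne_zero⟩

/-- The Hecke operator of an index. -/
abbrev opAt (k : Type) [CommRing k] (M : ℕ) [NeZero M] (a : HeckeIdx S) : Module.End k (clH k M) :=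
  clT k M a.val

/-- The polynomial ring in the Hecke operators of `S`. -/
abbrev HeckePoly (S : Set ℕ) : Type := MvPolynomial (HeckeIdx S) ℤ

theorem exists_polyEnd {ι k V : Type*} [CommRing k] [AddCommGroup V] [Module k V]
    (f : ι → Module.End k V) (h : ∀ a b x, f a (f b x) = f b (f a x)) :
    ∃ ρ : MvPolynomial ι ℤ →+* Module.End k V, ∀ a, ρ (MvPolynomial.X a) = f a :=
  exists_polyHom_of_commute f fun a b => LinearMap.ext (h a b)

/-- Commuting Hecke operators give an action of the polynomial Hecke ring. -/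
theorem exists_act (k : Type) [CommRing k] (M : ℕ) [NeZero M] (S : Set ℕ)
    (h : ∀ (a b : HeckeIdx S) (x : clH k M),
      opAt k M a (opAt k M b x) = opAt k M b (opAt k M a x)) :
    ∃ ρ : HeckePoly S →+* Module.End k (clH k M), ∀ a, ρ (MvPolynomial.X a) = opAt k M a :=
  exists_polyEnd (V := clH k M) (fun a : HeckeIdx S => opAt k M a) h

/-- A polynomial action by generators acting as scalars is by the evaluated scalar. -/
theorem act_eq_smul {ι k : Type*} [CommRing k] {V : Type*} [AddCommGroup V] [Module k V]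
    (ρ : MvPolynomial ι ℤ →+* Module.End k V) (θ : MvPolynomial ι ℤ →+* k) (v : V)
    (h : ∀ a, ρ (MvPolynomial.X a) v = θ (MvPolynomial.X a) • v) (t : MvPolynomial ι ℤ) :
    ρ t v = θ t • v := by
  induction t using MvPolynomial.induction_on with
  | C n => rw [eq_intCast MvPolynomial.C, map_intCast, map_intCast, Module.End.intCast_apply,
      Int.cast_smul_eq_zsmul]
  | add a b ha hb => rw [map_add, map_add, LinearMap.add_apply, ha, hb, add_smul]
  | mul_X a i ha =>
    rw [map_mul, map_mul, Module.End.mul_apply, h, map_smul, ha, smul_smul, mul_comm]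

/-- A vector killed by the kernel of `θ` is an eigenvector. -/
theorem eigen_of_killed {ι k V : Type*} [CommRing k] [AddCommGroup V] [Module k V]
    (ρ : MvPolynomial ι ℤ →+* Module.End k V) (θ : MvPolynomial ι ℤ →+* k) (w : V)
    (hw : ∀ r ∈ RingHom.ker θ, ρ r w = 0) (a : ι) (n : ℤ) (hn : θ (MvPolynomial.X a) = (n : k)) :
    ρ (MvPolynomial.X a) w = (n : k) • w := by
  have h := hw (MvPolynomial.X a - (n : MvPolynomial ι ℤ)) (by simp [RingHom.mem_ker, hn])
  rw [map_sub, map_intCast, LinearMap.sub_apply, sub_eq_zero, Module.End.intCast_apply,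
    ← Int.cast_smul_eq_zsmul k] at h
  exact h

/-- Intertwining with a map to pairs. -/
theorem act_prod {ι k : Type*} [CommRing k] {V W₁ W₂ : Type*} [AddCommGroup V] [Module k V]
    [AddCommGroup W₁] [Module k W₁] [AddCommGroup W₂] [Module k W₂]
    (ρ : MvPolynomial ι ℤ →+* Module.End k V) (ρ₁ : MvPolynomial ι ℤ →+* Module.End k W₁)
    (ρ₂ : MvPolynomial ι ℤ →+* Module.End k W₂) (e : V →ₗ[k] W₁ × W₂)
    (h : ∀ a x, e (ρ (MvPolynomial.X a) x) =
      (ρ₁ (MvPolynomial.X a) (e x).1, ρ₂ (MvPolynomial.X a) (e x).2))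
    (t : MvPolynomial ι ℤ) (x : V) : e (ρ t x) = (ρ₁ t (e x).1, ρ₂ t (e x).2) :=
  Prod.ext
    (polyAct_intertwine ρ ρ₁ ((LinearMap.fst k W₁ W₂).comp e).toAddMonoidHom
      (fun a x => congrArg Prod.fst (h a x)) t x)
    (polyAct_intertwine ρ ρ₂ ((LinearMap.snd k W₁ W₂).comp e).toAddMonoidHom
      (fun a x => congrArg Prod.snd (h a x)) t x)

/-- Intertwining out of pairs. -/
theorem act_of_prod {ι k : Type*} [CommRing k] {V W₁ W₂ : Type*} [AddCommGroup V] [Module k V]
    [AddCommGroup W₁] [Module k W₁] [AddCommGroup W₂] [Module k W₂]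
    (ρ : MvPolynomial ι ℤ →+* Module.End k V) (ρ₁ : MvPolynomial ι ℤ →+* Module.End k W₁)
    (ρ₂ : MvPolynomial ι ℤ →+* Module.End k W₂) (e : W₁ × W₂ →ₗ[k] V)
    (h : ∀ a x, ρ (MvPolynomial.X a) (e x) =
      e (ρ₁ (MvPolynomial.X a) x.1, ρ₂ (MvPolynomial.X a) x.2))
    (t : MvPolynomial ι ℤ) (x : W₁ × W₂) : ρ t (e x) = e (ρ₁ t x.1, ρ₂ t x.2) := by
  obtain ⟨x, y⟩ := x
  have h1 : ρ t (e (x, 0)) = e (ρ₁ t x, 0) :=
    (polyAct_intertwine ρ₁ ρ (e.comp (LinearMap.inl k W₁ W₂)).toAddMonoidHom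
      (fun a z => by
        show e (ρ₁ (MvPolynomial.X a) z, 0) = ρ (MvPolynomial.X a) (e (z, 0))
        rw [h, map_zero]) t x).symm
  have h2 : ρ t (e (0, y)) = e (0, ρ₂ t y) :=
    (polyAct_intertwine ρ₂ ρ (e.comp (LinearMap.inr k W₁ W₂)).toAddMonoidHom
      (fun a z => by
        show e (0, ρ₂ (MvPolynomial.X a) z) = ρ (MvPolynomial.X a) (e (0, z))
        rw [h, map_zero]) t y).symm
  have hx : (x, y) = (x, (0 : W₂)) + ((0 : W₁), y) := by simp
  rw [hx, map_add, map_add, h1, h2, ← map_add, Prod.mk_add_mk, add_zero, zero_add]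
  simp

/-- Polynomials in self-adjoint operators are self-adjoint. -/
theorem act_adjoint {ι k : Type*} [CommRing k] {V : Type*} [AddCommGroup V] [Module k V]
    (B : V →ₗ[k] V →ₗ[k] k) (ρ : MvPolynomial ι ℤ →+* Module.End k V)
    (h : ∀ a x y, B (ρ (MvPolynomial.X a) x) y = B x (ρ (MvPolynomial.X a) y))
    (t : MvPolynomial ι ℤ) (x y : V) : B (ρ t x) y = B x (ρ t y) := by
  induction t using MvPolynomial.induction_on generalizing x y with
  | C n => rw [eq_intCast MvPolynomial.C, map_intCast, Module.End.intCast_apply,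
      Module.End.intCast_apply, map_zsmul, map_zsmul, LinearMap.smul_apply]
  | add a b ha hb => rw [map_add, LinearMap.add_apply, LinearMap.add_apply, map_add, map_add,
      LinearMap.add_apply, ha, hb]
  | mul_X a i ha =>
    have hc : ρ a * ρ (MvPolynomial.X i) = ρ (MvPolynomial.X i) * ρ a := by
      rw [← map_mul, ← map_mul, mul_comm]
    conv_rhs => rw [map_mul, hc]
    rw [map_mul, Module.End.mul_apply, Module.End.mul_apply, ha, h]

/-! ### Wrappers -/

/-- Forget the scalars of an endomorphism. -/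
def endForget (k V : Type*) [CommRing k] [AddCommGroup V] [Module k V] :
    Module.End k V →+* AddMonoid.End V where
  toFun f := f.toAddMonoidHom
  map_one' := rfl
  map_mul' _ _ := rfl
  map_zero' := rfl
  map_add' _ _ := rfl

/-- The diagonal action on pairs. -/
def pairAct {R k V : Type*} [CommRing R] [CommRing k] [AddCommGroup V] [Module k V]
    (ρ : R →+* Module.End k V) : R →+* AddMonoid.End (V × V) where
  toFun r := ((ρ r).prodMap (ρ r)).toAddMonoidHom
  map_one' := AddMonoidHom.ext fun x => by show (ρ 1 x.1, ρ 1 x.2) = x; rw [map_one]; rfl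
  map_mul' r s := AddMonoidHom.ext fun x => by
    show (ρ (r * s) x.1, ρ (r * s) x.2) = (ρ r (ρ s x.1), ρ r (ρ s x.2))
    rw [map_mul]; rfl
  map_zero' := AddMonoidHom.ext fun x => by show (ρ 0 x.1, ρ 0 x.2) = 0; rw [map_zero]; rfl
  map_add' r s := AddMonoidHom.ext fun x => by
    show (ρ (r + s) x.1, ρ (r + s) x.2) = (ρ r x.1, ρ r x.2) + (ρ s x.1, ρ s x.2)
    rw [map_add]; rfl

/-- `exists_killer` for an action given by a homomorphism, on a stable subgroup. -/
theorem exists_killer_act {R V : Type*} [CommRing R] (m : Ideal R) [m.IsPrime] [AddCommGroup V]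
    [Finite V] (ρ : R →+* AddMonoid.End V) (A : AddSubgroup V) (hA : ∀ r, ∀ w ∈ A, ρ r w ∈ A)
    (h : ∀ w ∈ A, (∀ r ∈ m, ρ r w = 0) → w = 0) :
    ∃ t ∉ m, ∀ w ∈ A, ρ t w = 0 := by
  let : Module R V := Module.compHom V ρ
  let A' : Submodule R V := { A with smul_mem' := fun r w hw => hA r w hw }
  obtain ⟨t, ht, htA⟩ := exists_killer (W := A') m fun w hw =>
    Subtype.ext (h w.1 w.2 fun r hr => congrArg Subtype.val (hw r hr))
  exact ⟨t, ht, fun w hw => congrArg Subtype.val (htA ⟨w, hw⟩)⟩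

/-- `exists_killer_act` on the kernel of a map out of pairs. -/
theorem exists_killer_ker {R k V W : Type*} [CommRing R] [CommRing k] (m : Ideal R) [m.IsPrime]
    [AddCommGroup V] [Module k V] [Finite V] [AddCommGroup W] [Module k W]
    (ρ : R →+* Module.End k V) (e : V × V →ₗ[k] W)
    (hst : ∀ r w, e w = 0 → e (ρ r w.1, ρ r w.2) = 0)
    (h : ∀ w, e w = 0 → (∀ r ∈ m, ρ r w.1 = 0 ∧ ρ r w.2 = 0) → w = 0) :
    ∃ t ∉ m, ∀ w, e w = 0 → ρ t w.1 = 0 ∧ ρ t w.2 = 0 := by
  obtain ⟨t, ht, htA⟩ := exists_killer_act m (pairAct ρ) (LinearMap.ker e).toAddSubgroup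
    (fun r w hw => hst r w hw)
    (fun w hw hm => h w hw fun r hr =>
      ⟨congrArg Prod.fst (hm r hr), congrArg Prod.snd (hm r hr)⟩)
  exact ⟨t, ht, fun w hw => ⟨congrArg Prod.fst (htA w hw), congrArg Prod.snd (htA w hw)⟩⟩

/-- `exists_killer_act` on everything. -/
theorem exists_killer_end {R k V : Type*} [CommRing R] [CommRing k] (m : Ideal R) [m.IsPrime]
    [AddCommGroup V] [Module k V] [Finite V] (ρ : R →+* Module.End k V)
    (h : ∀ w, (∀ r ∈ m, ρ r w = 0) → w = 0) : ∃ t ∉ m, ∀ w, ρ t w = 0 := by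
  obtain ⟨t, ht, htA⟩ := exists_killer_act m ((endForget k V).comp ρ) ⊤ (fun _ _ _ => trivial)
    (fun w _ hw => h w hw)
  exact ⟨t, ht, fun w => htA w trivial⟩

/-- `exists_killer_of_range` for an action given by a homomorphism. -/
theorem exists_killer_of_range_act {R M : Type*} [CommRing R] (m : Ideal R) [m.IsPrime] {p : ℕ}
    (hp : (p : R) ∈ m) [AddCommGroup M] [Module.Finite ℤ M] (ρ : R →+* AddMonoid.End M) {t : R}
    (ht : t ∉ m) (hM : ∀ x, ∃ z, ρ t x = p • z) :
    ∃ t' ∉ m, ∀ x, ρ t' x = 0 := by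
  let : Module R M := Module.compHom M ρ
  exact exists_killer_of_range m hp (M := M) ht fun x => by
    obtain ⟨z, hz⟩ := hM x
    exact ⟨z, by rw [Nat.cast_smul_eq_nsmul]; exact hz⟩

/-- `ker_supported_of_congruence` for actions given by homomorphisms. -/
theorem ker_supported_act {R L L' : Type*} [CommRing R] (m : Ideal R) [m.IsMaximal] {p : ℕ}
    (hp : (p : R) ∈ m) [AddCommGroup L] [Module.Finite ℤ L] [AddCommGroup L']
    (ρ : R →+* AddMonoid.End L) (ρ' : R →+* AddMonoid.End L')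
    (i : L →+ L') (j : L' →+ L) (hi : ∀ r x, i (ρ r x) = ρ' r (i x))
    (hj : ∀ r x, j (ρ' r x) = ρ r (j x))
    (hihara : ∀ w, (∀ r ∈ m, ∃ z, ρ r w = p • z) → (∃ x, i w = p • x) → ∃ z, w = p • z)
    (hcok : ∃ t : R, t ∉ m ∧ ∀ y, ∃ x z, ρ t y = j x + p • z)
    (v : L) (hv : ¬ ∃ z, v = p • z) (hmv : ∀ r ∈ m, ∃ z, ρ r v = p • z)
    (hjiv : ∃ y, j (i v) = p • y) {s : R} (hs : s ∉ m) :
    ∃ x, j x = 0 ∧ ρ' s x ≠ 0 := by
  let : Module R L := Module.compHom L ρ
  let : Module R L' := Module.compHom L' ρ'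
  let iR : L →ₗ[R] L' := { i with map_smul' := hi }
  let jR : L' →ₗ[R] L := { j with map_smul' := hj }
  have hn : ∀ {a z : L}, a = p • z ↔ a = (p : R) • z := by
    intro a z; rw [Nat.cast_smul_eq_nsmul]
  have hn' : ∀ {a z : L'}, a = p • z ↔ a = (p : R) • z := by
    intro a z; rw [Nat.cast_smul_eq_nsmul]
  obtain ⟨t, ht, htc⟩ := hcok
  obtain ⟨y, hy⟩ := hjiv
  refine ker_supported_of_congruence m hp iR jR ?_ ⟨t, ht, fun y => ?_⟩ v
    (fun ⟨z, hz⟩ => hv ⟨z, hn.mpr hz⟩) ?_ ⟨y, hn.mp hy⟩ hs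
  · rintro w hw ⟨x, hx⟩
    obtain ⟨z, hz⟩ := hihara w (fun r hr => (hw r hr).imp fun z hz => hn.mpr hz) ⟨x, hn'.mpr hx⟩
    exact ⟨z, hn.mp hz⟩
  · obtain ⟨x, z, h⟩ := htc y
    exact ⟨x, z, by rw [Nat.cast_smul_eq_nsmul]; exact h⟩
  · exact fun r hr => (hmv r hr).imp fun z hz => hn.mp hz

/-- An integral character congruent to a prescribed one mod `p` gives a maximal ideal of the
algebraic integers. -/
theorem exists_ideal_of_char {R : Type*} [CommRing R] (χ : R →+* integralClosure ℤ ℂ) {p : ℕ}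
    (θ : R →+* ZMod p) [Fact p.Prime] (h : RingHom.ker χ ≤ RingHom.ker θ) :
    ∃ Q : Ideal (integralClosure ℤ ℂ), Q.IsMaximal ∧ (p : integralClosure ℤ ℂ) ∈ Q ∧
      ∀ (r : R) (n : ℤ), θ r = n → χ r - n ∈ Q := by
  let : Algebra R (integralClosure ℤ ℂ) := χ.toAlgebra
  have : IsScalarTower ℤ R (integralClosure ℤ ℂ) :=
    IsScalarTower.of_algebraMap_eq' (RingHom.ext_int _ _)
  have : Algebra.IsIntegral R (integralClosure ℤ ℂ) :=
    ⟨fun x => (Algebra.IsIntegral.isIntegral (R := ℤ) x).tower_top⟩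
  have : (RingHom.ker θ).IsMaximal :=
    RingHom.ker_isMaximal_of_surjective θ (ZMod.ringHom_surjective θ)
  obtain ⟨Q, hQ, hQc⟩ :=
    Ideal.exists_ideal_over_maximal_of_isIntegral (S := integralClosure ℤ ℂ) (RingHom.ker θ) h
  have hmem : ∀ r, θ r = 0 → χ r ∈ Q := fun r hr => by
    have : r ∈ Q.comap (algebraMap R (integralClosure ℤ ℂ)) := hQc.symm ▸ RingHom.mem_ker.mpr hr
    exact this
  refine ⟨Q, hQ, ?_, fun r n hr => ?_⟩
  · simpa using hmem (p : R) (by simp)
  · simpa using hmem (r - n) (by simp [hr])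

end Fermat.Agent.Ihara
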