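import Mathlib.Algebra.Field.ZMod
import Mathlib.Algebra.Module.ZMod
import Fermat.Agent.Ihara.IharaEigen
import Fermat.Agent.Ihara.RaiseAct

/-!
# Level raising: the mod `p` inputs

Over `ZMod p`: Ihara's lemma says the sum of the degeneracy maps is injective at a non-Eisenstein
system, duality then gives surjectivity of the pair of transfers, and an eigenform congruent to an
integral system gives an eigenvector mod `p`.
-/

noncomputable section

namespace Fermat.Agent.Ihara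

open scoped MatrixGroups
open CongruenceSubgroup Fermat.Agent.Grp Fermat.Agent.Hecke

variable {S : Set ℕ} {N q : ℕ} [NeZero N] [NeZero q]

/-- The sum of the degeneracy maps is equivariant for the polynomial Hecke action. -/
theorem clI_act {k : Type} [CommRing k] (hN : ∀ a : HeckeIdx S, ¬ a.val ∣ N)
    (hq : ∀ a : HeckeIdx S, ¬ a.val ∣ q)
    (ρ : HeckePoly S →+* Module.End k (clH k N))
    (hρ : ∀ a, ρ (MvPolynomial.X a) = opAt k N a)
    (ρ' : HeckePoly S →+* Module.End k (clH k (N * q)))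
    (hρ' : ∀ a, ρ' (MvPolynomial.X a) = opAt k (N * q) a) (t : HeckePoly S)
    (x : clH k N × clH k N) : ρ' t (clI k N q x) = clI k N q (ρ t x.1, ρ t x.2) :=
  act_of_prod (W₁ := clH k N) (W₂ := clH k N) (V := clH k (N * q)) ρ' ρ ρ (clI k N q)
    (fun a x => by rw [hρ', hρ]; exact clT_clI a.prime (hN a) (hq a) x) t x

/-- **Ihara's lemma**: the kernel of the two degeneracy maps has no non-Eisenstein eigenvector. -/
theorem ihara_eigen_eq_zero {k : Type} [Field k] (hq : q.Prime) (hqN : ¬ q ∣ N) (c : ℕ → k)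
    {ℓ : ℕ} [NeZero ℓ] (hℓ : ℓ.Prime) (hℓN : ¬ ℓ ∣ N) (hℓq : q ≠ ℓ)
    (hexp : ¬ (ℓ : ℤ) ∣ (q : ℤ) ^ (4 * N ^ 2) - 1) (h1 : c ℓ ≠ (ℓ : k) + 1)
    (h2 : c ℓ ≠ -((ℓ : k) + 1)) {w : clH k N × clH k N}
    (hT : clT k N ℓ w.1 = c ℓ • w.1) (hw : clI k N q w = 0) : w = 0 := by
  have hker : ∀ γ : lowerSub N q, (w.1 : Additive (Gamma0 N) →+ k) (Additive.ofMul γ.1) +
      (w.2 : Additive (Gamma0 N) →+ k) (Additive.ofMul (lowerConj N q γ)) = 0 := by
    intro γ
    let γ' : Gamma0 (N * q) := Subgroup.subgroupOfEquivOfLe (Gamma0_le_mul N q) γ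
    have h := DFunLike.congr_fun (congrArg Subtype.val hw) (Additive.ofMul γ')
    have e : betaHom N q γ' = lowerConj N q γ := by
      show lowerConj N q ((Subgroup.subgroupOfEquivOfLe (Gamma0_le_mul N q)).symm
        (Subgroup.subgroupOfEquivOfLe (Gamma0_le_mul N q) γ)) = _
      rw [MulEquiv.symm_apply_apply]
    rw [← e]
    exact h
  have hw1 : w.1 = 0 := by
    by_contra h0
    rcases eigenvalue_of_kernel hq hqN hℓ hℓN hℓq hexp (killsTrTwo_of_isClHom w.1.2) hker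
      (a := c ℓ) ((monoTransfer_eq_perTransfer hℓ hℓN _).trans (congrArg Subtype.val hT))
      (fun h => h0 (Subtype.ext h)) with h | h
    · exact h1 h
    · exact h2 h
  refine Prod.ext hw1 (Subtype.ext ?_)
  refine eq_zero_of_kernel_left hq hqN (killsTrTwo_of_isClHom w.2.2) fun γ => ?_
  have := hker γ
  rw [hw1] at this
  simpa using this

variable {p : ℕ} [hp : Fact p.Prime]

instance finite_clH (M : ℕ) [NeZero M] : Finite (clH (ZMod p) M) := by
  obtain ⟨e⟩ := nonempty_clHoms_equiv_pi (Gamma0 M) (neg_one_mem_Gamma0 M) (ZMod p) (ZMod p)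
  exact Finite.of_equiv _ e.symm.toEquiv

/-- Non-Eisenstein condition for a character of the Hecke ring. -/
def HasGoodPrime (N q : ℕ) (θ : HeckePoly S →+* ZMod p) : Prop :=
  ∃ a : HeckeIdx S, ¬ (a.val : ℤ) ∣ (q : ℤ) ^ (4 * N ^ 2) - 1 ∧
    θ (MvPolynomial.X a) ≠ (a.val : ZMod p) + 1 ∧ θ (MvPolynomial.X a) ≠ -((a.val : ZMod p) + 1)

/-- No kernel vector of `i` is killed by `ker θ`. -/
theorem ihara_modp (hq : q.Prime) (hqN : ¬ q ∣ N) (hN : ∀ a : HeckeIdx S, ¬ a.val ∣ N)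
    (hqS : ∀ a : HeckeIdx S, ¬ a.val ∣ q) (θ : HeckePoly S →+* ZMod p) (hgood : HasGoodPrime N q θ)
    (ρ : HeckePoly S →+* Module.End (ZMod p) (clH (ZMod p) N))
    (hρ : ∀ a, ρ (MvPolynomial.X a) = opAt (ZMod p) N a) {w : clH (ZMod p) N × clH (ZMod p) N}
    (hw : clI (ZMod p) N q w = 0) (hm : ∀ r ∈ RingHom.ker θ, ρ r w.1 = 0) : w = 0 := by
  obtain ⟨a, hexp, h1, h2⟩ := hgood
  refine ihara_eigen_eq_zero hq hqN (fun _ => θ (MvPolynomial.X a)) a.prime (hN a)
    (fun h => hqS a (h ▸ dvd_rfl)) hexp h1 h2 ?_ hw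
  obtain ⟨n, hn⟩ := ZMod.intCast_surjective (θ (MvPolynomial.X a))
  show clT (ZMod p) N a.val w.1 = θ (MvPolynomial.X a) • w.1
  rw [← hn, ← show ρ (MvPolynomial.X a) = clT (ZMod p) N a.val from hρ a]
  exact eigen_of_killed (V := clH (ZMod p) N) ρ θ w.1 hm a n hn.symm

/-- `j` is surjective at `θ`: some `t` with `θ t ≠ 0` maps every pair into its image. -/
theorem exists_clJ_surjective_modp
    {P : ∀ X : Lev, clHoms (ZMod p) X.grp (ZMod p) →ₗ[ZMod p]
      clHoms (ZMod p) X.grp (ZMod p) →ₗ[ZMod p] ZMod p}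
    (hP : IsPoincarePairing (ZMod p) P)
    (hq : q.Prime) (hqN : ¬ q ∣ N) (hN : ∀ a : HeckeIdx S, ¬ a.val ∣ N)
    (hqS : ∀ a : HeckeIdx S, ¬ a.val ∣ q) (θ : HeckePoly S →+* ZMod p) (hgood : HasGoodPrime N q θ)
    (ρ : HeckePoly S →+* Module.End (ZMod p) (clH (ZMod p) N))
    (hρ : ∀ a, ρ (MvPolynomial.X a) = opAt (ZMod p) N a)
    (ρ' : HeckePoly S →+* Module.End (ZMod p) (clH (ZMod p) (N * q)))
    (hρ' : ∀ a, ρ' (MvPolynomial.X a) = opAt (ZMod p) (N * q) a) :
    ∃ t ∉ RingHom.ker θ, ∀ y : clH (ZMod p) N × clH (ZMod p) N,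
      ∃ χ, clJ (ZMod p) N q χ = (ρ t y.1, ρ t y.2) := by
  have : (RingHom.ker θ).IsPrime := RingHom.ker_isPrime θ
  obtain ⟨t, ht, htA⟩ := exists_killer_ker (V := clH (ZMod p) N) (W := clH (ZMod p) (N * q))
    (RingHom.ker θ) ρ (clI (ZMod p) N q)
    (fun r w hw => by rw [← clI_act hN hqS ρ hρ ρ' hρ' r w, hw, map_zero])
    (fun w hw hm => ihara_modp hq hqN hN hqS θ hgood ρ hρ hw fun r hr => (hm r hr).1)
  refine ⟨t, ht, fun y => exists_clJ_eq hP (ρ t) (fun x z => ?_) htA y⟩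
  exact act_adjoint (V := clH (ZMod p) N) (pairAt P N) ρ
    (fun a x y => by rw [hρ]; exact pairAt_clT hP a.prime (hN a) x y) t x z

/-- A polynomial killed by an integral character is killed by a congruent mod `p` one. -/
theorem apply_eq_zero_of_congr {ι : Type*} {Q : Ideal (integralClosure ℤ ℂ)} [Q.IsMaximal]
    (hpQ : (p : integralClosure ℤ ℂ) ∈ Q) (θ : MvPolynomial ι ℤ →+* ZMod p)
    (χ : MvPolynomial ι ℤ →+* integralClosure ℤ ℂ)
    (h : ∀ a, ∃ n : ℤ, θ (MvPolynomial.X a) = n ∧ χ (MvPolynomial.X a) - n ∈ Q)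
    {t : MvPolynomial ι ℤ} (ht : χ t = 0) : θ t = 0 := by
  let R := integralClosure ℤ ℂ ⧸ Q
  have : CharP R p := ringChar.of_eq <| (CharP.ringChar_of_prime_eq_zero hp.out (by
    rw [← map_natCast (Ideal.Quotient.mk Q), Ideal.Quotient.eq_zero_iff_mem]; exact hpQ))
  have e : (ZMod.castHom dvd_rfl R).comp θ = (Ideal.Quotient.mk Q).comp χ :=
    MvPolynomial.ringHom_ext (fun z => by simp) fun a => by
      obtain ⟨n, hn, hnQ⟩ := h a
      rw [RingHom.comp_apply, RingHom.comp_apply, hn, map_intCast,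
        ← map_intCast (Ideal.Quotient.mk Q)]
      exact (Ideal.Quotient.eq.mpr hnQ).symm
  have := RingHom.congr_fun e t
  rw [RingHom.comp_apply, RingHom.comp_apply, ht, map_zero] at this
  exact (map_eq_zero_iff _ (ZMod.castHom_injective R)).mp this

/-- A complex eigenvector gives a mod `p` one for every congruent system. -/
theorem exists_eigen_modp {Q : Ideal (integralClosure ℤ ℂ)} [Q.IsMaximal]
    (hpQ : (p : integralClosure ℤ ℂ) ∈ Q) {φ₀ : clH ℂ N} (hφ₀ : φ₀ ≠ 0)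
    (c : HeckeIdx S → integralClosure ℤ ℂ) (hc : ∀ a, opAt ℂ N a φ₀ = (c a : ℂ) • φ₀)
    (n : HeckeIdx S → ℤ) (hn : ∀ a, c a - n a ∈ Q) :
    ∃ φ : clH (ZMod p) N, φ ≠ 0 ∧ ∀ a, opAt (ZMod p) N a φ = (n a : ZMod p) • φ := by
  obtain ⟨ρp, hρp⟩ := exists_act (ZMod p) N S fun a b x =>
    clT_comm_of_surjective ZMod.intCast_surjective a.prime b.prime x
  obtain ⟨ρz, hρz⟩ := exists_act ℤ N S fun a b x => clT_comm_int a.prime b.prime x
  obtain ⟨ρc, hρc⟩ := exists_act ℂ N S fun a b x => clT_comm_complex a.prime b.prime x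
  let θ : HeckePoly S →+* ZMod p :=
    MvPolynomial.eval₂Hom (Int.castRingHom (ZMod p)) fun a => (n a : ZMod p)
  by_contra hne
  push Not at hne
  have : (RingHom.ker θ).IsPrime := RingHom.ker_isPrime θ
  obtain ⟨t, ht, htA⟩ := exists_killer_end (V := clH (ZMod p) N) (RingHom.ker θ) ρp fun w hw => by
    by_contra hw0
    obtain ⟨a, ha⟩ := hne w (fun h => hw0 h)
    refine ha ?_
    rw [← hρp a]
    exact eigen_of_killed (V := clH (ZMod p) N) ρp θ w hw a (n a) (by simp [θ])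
  obtain ⟨t', ht', ht'A⟩ := exists_killer_of_range_act (RingHom.ker θ) (p := p)
    (by simp [RingHom.mem_ker]) ((endForget ℤ (clH ℤ N)).comp ρz) ht (fun x => by
      obtain ⟨ψ, hψ⟩ := exists_of_clMap_eq_zero hp.out.ne_zero (ρz t x) (by
        rw [polyAct_intertwine ρz ρp (clMap (Int.castRingHom (ZMod p)))
          (fun a y => by rw [hρz, hρp]; exact (clT_clMap _ y).symm) t x]
        exact htA _)
      exact ⟨ψ, by rw [← natCast_zsmul]; exact hψ⟩)
  have h0 : ρc t' φ₀ = 0 := by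
    suffices hall : ∀ x ∈ Submodule.span ℂ (Set.range (clMap (Γ := Gamma0 N) (Int.castRingHom ℂ))),
        ρc t' x = 0 from hall φ₀ (by rw [span_range_clMap (neg_one_mem_Gamma0 N)]; trivial)
    intro x hspan
    induction hspan using Submodule.span_induction with
    | mem x hx =>
      obtain ⟨y, rfl⟩ := hx
      rw [← polyAct_intertwine ρz ρc (clMap (Int.castRingHom ℂ))
        (fun a z => by rw [hρz, hρc]; exact (clT_clMap _ z).symm) t' y]
      exact (congrArg _ (ht'A y)).trans (map_zero _)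
    | zero => exact map_zero _
    | add x y _ _ hx hy => rw [map_add, hx, hy, add_zero]
    | smul r x _ hx => rw [map_smul, hx, smul_zero]
  let χ : HeckePoly S →+* integralClosure ℤ ℂ :=
    MvPolynomial.eval₂Hom (Int.castRingHom _) c
  let χC : HeckePoly S →+* ℂ := (algebraMap (integralClosure ℤ ℂ) ℂ).comp χ
  have h1 : ρc t' φ₀ = χC t' • φ₀ :=
    act_eq_smul ρc χC φ₀ (fun a => by rw [hρc, hc a]; simp [χC, χ]) t'
  have h2 : χC t' = 0 := (smul_eq_zero.mp (h1.symm.trans h0)).resolve_right hφ₀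
  have h3 : χ t' = 0 := Subtype.ext h2
  exact ht' (RingHom.mem_ker.mpr (apply_eq_zero_of_congr hpQ θ χ
    (fun a => ⟨n a, by simp [θ], by simpa [χ] using hn a⟩) h3))

end Fermat.Agent.Ihara
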