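import Fermat.Prelude.Def_EllipticCurve_FrobeniusTrace
import Fermat.Prelude.Def_FLTPrelim_Modularity
import Fermat.Prelude.Def_GaloisRep_ComplexConjugation
import Fermat.Agent.EC.DetCyclotomic
import Fermat.Agent.EC.TorsionGalois
import Fermat.Agent.EC.VarChange
import Fermat.Agent.Gal.Density
import Fermat.Agent.Gal.RepTwo

/-!
# Representations in which every element has an eigenvalue ±1

A two dimensional representation over a field of characteristic not 2 in which every element has an
eigenvalue `1` or `-1`, and which contains an involution of determinant `-1`, fixes a line. This is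
the group theoretic half of the Galois criterion used to choose auxiliary primes in level raising.
-/

noncomputable section

open Module WeierstrassCurve
open scoped WeierstrassCurve.Affine

namespace Fermat.Agent.Ihara

section Abstract

variable {k V : Type*} [Field k] [AddCommGroup V] [Module k V]

/-- Having an eigenvalue which squares to one. -/
def HasSignEigen (f : Module.End k V) : Prop :=
  ∃ ε : k, ε * ε = 1 ∧ ∃ v : V, v ≠ 0 ∧ f v = ε • v

theorem HasSignEigen.pow {f : Module.End k V} (h : HasSignEigen f) (n : ℕ) :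
    HasSignEigen (f ^ n) := by
  obtain ⟨ε, hε, v, hv, hfv⟩ := h
  refine ⟨ε ^ n, by rw [← mul_pow, hε, one_pow], v, hv, ?_⟩
  induction n with
  | zero => simp
  | succ n ih =>
    rw [pow_succ', Module.End.mul_apply, ih, map_smul, hfv, smul_smul, pow_succ]

/-- In dimension two an eigenvalue `±1` forces the trace to be `± (1 + det)`. -/
theorem HasSignEigen.trace_eq (hV : finrank k V = 2) {f : Module.End k V} (h : HasSignEigen f) :
    LinearMap.trace k V f = 1 + LinearMap.det f ∨
      LinearMap.trace k V f = -(1 + LinearMap.det f) := by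
  obtain ⟨ε, hε, v, hv, hfv⟩ := h
  have : Module.Finite k V := Module.finite_of_finrank_eq_succ hV
  have := congrArg (· v) (Gal.cayleyHamilton_two hV f)
  simp only [Module.End.mul_apply, hfv, map_smul, LinearMap.sub_apply, LinearMap.smul_apply,
    Module.End.one_apply, smul_smul, hε, ← sub_smul] at this
  have h1 : (LinearMap.trace k V f * ε - LinearMap.det f - 1) • v = 0 := by
    rw [sub_smul, ← this, sub_self]
  have h2 := (smul_eq_zero.mp h1).resolve_right hv
  rcases mul_self_eq_one_iff.mp hε with rfl | rfl
  · left; linear_combination h2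
  · right; linear_combination -h2

/-- A trace `ε (1 + det)` with `ε ^ 2 = 1` gives the eigenvalue `ε`. -/
theorem hasSignEigen_of_trace_eq (hV : finrank k V = 2) {f : Module.End k V} (ε : k)
    (hε : ε * ε = 1) (ht : LinearMap.trace k V f = ε * (1 + LinearMap.det f)) :
    HasSignEigen f := by
  have : Module.Finite k V := Module.finite_of_finrank_eq_succ hV
  refine ⟨ε, hε, ?_⟩
  by_contra hcon
  push Not at hcon
  set d := LinearMap.det f
  -- `(f - ε) (f - ε d) = 0`, so `f = ε d`
  have hf : ∀ w, f w = (ε * d) • w := fun w => by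
    have h := congrArg (· w) (Gal.cayleyHamilton_two hV f)
    simp only [Module.End.mul_apply, LinearMap.sub_apply, LinearMap.smul_apply,
      Module.End.one_apply, ht] at h
    by_contra hne
    refine hcon (f w - (ε * d) • w) (sub_ne_zero.mpr hne) ?_
    rw [map_sub, h, map_smul, smul_sub, smul_smul,
      show ε * (ε * d) = d by rw [← mul_assoc, hε, one_mul], mul_add, mul_one, add_smul]
    abel
  have hf' : f = (ε * d) • LinearMap.id := LinearMap.ext hf
  have ht' := ht
  rw [hf', map_smul, LinearMap.trace_id, hV] at ht'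
  have hd : ε * d = ε := by
    have : (ε * d) * 2 = ε * (1 + d) := by simpa [smul_eq_mul] using ht'
    linear_combination this
  obtain ⟨w, hw⟩ : ∃ w : V, w ≠ 0 := by
    have : Nontrivial V := Module.nontrivial_of_finrank_eq_succ hV
    exact exists_ne 0
  exact hcon w hw (by rw [hf w, hd])

/-- If the traces of `(a, x; y, d)` and of `(a, -x; y, -d)` are `±(1 + det)` then `x y = 0`. -/
theorem mul_eq_zero_of_trace_eq (h2 : (2 : k) ≠ 0) {a x y d : k}
    (h : a + d = 1 + (a * d - x * y) ∨ a + d = -(1 + (a * d - x * y)))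
    (h' : a - d = 1 - (a * d - x * y) ∨ a - d = -(1 - (a * d - x * y))) : x * y = 0 := by
  have h4 : (4 : k) ≠ 0 := by
    rw [show (4 : k) = 2 * 2 by norm_num]; exact mul_ne_zero h2 h2
  refine (mul_eq_zero.mp ?_).resolve_left h4
  rcases h with e | e <;> rcases h' with e' | e'
  · linear_combination (a + d + (1 + (a * d - x * y))) * e -
      (a - d + (1 - (a * d - x * y))) * e'
  · linear_combination (a + d + (1 + (a * d - x * y))) * e -
      (a - d - (1 - (a * d - x * y))) * e'
  · linear_combination (a + d - (1 + (a * d - x * y))) * e -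
      (a - d + (1 - (a * d - x * y))) * e'
  · linear_combination (a + d - (1 + (a * d - x * y))) * e -
      (a - d - (1 - (a * d - x * y))) * e'

variable {G : Type*} [Group G]

/-- The group criterion: traces `±(1 + det)` and an odd involution give a stable line. -/
theorem exists_stable_line (h2 : (2 : k) ≠ 0) (hV : finrank k V = 2) (ρ : G →* Module.End k V)
    (c : G) (hc : c * c = 1) (hdc : LinearMap.det (ρ c) = -1)
    (h : ∀ g, LinearMap.trace k V (ρ g) = 1 + LinearMap.det (ρ g) ∨
      LinearMap.trace k V (ρ g) = -(1 + LinearMap.det (ρ g))) :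
    ∃ v : V, v ≠ 0 ∧ ∀ g, ∃ a : k, ρ g v = a • v := by
  have : Module.Finite k V := Module.finite_of_finrank_eq_succ hV
  have hcc : ∀ v, ρ c (ρ c v) = v := fun v => by
    rw [← Module.End.mul_apply, ← map_mul, hc, map_one, Module.End.one_apply]
  have eig : ∀ ε : k, ε * ε = 1 → ∃ v, v ≠ 0 ∧ ρ c v = ε • v := fun ε hε => by
    by_contra hcon
    push Not at hcon
    have hall : ∀ w, ρ c w = -ε • w := fun w => by
      by_contra hne
      refine hcon (ρ c w + ε • w) (fun h0 => hne ?_) ?_
      · rw [neg_smul, ← add_eq_zero_iff_eq_neg]; exact h0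
      · rw [map_add, map_smul, hcc, smul_add, smul_smul, hε, one_smul, add_comm]
    rw [show ρ c = (-ε) • LinearMap.id from LinearMap.ext hall, LinearMap.det_smul, hV,
      LinearMap.det_id, mul_one, neg_sq, pow_two, hε] at hdc
    exact h2 (by linear_combination hdc)
  obtain ⟨e₁, he₁, hc₁⟩ := eig 1 (one_mul 1)
  obtain ⟨e₂, he₂, hc₂⟩ := eig (-1) (by ring)
  rw [one_smul] at hc₁
  rw [neg_one_smul] at hc₂
  have hli : LinearIndependent k ![e₁, e₂] := by
    rw [LinearIndependent.pair_iff]
    intro s t hst
    have h' := congrArg (ρ c) hst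
    rw [map_add, map_smul, map_smul, hc₁, hc₂, map_zero, smul_neg] at h'
    have hs : (2 * s) • e₁ = 0 := by
      rw [two_mul, add_smul]
      linear_combination (norm := abel) hst + h'
    have hs0 : s = 0 := by simpa [he₁, h2] using hs
    subst hs0
    simpa [he₂] using hst
  let b : Basis (Fin 2) k V := basisOfLinearIndependentOfCardEqFinrank hli (by simp [hV])
  have hb : ⇑b = ![e₁, e₂] := coe_basisOfLinearIndependentOfCardEqFinrank hli _
  let M : G → Matrix (Fin 2) (Fin 2) k := fun g => LinearMap.toMatrix b b (ρ g)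
  have hmul : ∀ g h, M (g * h) = M g * M h := fun g h => by
    simp only [M, map_mul]
    exact LinearMap.toMatrix_mul b _ _
  have hMc : M c = !![1, 0; 0, -1] := by
    have hcb0 : ρ c (b 0) = b 0 := by rw [hb]; exact hc₁
    have hcb1 : ρ c (b 1) = -b 1 := by rw [hb]; exact hc₂
    ext i j
    fin_cases j <;> fin_cases i <;> simp [M, LinearMap.toMatrix_apply, hcb0, hcb1]
  -- every element is triangular
  have key : ∀ g, M g 0 1 = 0 ∨ M g 1 0 = 0 := by
    intro g
    have hg := h g
    have hgc := h (g * c)
    simp only [LinearMap.trace_eq_matrix_trace k b, ← LinearMap.det_toMatrix b,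
      show ∀ g, LinearMap.toMatrix b b (ρ g) = M g from fun _ => rfl, hmul, hMc,
      Matrix.trace_fin_two, Matrix.det_fin_two, Matrix.mul_apply, Fin.sum_univ_two] at hg hgc
    simp at hg hgc
    exact mul_eq_zero.mp (mul_eq_zero_of_trace_eq h2 (a := M g 0 0) (d := M g 1 1)
      (hg.imp_right fun e => by linear_combination e)
      (hgc.imp (fun e => by linear_combination e) fun e => by linear_combination e))
  have hunit : ∀ g, M g * M g⁻¹ = 1 := fun g => by
    rw [← hmul, mul_inv_cancel]
    show LinearMap.toMatrix b b (ρ 1) = 1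
    rw [map_one]
    exact LinearMap.toMatrix_one b
  have all : (∀ g, M g 1 0 = 0) ∨ ∀ g, M g 0 1 = 0 := by
    by_contra hcon
    push Not at hcon
    obtain ⟨⟨g, hg⟩, ⟨h', hh⟩⟩ := hcon
    have hg' := (key g).resolve_right hg
    have hh' := (key h').resolve_left hh
    have hg00 : M g 0 0 ≠ 0 := fun h0 => by
      have := congrArg (· 0 0) (hunit g)
      simp [Matrix.mul_apply, Fin.sum_univ_two, h0, hg'] at this
    have hh00 : M h' 0 0 ≠ 0 := fun h0 => by
      have := congrArg (· 0 0) (show M h'⁻¹ * M h' = 1 by simpa using hunit h'⁻¹)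
      simp [Matrix.mul_apply, Fin.sum_univ_two, h0, hh'] at this
    rcases key (g * h') with e | e <;>
      simp [hmul, Matrix.mul_apply, Fin.sum_univ_two, hg', hh', hg00, hh00, hg, hh] at e
  have col : ∀ g j i, i ≠ j → M g i j = 0 → ρ g (b j) = M g j j • b j := by
    intro g j i hij h0
    rw [← b.sum_repr (ρ g (b j)), Fin.sum_univ_two]
    simp only [M, LinearMap.toMatrix_apply] at h0 ⊢
    fin_cases j <;> fin_cases i <;> simp_all
  rcases all with h0 | h0
  · exact ⟨b 0, b.ne_zero 0, fun g => ⟨_, col g 0 1 (by decide) (h0 g)⟩⟩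
  · exact ⟨b 1, b.ne_zero 1, fun g => ⟨_, col g 1 0 (by decide) (h0 g)⟩⟩

end Abstract

end Fermat.Agent.Ihara
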