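import Fermat.Agent.Ihara.PairingCusp

/-!
# Powers of cusp generators

Centralisers of powers of the generators `cuspElt` of the cusps: powers of generators of different
cusps are not conjugate, and only `±` powers of a generator conjugate a nonzero power of it into a
power of it. Used in the adjunction for the Poincaré pairing.
-/

namespace Fermat.Agent.Ihara

open scoped MatrixGroups
open ModularGroup Fermat.Agent.Grp

variable {Γ : Subgroup SL(2, ℤ)}

variable [Γ.FiniteIndex]

theorem cuspElt_zpow_injective (x : SL(2, ℤ) ⧸ Γ) :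
    Function.Injective fun n : ℤ => cuspElt Γ x ^ n := by
  intro m n h
  have h' := congrArg Subtype.val h
  simp only [coe_cuspElt_zpow] at h'
  exact mul_left_cancel₀ (period_T_pos' x).ne' (T_zpow_injective (mul_left_cancel
      (mul_right_cancel h')))

/-- An element conjugating a nonzero power of a cusp generator to a power of another one. -/
theorem conj_zpow_cuspElt (hneg : (-1 : SL(2, ℤ)) ∈ Γ) {q q' : FaceOrbit Γ} (c : Γ) {n n' : ℤ}
    (hn : n ≠ 0) (h : c * cuspElt Γ q.out ^ n * c⁻¹ = cuspElt Γ q'.out ^ n') :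
    q = q' ∧ ∃ i : ℤ, (c : SL(2, ℤ)) = ((cuspElt Γ q.out ^ i : Γ) : SL(2, ℤ)) ∨
      (c : SL(2, ℤ)) = -((cuspElt Γ q.out ^ i : Γ) : SL(2, ℤ)) := by
  set u := q'.out.out * (c : SL(2, ℤ)) * q.out.out⁻¹ with hu
  have hcomm : u * T ^ ((MulAction.period T q.out : ℤ) * n) =
      T ^ ((MulAction.period T q'.out : ℤ) * n') * u := by
    have e := congrArg Subtype.val h
    simp only [Subgroup.coe_mul, InvMemClass.coe_inv, coe_cuspElt_zpow] at e
    rw [hu]
    calc q'.out.out * (c : SL(2, ℤ)) * q.out.out⁻¹ * T ^ ((MulAction.period T q.out : ℤ) * n)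
        = q'.out.out * ((c : SL(2, ℤ)) * (q.out.out⁻¹ *
            T ^ ((MulAction.period T q.out : ℤ) * n) * q.out.out⁻¹⁻¹) * (c : SL(2, ℤ))⁻¹) *
            c * q.out.out⁻¹ := by group
      _ = _ := by rw [e]; group
  obtain ⟨-, j, hj⟩ := semiconj_T_zpow (mul_ne_zero (period_T_pos' q.out).ne' hn) hcomm
  have hux : u • q.out = q'.out := by
    have hinv : q.out.out⁻¹ • q.out = baseCoset Γ := by
      rw [inv_smul_eq_iff]; exact (out_smul_baseCoset q.out).symm
    rw [hu, mul_smul, mul_smul, hinv, (smul_baseCoset_eq _).mpr c.2, out_smul_baseCoset]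
  have hT : T ^ j • q.out = q'.out := by
    rcases hj with hj | hj
    · rwa [hj] at hux
    · rwa [hj, neg_smul_coset hneg] at hux
  obtain rfl : q = q' := by
    rw [← Quotient.out_eq' q, ← Quotient.out_eq' q', ← hT]
    exact (mk_zpow_smul T j _).symm
  obtain ⟨i, rfl⟩ := MulAction.zpow_smul_eq_iff_period_dvd.mp hT
  have hc : (c : SL(2, ℤ)) = q.out.out⁻¹ * u * q.out.out⁻¹⁻¹ := by rw [hu]; group
  refine ⟨rfl, i, ?_⟩
  rw [hc, coe_cuspElt_zpow]
  rcases hj with hj | hj <;> rw [hj]
  · exact Or.inl rfl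
  · exact Or.inr (by simp)

end Fermat.Agent.Ihara
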