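import Fermat.Agent.Ihara.PairingMain
import Fermat.Agent.Ihara.RaiseModP

/-!
# Level raising in weight two

Ribet's theorem: a normalized eigenform of level `N` which is congruent mod `p` to an integral
non-Eisenstein system and satisfies `a_q ^ 2 ≡ (q + 1) ^ 2` at a prime `q ∤ N` is congruent to an
eigenform of level `N q` with `a_q ^ 2 = 1`. The form is found in the common kernel of the two
transfers, via the Poincaré pairing and Ihara's lemma.
-/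

noncomputable section

namespace Fermat.Agent.Ihara

open scoped MatrixGroups
open CongruenceSubgroup ModularFormClass Fermat.Agent.Grp Fermat.Agent.Hecke

variable {S : Set ℕ} {N q : ℕ} [NeZero N] [NeZero q]

/-- Transfers commute with Hecke operators over any subring of `ℂ`. -/
theorem clT_clJ_of_injective {k k' : Type} [CommRing k] [CommRing k'] (f : k →+* k')
    (hf : Function.Injective f) {ℓ : ℕ} [NeZero ℓ]
    (h : ∀ χ : clH k' (N * q), clJ k' N q (clT k' (N * q) ℓ χ) =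
      (clT k' N ℓ (clJ k' N q χ).1, clT k' N ℓ (clJ k' N q χ).2)) (χ : clH k (N * q)) :
    clJ k N q (clT k (N * q) ℓ χ) = (clT k N ℓ (clJ k N q χ).1, clT k N ℓ (clJ k N q χ).2) := by
  have h1 := h (clMap f χ)
  rw [clT_clMap, clJ_clMap, clJ_clMap, clT_clMap, clT_clMap] at h1
  exact Prod.ext (clMap_injective f hf (congrArg Prod.fst h1))
    (clMap_injective f hf (congrArg Prod.snd h1))

/-- The pair of transfers is equivariant for the polynomial Hecke action. -/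
theorem clJ_act {k : Type} [CommRing k]
    (hJ : ∀ (a : HeckeIdx S) (x : clH k (N * q)), clJ k N q (opAt k (N * q) a x) =
      (opAt k N a (clJ k N q x).1, opAt k N a (clJ k N q x).2))
    (ρ : HeckePoly S →+* Module.End k (clH k N))
    (hρ : ∀ a, ρ (MvPolynomial.X a) = opAt k N a)
    (ρ' : HeckePoly S →+* Module.End k (clH k (N * q)))
    (hρ' : ∀ a, ρ' (MvPolynomial.X a) = opAt k (N * q) a) (t : HeckePoly S)
    (x : clH k (N * q)) :
    clJ k N q (ρ' t x) = (ρ t (clJ k N q x).1, ρ t (clJ k N q x).2) :=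
  act_prod (V := clH k (N * q)) (W₁ := clH k N) (W₂ := clH k N) ρ' ρ ρ (clJ k N q)
    (fun a x => by rw [hρ', hρ]; exact hJ a x) t x

/-- The polynomial Hecke actions commute with change of coefficients. -/
theorem act_clMap {k k' : Type} [CommRing k] [CommRing k'] (f : k →+* k') {M : ℕ} [NeZero M]
    (ρ : HeckePoly S →+* Module.End k (clH k M)) (hρ : ∀ a, ρ (MvPolynomial.X a) = opAt k M a)
    (ρ' : HeckePoly S →+* Module.End k' (clH k' M)) (hρ' : ∀ a, ρ' (MvPolynomial.X a) = opAt k' M a)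
    (t : HeckePoly S) (x : clH k M) : clMap f (ρ t x) = ρ' t (clMap f x) :=
  polyAct_intertwine (V := clH k M) (W := clH k' M) ρ ρ' (clMap f)
    (fun a y => by rw [hρ, hρ']; exact (clT_clMap f y).symm) t x

variable {p : ℕ} [hp : Fact p.Prime]

omit hp in
/-- The lattice step for abstract lattices `H`, `H'` with reductions `Hp`, `Hp'` mod `p`: Ihara's
lemma, its dual, and a vector of the kernel of `j ∘ i` mod `p` at `m` make `ker j` supported at
`m`. -/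
theorem lattice_step {R H H' Hp Hp' : Type*} [CommRing R] (m : Ideal R) [m.IsMaximal] {p : ℕ}
    (hpm : (p : R) ∈ m) [AddCommGroup H] [Module.Finite ℤ H] [AddCommGroup H']
    [AddCommGroup Hp] [AddCommGroup Hp']
    (ρ : R →+* AddMonoid.End (H × H)) (ρ' : R →+* AddMonoid.End H')
    (ρp : R →+* AddMonoid.End (Hp × Hp))
    (i : H × H →+ H') (j : H' →+ H × H) (ip : Hp × Hp →+ Hp') (jp : Hp' →+ Hp × Hp)
    (red : H →+ Hp) (red' : H' →+ Hp') (hker : ∀ x, red x = 0 → ∃ z, x = p • z)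
    (hp0 : ∀ z, red (p • z) = 0) (hp0' : ∀ z, red' (p • z) = 0)
    (hsurj : Function.Surjective red) (hsurj' : Function.Surjective red')
    (hi : ∀ r x, i (ρ r x) = ρ' r (i x)) (hj : ∀ r x, j (ρ' r x) = ρ r (j x))
    (hρ : ∀ r x, (red.prodMap red) (ρ r x) = ρp r ((red.prodMap red) x))
    (hired : ∀ x, ip ((red.prodMap red) x) = red' (i x))
    (hjred : ∀ x, jp (red' x) = (red.prodMap red) (j x))
    (hihara : ∀ w, ip w = 0 → (∀ r ∈ m, ρp r w = 0) → w = 0)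
    (hcok : ∃ t ∉ m, ∀ y, ∃ χ, jp χ = ρp t y)
    (v : Hp × Hp) (hv : v ≠ 0) (hmv : ∀ r ∈ m, ρp r v = 0) (hjiv : jp (ip v) = 0)
    {s : R} (hs : s ∉ m) : ∃ x, j x = 0 ∧ ρ' s x ≠ 0 := by
  set red2 : H × H →+ Hp × Hp := red.prodMap red with hred2
  have hker2 : ∀ x, red2 x = 0 → ∃ z, x = p • z := fun x hx => by
    obtain ⟨z1, hz1⟩ := hker x.1 (congrArg Prod.fst hx)
    obtain ⟨z2, hz2⟩ := hker x.2 (congrArg Prod.snd hx)
    exact ⟨(z1, z2), Prod.ext hz1 hz2⟩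
  have hp02 : ∀ z : H × H, red2 (p • z) = 0 := fun z => Prod.ext (hp0 z.1) (hp0 z.2)
  obtain ⟨a, ha⟩ := hsurj v.1
  obtain ⟨b, hb⟩ := hsurj v.2
  have hvz : red2 (a, b) = v := Prod.ext ha hb
  obtain ⟨t, ht, hcok⟩ := hcok
  refine ker_supported_act m hpm ρ ρ' i j hi hj ?_ ⟨t, ht, fun y => ?_⟩ (a, b) ?_ ?_ ?_ hs
  · rintro w hw ⟨x, hx⟩
    refine hker2 w (hihara (red2 w) (by rw [hired, hx, hp0']) fun r hr => ?_)
    obtain ⟨z, hz⟩ := hw r hr
    rw [← hρ, hz, hp02]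
  · obtain ⟨χ, hχ⟩ := hcok (red2 y)
    obtain ⟨χz, rfl⟩ := hsurj' χ
    rw [hjred, ← hρ] at hχ
    obtain ⟨z, hz⟩ := hker2 (ρ t y - j χz) (by rw [map_sub, ← hχ, sub_self])
    exact ⟨χz, z, eq_add_of_sub_eq' hz⟩
  · rintro ⟨z, hz⟩
    exact hv (by rw [← hvz, hz, hp02])
  · exact fun r hr => hker2 _ (by rw [hρ, hvz, hmv r hr])
  · exact hker2 _ (by rw [← hjred, ← hired, hvz, hjiv])

omit hp in
/-- `(φ, -e φ)` lies in the kernel of `j ∘ i` if `T_q φ = e (q + 1) φ` with `e ^ 2 = 1`. -/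
theorem clJ_clI_eq_zero {k : Type} [CommRing k] (hq : q.Prime) (hqN : ¬ q ∣ N) {φ : clH k N}
    {e : k} (he : e * e = 1) (hφq : clT k N q φ = (e * ((q : k) + 1)) • φ) :
    clJ k N q (clI k N q (φ, (-e) • φ)) = 0 := by
  rw [clJ_clI hq hqN, map_smul, hφq, ← Nat.cast_smul_eq_nsmul k, ← Nat.cast_smul_eq_nsmul k,
    smul_smul, smul_smul, ← add_smul, ← add_smul]
  refine Prod.ext ?_ ?_
  · show (((q + 1 : ℕ) : k) + -e * (e * ((q : k) + 1))) • φ = 0
    rw [show ((q + 1 : ℕ) : k) + -e * (e * ((q : k) + 1)) = 0 by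
      push_cast; linear_combination (-((q : k) + 1)) * he, zero_smul]
  · show (e * ((q : k) + 1) + ((q + 1 : ℕ) : k) * -e) • φ = 0
    rw [show e * ((q : k) + 1) + ((q + 1 : ℕ) : k) * -e = 0 by push_cast; ring, zero_smul]

theorem clMap_nsmul_eq_zero {Γ : Subgroup SL(2, ℤ)} (z : clHoms ℤ Γ ℤ) :
    clMap (Int.castRingHom (ZMod p)) (p • z) = 0 :=
  Subtype.ext (AddMonoidHom.ext fun γ => by
    show ((p • (z : Additive Γ →+ ℤ) γ : ℤ) : ZMod p) = 0
    rw [nsmul_eq_mul, Int.cast_mul]; simp)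

/-- The lattice step: `ker j` over `ℤ` is supported at `θ`, i.e. no `s` with `θ s ≠ 0` kills it. -/
theorem exists_ker_clJ_ne_zero (hq : q.Prime) (hqN : ¬ q ∣ N)
    (hN : ∀ a : HeckeIdx S, ¬ a.val ∣ N) (hqS : ∀ a : HeckeIdx S, ¬ a.val ∣ q)
    (θ : HeckePoly S →+* ZMod p) (hgood : HasGoodPrime N q θ)
    (ρz : HeckePoly S →+* Module.End ℤ (clH ℤ N))
    (hρz : ∀ a, ρz (MvPolynomial.X a) = opAt ℤ N a)
    (ρz' : HeckePoly S →+* Module.End ℤ (clH ℤ (N * q)))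
    (hρz' : ∀ a, ρz' (MvPolynomial.X a) = opAt ℤ (N * q) a)
    (hJ : ∀ (a : HeckeIdx S) (x : clH ℤ (N * q)), clJ ℤ N q (opAt ℤ (N * q) a x) =
      (opAt ℤ N a (clJ ℤ N q x).1, opAt ℤ N a (clJ ℤ N q x).2))
    {φ : clH (ZMod p) N} (hφ : φ ≠ 0)
    (hφS : ∀ a : HeckeIdx S, opAt (ZMod p) N a φ = θ (MvPolynomial.X a) • φ)
    {e : ZMod p} (he : e * e = 1) (hφq : clT (ZMod p) N q φ = (e * ((q : ZMod p) + 1)) • φ)
    {s : HeckePoly S} (hs : s ∉ RingHom.ker θ) :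
    ∃ x : clH ℤ (N * q), clJ ℤ N q x = 0 ∧ ρz' s x ≠ 0 := by
  have : (RingHom.ker θ).IsMaximal :=
    RingHom.ker_isMaximal_of_surjective θ (ZMod.ringHom_surjective θ)
  obtain ⟨ρp, hρp⟩ := exists_act (ZMod p) N S fun a b x =>
    clT_comm_of_surjective ZMod.intCast_surjective a.prime b.prime x
  obtain ⟨ρp', hρp'⟩ := exists_act (ZMod p) (N * q) S fun a b x =>
    clT_comm_of_surjective ZMod.intCast_surjective a.prime b.prime x
  obtain ⟨P, hP⟩ := exists_poincarePairing (ZMod p)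
  have hact : ∀ r, ρp r φ = θ r • φ :=
    act_eq_smul (V := clH (ZMod p) N) ρp θ φ (fun a => by rw [hρp]; exact hφS a)
  obtain ⟨t, ht, hcok⟩ := exists_clJ_surjective_modp hP hq hqN hN hqS θ hgood ρp hρp ρp' hρp'
  exact lattice_step (H := clH ℤ N) (H' := clH ℤ (N * q)) (Hp := clH (ZMod p) N)
    (Hp' := clH (ZMod p) (N * q)) (RingHom.ker θ) (p := p) (by simp [RingHom.mem_ker])
    (pairAct ρz) ((endForget ℤ (clH ℤ (N * q))).comp ρz') (pairAct ρp)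
    (clI ℤ N q).toAddMonoidHom (clJ ℤ N q).toAddMonoidHom
    (clI (ZMod p) N q).toAddMonoidHom (clJ (ZMod p) N q).toAddMonoidHom
    (clMap (Int.castRingHom (ZMod p))) (clMap (Int.castRingHom (ZMod p)))
    (fun x hx => (exists_of_clMap_eq_zero hp.out.ne_zero x hx).imp
      fun z hz => by rw [← natCast_zsmul]; exact hz)
    clMap_nsmul_eq_zero clMap_nsmul_eq_zero
    (clMap_surjective (neg_one_mem_Gamma0 N) ZMod.intCast_surjective)
    (clMap_surjective (neg_one_mem_Gamma0 (N * q)) ZMod.intCast_surjective)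
    (fun r x => (clI_act hN hqS ρz hρz ρz' hρz' r x).symm)
    (fun r x => clJ_act hJ ρz hρz ρz' hρz' r x)
    (fun r x => Prod.ext (act_clMap _ ρz hρz ρp hρp r x.1) (act_clMap _ ρz hρz ρp hρp r x.2))
    (fun x => clI_clMap (Int.castRingHom (ZMod p)) x)
    (fun x => clJ_clMap (Int.castRingHom (ZMod p)) x)
    (fun w hw hm => ihara_modp hq hqN hN hqS θ hgood ρp hρp hw
      fun r hr => congrArg Prod.fst (hm r hr))
    ⟨t, ht, hcok⟩ (φ, (-e) • φ) (fun h => hφ (congrArg Prod.fst h))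
    (fun r hr => Prod.ext
      (show ρp r φ = 0 by rw [hact, show θ r = 0 from hr, zero_smul])
      (show ρp r ((-e) • φ) = 0 by
        rw [(ρp r).map_smul, hact, show θ r = 0 from hr, zero_smul, smul_zero]))
    (clJ_clI_eq_zero hq hqN he hφq) hs

/-- A complex eigen system in the common kernel of the transfers congruent to `θ`. -/
theorem exists_raised_vector (hq : q.Prime) (hqN : ¬ q ∣ N)
    (hN : ∀ a : HeckeIdx S, ¬ a.val ∣ N) (hqS : ∀ a : HeckeIdx S, ¬ a.val ∣ q)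
    (θ : HeckePoly S →+* ZMod p) (hgood : HasGoodPrime N q θ)
    {φ : clH (ZMod p) N} (hφ : φ ≠ 0)
    (hφS : ∀ a : HeckeIdx S, opAt (ZMod p) N a φ = θ (MvPolynomial.X a) • φ)
    {e : ZMod p} (he : e * e = 1) (hφq : clT (ZMod p) N q φ = (e * ((q : ZMod p) + 1)) • φ) :
    ∃ (v : clH ℂ (N * q)) (χ : HeckePoly S →+* integralClosure ℤ ℂ), v ≠ 0 ∧
      (∀ a : HeckeIdx S, opAt ℂ (N * q) a v = (χ (MvPolynomial.X a) : ℂ) • v) ∧
      clT ℂ (N * q) q (clT ℂ (N * q) q v) = v ∧ RingHom.ker χ ≤ RingHom.ker θ := by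
  obtain ⟨ρz, hρz⟩ := exists_act ℤ N S fun a b x => clT_comm_int a.prime b.prime x
  obtain ⟨ρz', hρz'⟩ := exists_act ℤ (N * q) S fun a b x => clT_comm_int a.prime b.prime x
  obtain ⟨ρc, hρc⟩ := exists_act ℂ N S fun a b x => clT_comm_complex a.prime b.prime x
  obtain ⟨ρc', hρc'⟩ := exists_act ℂ (N * q) S fun a b x => clT_comm_complex a.prime b.prime x
  obtain ⟨P, hP⟩ := exists_poincarePairing ℂ
  have hJC : ∀ (a : HeckeIdx S) (x : clH ℂ (N * q)), clJ ℂ N q (opAt ℂ (N * q) a x) =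
      (opAt ℂ N a (clJ ℂ N q x).1, opAt ℂ N a (clJ ℂ N q x).2) :=
    fun a x => clT_clJ hP a.prime (hN a) (hqS a) x
  have hJZ : ∀ (a : HeckeIdx S) (x : clH ℤ (N * q)), clJ ℤ N q (opAt ℤ (N * q) a x) =
      (opAt ℤ N a (clJ ℤ N q x).1, opAt ℤ N a (clJ ℤ N q x).2) :=
    fun a x => clT_clJ_of_injective (k := ℤ) (k' := ℂ) (Int.castRingHom ℂ) Int.cast_injective
      (hJC a) x
  let W : Submodule ℂ (clH ℂ (N * q)) := LinearMap.ker (clJ ℂ N q)
  have hW : Eis.IsStableSub ρc' W := fun t w hw => by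
    show clJ ℂ N q (ρc' t w) = 0
    rw [clJ_act hJC ρc hρc ρc' hρc' t w, show clJ ℂ N q w = 0 from hw]
    exact Prod.ext (map_zero _) (map_zero _)
  have : (RingHom.ker θ).IsPrime := RingHom.ker_isPrime θ
  obtain ⟨χC, v, hvW, hv0, hv, hker⟩ : ∃ (χC : HeckePoly S →+* ℂ) (v : clH ℂ (N * q)),
      v ∈ W ∧ v ≠ 0 ∧ (∀ t, ρc' t v = χC t • v) ∧ RingHom.ker χC ≤ RingHom.ker θ := by
    by_contra hno
    push Not at hno
    obtain ⟨s, hs, hsW⟩ := Eis.exists_killing_or_eigen ρc' (RingHom.ker θ) inferInstance W hW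
      (fun χ v h1 h2 h3 => hno χ v h1 h2 h3)
    obtain ⟨x, hx, hsx⟩ := exists_ker_clJ_ne_zero hq hqN hN hqS θ hgood ρz hρz ρz' hρz' hJZ
      hφ hφS he hφq hs
    refine hsx (clMap_injective (Int.castRingHom ℂ) Int.cast_injective ?_)
    rw [map_zero, act_clMap (Int.castRingHom ℂ) ρz' hρz' ρc' hρc' s x]
    refine hsW _ ?_
    show clJ ℂ N q (clMap (Int.castRingHom ℂ) x) = 0
    rw [clJ_clMap, hx]
    exact Prod.ext (map_zero _) (map_zero _)
  have heig : ∀ a : HeckeIdx S, opAt ℂ (N * q) a v = χC (MvPolynomial.X a) • v := fun a => by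
    rw [← hρc']; exact hv _
  have hint : ∀ a : HeckeIdx S, IsIntegral ℤ (χC (MvPolynomial.X a)) := fun a =>
    isIntegral_eigenvalue (L := clH ℤ (N * q)) (V := clH ℂ (N * q)) (clMap (Int.castRingHom ℂ))
      (span_range_clMap (neg_one_mem_Gamma0 (N * q)))
      (opAt ℤ (N * q) a).toAddMonoidHom.toIntLinearMap (opAt ℂ (N * q) a)
      (fun y => (clT_clMap (Int.castRingHom ℂ) y).symm) hv0 (heig a)
  let χ : HeckePoly S →+* integralClosure ℤ ℂ :=
    MvPolynomial.eval₂Hom (Int.castRingHom _) fun a => ⟨χC (MvPolynomial.X a), hint a⟩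
  have hχ : χC = (algebraMap (integralClosure ℤ ℂ) ℂ).comp χ :=
    MvPolynomial.ringHom_ext (fun z => by simp [χ]) (fun a => by simp [χ])
  refine ⟨v, χ, hv0, fun a => ?_, ?_, fun r hr => hker ?_⟩
  · rw [heig a, hχ]; rfl
  · have hv' : clJ ℂ N q v = 0 := hvW
    exact Subtype.ext (perTransfer_sq_of_cores hq hqN _
      (congrArg Subtype.val (congrArg Prod.fst hv')) (congrArg Subtype.val (congrArg Prod.snd hv')))
  · rw [RingHom.mem_ker, hχ, RingHom.comp_apply, RingHom.mem_ker.mp hr, map_zero]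

omit [NeZero q] in
/-- A root of `X ^ 2 ≡ (q + 1) ^ 2` modulo a prime is congruent to `± (q + 1)`. -/
theorem exists_sign_of_sq_sub_sq_mem {R : Type*} [CommRing R] (𝔪 : Ideal R) [𝔪.IsPrime] {x : R}
    (h : x ^ 2 - ((q : R) + 1) ^ 2 ∈ 𝔪) :
    ∃ e : ℤ, e * e = 1 ∧ x - ((e * ((q : ℤ) + 1) : ℤ) : R) ∈ 𝔪 := by
  rw [sq_sub_sq] at h
  rcases Ideal.IsPrime.mem_or_mem inferInstance h with h | h
  · refine ⟨-1, by norm_num, ?_⟩
    convert h using 1
    push_cast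
    ring
  · exact ⟨1, by norm_num, by simpa using h⟩

/-- **Level raising**: an eigenform `f` of level `N` congruent to the integral system `a` at the
primes of `S`, one of which is not Eisenstein, with `a_q(f) ^ 2 ≡ (q + 1) ^ 2` at a prime `q ∤ N`,
is congruent at `S` to an eigenform `g` of level `N q` with `a_q(g) ^ 2 = 1`. -/
theorem exists_levelRaised (_hp' : p.Prime) (hq : q.Prime) (hqN : ¬ q ∣ N) (S : Set ℕ)
    (hS : ∀ ℓ ∈ S, ℓ.Prime ∧ ¬ ℓ ∣ N ∧ ¬ ℓ ∣ q) (a : ℕ → ℤ)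
    (hgood : ∃ ℓ ∈ S, ¬ (ℓ : ℤ) ∣ (q : ℤ) ^ (4 * N ^ 2) - 1 ∧
      ¬ (p : ℤ) ∣ a ℓ - ((ℓ : ℤ) + 1) ∧ ¬ (p : ℤ) ∣ a ℓ + ((ℓ : ℤ) + 1))
    {f : CuspForm (Gamma0 N) 2} (hf : f.IsNormalizedEigenform)
    (𝔪 : Ideal (integralClosure ℤ ℂ)) [𝔪.IsMaximal] (hpm : (p : integralClosure ℤ ℂ) ∈ 𝔪)
    (hcong : ∀ ℓ ∈ S, ∃ x : integralClosure ℤ ℂ, (x : ℂ) = qCoeff f ℓ ∧
      x - (a ℓ : integralClosure ℤ ℂ) ∈ 𝔪)
    (hLR : ∃ x : integralClosure ℤ ℂ, (x : ℂ) = qCoeff f q ∧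
      x ^ 2 - ((q : integralClosure ℤ ℂ) + 1) ^ 2 ∈ 𝔪) :
    ∃ (g : CuspForm (Gamma0 (N * q)) 2) (Q : Ideal (integralClosure ℤ ℂ)),
      g.IsNormalizedEigenform ∧ Q.IsMaximal ∧ (p : integralClosure ℤ ℂ) ∈ Q ∧
      (∀ ℓ ∈ S, ∃ x : integralClosure ℤ ℂ, (x : ℂ) = qCoeff g ℓ ∧
        x - (a ℓ : integralClosure ℤ ℂ) ∈ Q) ∧
      qCoeff g q ^ 2 = 1 := by
  classical
  obtain ⟨xq, hxq, hxq2⟩ := hLR
  obtain ⟨es, hes, hesm⟩ := exists_sign_of_sq_sub_sq_mem 𝔪 hxq2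
  -- a mod `p` eigenvector for `S ∪ {q}`
  obtain ⟨φ₀, hφ₀, hφ₀T⟩ := exists_clH_eigenvector hf
  let n : HeckeIdx (insert q S) → ℤ := fun b =>
    if b.val ∈ S then a b.val else es * ((q : ℤ) + 1)
  have hb : ∀ b : HeckeIdx (insert q S), ∃ x : integralClosure ℤ ℂ,
      (x : ℂ) = qCoeff f b.val ∧ x - n b ∈ 𝔪 := fun b => by
    by_cases h : b.val ∈ S
    · simpa [n, h] using hcong b.val h
    · have hbq : b.val = q := b.mem.resolve_right h
      exact ⟨xq, by rw [hbq, hxq], by simpa [n, h] using hesm⟩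
  have hbN : ∀ b : HeckeIdx (insert q S), ¬ b.val ∣ N := fun b => by
    rcases b.mem with h | h
    · rw [h]; exact hqN
    · exact (hS _ h).2.1
  choose c hc hcm using hb
  obtain ⟨φ, hφ, hφT⟩ := exists_eigen_modp (p := p) hpm hφ₀ c
    (fun b => by rw [hc b]; exact hφ₀T b.val b.prime (hbN b)) n hcm
  let θ : HeckePoly S →+* ZMod p :=
    MvPolynomial.eval₂Hom (Int.castRingHom (ZMod p)) fun b => (a b.val : ZMod p)
  have hθX : ∀ b, θ (MvPolynomial.X b) = (a b.val : ZMod p) := fun b => by simp [θ]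
  have hgood' : HasGoodPrime N q θ := by
    obtain ⟨ℓ, hℓ, he1, h1, h2⟩ := hgood
    refine ⟨⟨ℓ, hℓ, (hS ℓ hℓ).1⟩, he1, ?_, ?_⟩ <;> rw [hθX]
    · intro h
      apply h1
      rw [← ZMod.intCast_zmod_eq_zero_iff_dvd]
      push_cast; rw [h]; ring
    · intro h
      apply h2
      rw [← ZMod.intCast_zmod_eq_zero_iff_dvd]
      push_cast; rw [h]; ring
  have hφS : ∀ b : HeckeIdx S, opAt (ZMod p) N b φ = θ (MvPolynomial.X b) • φ := fun b => by
    have h := hφT ⟨b.val, Set.mem_insert_of_mem _ b.mem, b.prime⟩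
    rw [hθX]
    simpa [n, b.mem] using h
  have hφq : clT (ZMod p) N q φ = ((es : ZMod p) * ((q : ZMod p) + 1)) • φ := by
    have h := hφT ⟨q, Set.mem_insert _ _, hq⟩
    have hqS : q ∉ S := fun hmem => (hS q hmem).2.2 dvd_rfl
    simpa [n, hqS] using h
  obtain ⟨v, χ, hv0, hv, hvq, hker⟩ := exists_raised_vector hq hqN (fun b => (hS _ b.mem).2.1)
    (fun b => (hS _ b.mem).2.2) θ hgood' hφ hφS (e := (es : ZMod p))
    (by rw [← Int.cast_mul, hes, Int.cast_one]) hφq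
  obtain ⟨Q, hQ, hpQ, hQc⟩ := exists_ideal_of_char χ θ hker
  let cg : ℕ → ℂ := fun ℓ => if h : ℓ ∈ S then
    (χ (MvPolynomial.X ⟨ℓ, h, (hS ℓ h).1⟩) : ℂ) else 0
  obtain ⟨g, hg, hgS, hgq⟩ := exists_eigenform_of_clH (N := N * q) (fun ℓ h => (hS ℓ h).1) cg hq hv0
    (fun ℓ _ hℓ => by
      simp only [cg, dif_pos hℓ]
      exact hv ⟨ℓ, hℓ, (hS ℓ hℓ).1⟩)
    hvq
  refine ⟨g, Q, hg, hQ, hpQ, fun ℓ hℓ => ⟨χ (MvPolynomial.X ⟨ℓ, hℓ, (hS ℓ hℓ).1⟩), ?_, ?_⟩, hgq⟩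
  · rw [hgS ℓ hℓ]; simp only [cg, dif_pos hℓ]
  · exact hQc _ _ (hθX _)

end Fermat.Agent.Ihara
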