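import Fermat.Prelude.Def_FLTPrelim_ModularRep
import Fermat.Agent.EC.FrobTrace
import Fermat.Agent.Ihara.IrrCurve

/-!
# Auxiliary primes from irreducibility

An irreducible mod `p` representation of an elliptic curve over `ℚ` has arbitrarily large good
primes `ℓ` with `a_ℓ ≢ ± (ℓ + 1) mod p`. Level raising uses such a prime as its non-Eisenstein
witness.
-/

open WeierstrassCurve WeierstrassCurve.Affine WeierstrassCurve.Affine.Point

namespace Fermat.Agent.Ihara

/-- An irreducible mod `p` representation has traces different from `±(ℓ+1)` at infinitely many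
good primes `ℓ`. -/
theorem exists_prime_trace_ne (E : WeierstrassCurve ℚ) [E.IsElliptic] {W : WeierstrassCurve ℤ}
    (hW : W.IsIntegralModelOf E) {p : ℕ} (hp : p.Prime) (hp2 : p ≠ 2)
    (hirr : GaloisRepIsIrreducible (K := AlgebraicClosure ℚ) ℚ E p) (B : ℕ) :
    ∃ ℓ : ℕ, ℓ.Prime ∧ B < ℓ ∧ ℓ ≠ p ∧ W.IsGoodPrimeFor ℓ ∧
      ¬ (p : ℤ) ∣ W.apOfModel ℓ - ((ℓ : ℤ) + 1) ∧
      ¬ (p : ℤ) ∣ W.apOfModel ℓ + ((ℓ : ℤ) + 1) := by
  have : Fact p.Prime := ⟨hp⟩
  obtain ⟨ℓ, hℓ, hg, hS, h1, h2⟩ := exists_prime_not_congr hp2 E hW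
    (fun ℓ hℓ hℓp hgood A σ hA hσ => EC.galoisTrace_frobenius W p ℓ hℓ hℓp hgood hA hσ)
    hirr (insert p (Finset.range (B + 1)))
  simp only [Finset.mem_insert, Finset.mem_range, not_or, not_lt] at hS
  refine ⟨ℓ, hℓ, hS.2, hS.1, hg, fun hd => h1 ?_, fun hd => h2 ?_⟩
  · have := (ZMod.intCast_zmod_eq_zero_iff_dvd _ p).mpr hd
    push_cast at this
    linear_combination this
  · have := (ZMod.intCast_zmod_eq_zero_iff_dvd _ p).mpr hd
    push_cast at this
    linear_combination this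

end Fermat.Agent.Ihara
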